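import Mathlib
import Fermat.Prelude.Def_ModularCurve_ArithmeticGalois
import Fermat.Prelude.Def_AlgebraicCurve_CanonicalDivisor
import Fermat.Prelude.Def_GaloisRep_ComplexConjugation
import Fermat.Agent.S24.ModDefs

/-!
# S24C: the modular part of S24 over `K = ℂ` — shared definitions (no proofs)

This directory is a port of the `K`-dependent part of `Fermat/Agent/S24/*` (where `K = ℚ̄`) to
`K = ℂ`, `F = ℂ(j(q^d) : d ∣ N) ⊆ ℂ((q))`, with the embedding `ι = id`.  The `K`-independent
notions (`Jfun`, `Jabd`, `Dv`, `ordAt`, `trans`, `MerInf`, `ordInf`, `laurentQ`, `XN`, …) and all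
`K`-independent lemmas are *shared* with `Fermat.Agent.S24` (not copied): only declarations whose
statement mentions the base field are repeated here, under the same name with the namespace
`Fermat.Agent.S24` replaced by `Fermat.Agent.S24C`.

Every element of `F` is a quotient `fm P / fm Q` of polynomial expressions in the generators
`j(q^d)`; the same polynomials evaluated at the analytic functions `z ↦ J(d z)` give holomorphic
functions `ev P`, `ev Q` on `ℍ`.
-/

set_option autoImplicit false

open UpperHalfPlane ModularForm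
open scoped MatrixGroups Manifold

noncomputable section

namespace Fermat.Agent.S24C
open Fermat.Agent.S24

/- The `K`-independent notions of `S24/ModDefs` are shared; they are re-exported so that e.g.
`Fermat.Agent.S24C.trans` resolves to `Fermat.Agent.S24.trans`. -/
export Fermat.Agent.S24 (Jfun Jabd Dv ordAt trans MerInf ordInf laurentQ XN)

/-- `K = ℂ`. -/
abbrev KQ : Type := ℂ

/-- The field `ℂ(j(q^d) : d ∣ N) ⊆ ℂ((q))` as an intermediate field. -/
abbrev modularFunctionFieldC (N : ℕ) : IntermediateField ℂ (LaurentSeries ℂ) :=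
  ModularCurve.laurentBaseChange ℂ (ModularCurve.modularFunctionFieldFull N)

/-- `F = ℂ(j(q^d) : d ∣ N)`, the function field of `X₀(N)` over `ℂ`. -/
abbrev FN (N : ℕ) [NeZero N] : Type := ↥(modularFunctionFieldC N)

/-- The embedding `K → ℂ` (the identity). -/
def iotaK : KQ →+* ℂ := RingHom.id ℂ

theorem iotaK_apply (x : KQ) : iotaK x = x := rfl

theorem iotaK_eq_id : iotaK = RingHom.id ℂ := rfl

/-- The formal generator `j(q^d) ∈ F`. -/
def jFormal (N : ℕ) [NeZero N] (d : Dv N) : FN N :=
  haveI : NeZero d.1 := d.neZero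
  ⟨ModularCurve.coeffEmb KQ (ModularCurve.qExpand ℚ d.1 ModularCurve.jq),
    ModularCurve.coeffEmb_mem_laurentBaseChange KQ (ModularCurve.jqd_mem_full N d.2)⟩

/-- `j ∈ F`. -/
def jBar (N : ℕ) [NeZero N] : FN N := jFormal N ⟨1, one_dvd N⟩

/-- Formal evaluation of a polynomial in the generators. -/
def fm (N : ℕ) [NeZero N] : MvPolynomial (Dv N) KQ →ₐ[KQ] FN N := MvPolynomial.aeval (jFormal N)

/-- Analytic evaluation of a polynomial in the generators: `X_d ↦ (z ↦ J(d z))`. -/
def ev (N : ℕ) : MvPolynomial (Dv N) KQ →+* (ℍ → ℂ) :=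
  MvPolynomial.eval₂Hom ((Pi.constRingHom ℍ ℂ).comp iotaK) (fun d => Jabd d.1 0 1)

/-- `f = fm P / fm Q`. -/
def IsRep (N : ℕ) [NeZero N] (f : FN N) (P Q : MvPolynomial (Dv N) KQ) : Prop :=
  fm N Q ≠ 0 ∧ f = fm N P / fm N Q

/-- The valuation of `F` at the point `τ ∈ ℍ` (order of the meromorphic function at `τ`). -/
def valPt (N : ℕ) [NeZero N] (τ : ℍ) (f : FN N) : ℤ :=
  open scoped Classical in
  if h : ∃ P Q, IsRep N f P Q then ordAt (ev N h.choose) τ - ordAt (ev N h.choose_spec.choose) τ
  else 0

/-- The valuation of `F` at the cusp `g⁻¹ ∞`: order at `i∞` of `f ∘ g⁻¹` in `q_N`. -/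
def valCusp (N : ℕ) [NeZero N] (g : SL(2, ℤ)) (f : FN N) : ℤ :=
  open scoped Classical in
  if h : ∃ P Q, IsRep N f P Q then
    ordInf N (trans g (ev N h.choose)) - ordInf N (trans g (ev N h.choose_spec.choose))
  else 0

end Fermat.Agent.S24C
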