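import Fermat.Agent.S24.ModDefs
import Fermat.Agent.S24C.ModDefs
import Fermat.Agent.S24.JOrd
import Fermat.Agent.S24.JPt

/-
S24C (port of S24 to the base field `ℂ`).  This file repeats, for `K = ℂ`,
`F = ℂ(j(q^d) : d ∣ N)` and the embedding `ι = id`, the declarations of
`Fermat/Agent/S24/JPt.lean` whose statement mentions the base field — same names, same proofs,
with `Fermat.Agent.S24` replaced by `Fermat.Agent.S24C`.  The declarations of that file which do
not mention the base field are not repeated: they are used from `Fermat.Agent.S24` directly.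
-/

/-!
# S24 / B-top [PT] — the point valuations of `j - c`

The facts of `JOrd.lean` restated on the names of `ModDefs.lean` (`Jfun`, `ordAt`, `ev`, `fm`,
`valPt`).  The value of `valPt N τ (jBar N - c)` is computed from the representative
`X₁ - C c` of `jBar N - c`; the independence of `valPt` of the representative (package
B-BRIDGE) enters as the explicit hypothesis `hwd`.
-/

set_option autoImplicit false

open UpperHalfPlane ModularForm
open scoped MatrixGroups Manifold

namespace Fermat.Agent.S24C.JPt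
open Fermat.Agent.S24 Fermat.Agent.S24.JPt

open Fermat.Agent.S24 Fermat.Agent.S24.JOrd Fermat.Agent.S20

noncomputable section


theorem ev_X_d1 (N : ℕ) : ev N (MvPolynomial.X (d1 N)) = Jfun := by
  funext z
  simp [ev, Jabd]

theorem ev_X_d1_sub_C (N : ℕ) (c : KQ) :
    ev N (MvPolynomial.X (d1 N) - MvPolynomial.C c) = fun z => Jfun z - iotaK c := by
  rw [map_sub, ev_X_d1]
  funext z
  simp [ev]

variable (N : ℕ) [NeZero N]

theorem fm_X_d1_sub_C (c : KQ) :
    fm N (MvPolynomial.X (d1 N) - MvPolynomial.C c) = jBar N - algebraMap KQ (FN N) c := by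
  simp [fm, jBar]

/-- `X₁ - C c` over `1` represents `jBar N - c`. -/
theorem isRep_jBar_sub (c : KQ) :
    IsRep N (jBar N - algebraMap KQ (FN N) c) (MvPolynomial.X (d1 N) - MvPolynomial.C c) 1 := by
  refine ⟨?_, ?_⟩
  · rw [map_one]
    exact one_ne_zero
  · rw [map_one, div_one, fm_X_d1_sub_C]

/-- **Point valuation of `j - c`** (given independence of the representative at `τ`). -/
theorem valPt_jBar_sub (τ : ℍ) (c : KQ)
    (hwd : ∀ (f : FN N) (P Q : MvPolynomial (Dv N) KQ), IsRep N f P Q →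
      valPt N τ f = ordAt (ev N P) τ - ordAt (ev N Q) τ) :
    valPt N τ (jBar N - algebraMap KQ (FN N) c)
      = if Jfun τ = iotaK c then (ellOrder τ : ℤ) else 0 := by
  rw [hwd _ _ _ (isRep_jBar_sub N c), ev_X_d1_sub_C, map_one, ordAt_one, sub_zero, ordAt_Jfun_sub]

theorem valPt_jBar_sub_of_ne (τ : ℍ) (c : KQ)
    (hwd : ∀ (f : FN N) (P Q : MvPolynomial (Dv N) KQ), IsRep N f P Q →
      valPt N τ f = ordAt (ev N P) τ - ordAt (ev N Q) τ)
    (h : Jfun τ ≠ iotaK c) : valPt N τ (jBar N - algebraMap KQ (FN N) c) = 0 := by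
  rw [valPt_jBar_sub N τ c hwd, if_neg h]

theorem valPt_jBar_sub_pos_iff (τ : ℍ) (c : KQ)
    (hwd : ∀ (f : FN N) (P Q : MvPolynomial (Dv N) KQ), IsRep N f P Q →
      valPt N τ f = ordAt (ev N P) τ - ordAt (ev N Q) τ) :
    0 < valPt N τ (jBar N - algebraMap KQ (FN N) c) ↔ Jfun τ = iotaK c := by
  rw [valPt_jBar_sub N τ c hwd]
  split_ifs with h
  · simp only [h, iff_true]
    exact_mod_cast ellOrder_pos τ
  · simp [h]

/-- Generic point: `valPt τ (j - c) = 1`. -/
theorem valPt_jBar_sub_generic (τ : ℍ) (c : KQ)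
    (hwd : ∀ (f : FN N) (P Q : MvPolynomial (Dv N) KQ), IsRep N f P Q →
      valPt N τ f = ordAt (ev N P) τ - ordAt (ev N Q) τ)
    (h : Jfun τ = iotaK c) (h0 : c ≠ 0) (h1 : c ≠ 1728) :
    valPt N τ (jBar N - algebraMap KQ (FN N) c) = 1 := by
  have hc0 : iotaK c ≠ 0 := fun h' => h0 (by
    rw [← map_zero iotaK] at h'
    exact iotaK.injective h')
  have hc1 : iotaK c ≠ 1728 := fun h' => h1 (by
    rw [← map_ofNat iotaK 1728] at h'
    exact iotaK.injective h')
  rw [valPt_jBar_sub N τ c hwd, if_pos h, ellOrder_of_generic τ (h ▸ hc0) (h ▸ hc1)]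
  rfl

/-- Orbit of `i`: `valPt τ (j - 1728) = 2`. -/
theorem valPt_jBar_sub_1728 (τ : ℍ)
    (hwd : ∀ (f : FN N) (P Q : MvPolynomial (Dv N) KQ), IsRep N f P Q →
      valPt N τ f = ordAt (ev N P) τ - ordAt (ev N Q) τ)
    (h : Jfun τ = 1728) :
    valPt N τ (jBar N - algebraMap KQ (FN N) 1728) = 2 := by
  have e : iotaK 1728 = (1728 : ℂ) := map_ofNat iotaK 1728
  rw [valPt_jBar_sub N τ 1728 hwd, e, if_pos h, ellOrder_of_eq_1728 τ h]
  rfl

/-- Orbit of `ρ`: `valPt τ (j - 0) = 3`. -/
theorem valPt_jBar_sub_zero (τ : ℍ)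
    (hwd : ∀ (f : FN N) (P Q : MvPolynomial (Dv N) KQ), IsRep N f P Q →
      valPt N τ f = ordAt (ev N P) τ - ordAt (ev N Q) τ)
    (h : Jfun τ = 0) :
    valPt N τ (jBar N - algebraMap KQ (FN N) 0) = 3 := by
  have e : iotaK 0 = (0 : ℂ) := map_zero _
  rw [valPt_jBar_sub N τ 0 hwd, e, if_pos h, ellOrder_of_eq_zero τ h]
  rfl

end

end Fermat.Agent.S24C.JPt
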