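import Mathlib
import Fermat.Prelude.Def_ModularCurve_ArithmeticGalois
import Fermat.Prelude.Thm_ModularCurve_coeffMap_qExpand
import Fermat.Agent.S28.Rot
import Fermat.Agent.S28.EtaBridge
import Fermat.Agent.S24.ModDefs
import Fermat.Agent.S24C.ModDefs
import Fermat.Agent.S24.QExp
import Fermat.Agent.S24.QExpJ

/-
S24C (port of S24 to the base field `ℂ`).  This file repeats, for `K = ℂ`,
`F = ℂ(j(q^d) : d ∣ N)` and the embedding `ι = id`, the declarations of
`Fermat/Agent/S24/QExpJ.lean` whose statement mentions the base field — same names, same proofs,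
with `Fermat.Agent.S24` replaced by `Fermat.Agent.S24C`.  The declarations of that file which do
not mention the base field are not repeated: they are used from `Fermat.Agent.S24` directly.
-/

/-!
# S24 (B1, concrete part) — `q`-expansions of `J`, of `z ↦ J ((a z + b) / d)`, the polynomial
rule, and the transfer of relations `ev N P = 0 ↔ fm N P = 0` (B-BRIDGE core)
-/

set_option autoImplicit false
open Filter Topology UpperHalfPlane
namespace Fermat.Agent.S24C.QExp
open Fermat.Agent.S24 Fermat.Agent.S24.QExp
noncomputable section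
open ModularCurve Fermat.Agent.S28.Chain


namespace HasQExp
open Fermat.Agent.S24.QExp.HasQExp

variable {h : ℕ} {f g : ℍ → ℂ} {L M : LaurentSeries ℂ}


end HasQExp


open Fermat.Agent.S24


theorem coe_fm (N : ℕ) [NeZero N] (P : MvPolynomial (Dv N) KQ) :
    ((fm N P : FN N) : LaurentSeries KQ)
      = MvPolynomial.aeval (fun d : Dv N => (jFormal N d : LaurentSeries KQ)) P := by
  have := MvPolynomial.comp_aeval (R := KQ) (fun d : Dv N => jFormal N d)
    (IntermediateField.val (modularFunctionFieldC N))
  exact congrArg (fun φ => φ P) this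

theorem coeffMap_iotaK_jFormal (N : ℕ) [NeZero N] (d : Dv N) :
    haveI : NeZero d.1 := d.neZero
    coeffMap iotaK (jFormal N d : LaurentSeries KQ)
      = qExpand ℂ d.1 (coeffMap (algebraMap ℚ ℂ) jq) := by
  have : NeZero d.1 := d.neZero
  show coeffMap iotaK (coeffEmb KQ (qExpand ℚ d.1 jq)) = _
  rw [coeffEmb, coeffMap_coeffMap, coeffMap_qExpand]
  exact congrArg _ (coeffMap_congr (RingHom.ext_rat _ _) _)

/-- The analytic evaluation `ev N P` has the formal evaluation `fm N P` as `q`-expansion. -/
theorem hasQExp_ev (N : ℕ) [NeZero N] (P : MvPolynomial (Dv N) KQ) :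
    HasQExp 1 (ev N P) (coeffMap iotaK ((fm N P : FN N) : LaurentSeries KQ)) := by
  rw [coe_fm]
  refine HasQExp.mvPolynomial iotaK (fun d : Dv N => Jabd d.1 0 1) _ (fun d => ?_) P
  have : NeZero d.1 := d.neZero
  rw [coeffMap_iotaK_jFormal]
  exact hasQExp_Jabd_scale d.1

/-- **B-BRIDGE (q-expansion principle)**: a polynomial in the generators vanishes as a function on
`ℍ` iff it vanishes in the function field. -/
theorem ev_eq_zero_iff (N : ℕ) [NeZero N] (P : MvPolynomial (Dv N) KQ) :
    ev N P = 0 ↔ fm N P = 0 := by
  have key := (hasQExp_ev N P).eq_zero_iff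
  constructor
  · intro h0
    have := key.mp (fun τ => by rw [h0]; rfl)
    have h2 : ((fm N P : FN N) : LaurentSeries KQ) = 0 :=
      coeffMap_injective' iotaK (by rw [this, map_zero])
    exact Subtype.ext h2
  · intro h0
    funext τ
    exact key.mpr (by rw [h0]; simp) τ

end
end Fermat.Agent.S24C.QExp
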