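import Fermat.Agent.S24.ModDefs
import Fermat.Agent.S24C.ModDefs
import Fermat.Agent.S24.JPt
import Fermat.Agent.S24C.JPt
import Fermat.Agent.S24.PtInv
import Fermat.Agent.S24C.PtInv
import Fermat.Agent.S24.OrdAtMod
import Fermat.Agent.S24.QExpJ
import Fermat.Agent.S24C.QExpJ
import Fermat.Agent.S20.FiberCounts
import Fermat.Agent.S24.PtTop

/-
S24C (port of S24 to the base field `ℂ`).  This file repeats, for `K = ℂ`,
`F = ℂ(j(q^d) : d ∣ N)` and the embedding `ι = id`, the declarations of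
`Fermat/Agent/S24/PtTop.lean` whose statement mentions the base field — same names, same proofs,
with `Fermat.Agent.S24` replaced by `Fermat.Agent.S24C`.  The declarations of that file which do
not mention the base field are not repeated: they are used from `Fermat.Agent.S24` directly.
-/

/-!
# S24 / B-top [PT] — point valuations of `j - c` (final layer, on the names of `ModDefs.lean`)

* `exists_Jfun_eq`, `Jfun_smul`, `Jfun_I`, `exists_fixed_ST`, `S_smul_I`;
* `PtTop.valPt_eq_of_isRep`: for `f ≠ 0`, `valPt N τ f` can be computed on any representative;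
* `valPt_jBar_sub_generic / _1728 / _zero`: `valPt N τ (jBar N - c) = 1 / 2 / 3`.
-/

set_option autoImplicit false

open UpperHalfPlane ModularForm CongruenceSubgroup
open scoped MatrixGroups Manifold

noncomputable section

namespace Fermat.Agent.S24C
open Fermat.Agent.S24


namespace PtTop
open Fermat.Agent.S24.PtTop

variable (N : ℕ) [NeZero N]

/-- Two representatives of the same `f ≠ 0` have the same order difference at `τ`. -/
theorem ordAt_sub_ordAt_eq_of_isRep (τ : ℍ) {f : FN N} {P Q P₀ Q₀ : MvPolynomial (Dv N) KQ}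
    (h : IsRep N f P Q) (h₀ : IsRep N f P₀ Q₀) (hf : f ≠ 0) :
    ordAt (ev N P₀) τ - ordAt (ev N Q₀) τ = ordAt (ev N P) τ - ordAt (ev N Q) τ := by
  obtain ⟨hQ, hfPQ⟩ := h
  obtain ⟨hQ₀, hfPQ₀⟩ := h₀
  have hP : fm N P ≠ 0 := by
    intro h0
    apply hf
    rw [hfPQ, h0, zero_div]
  have hP₀ : fm N P₀ ≠ 0 := by
    intro h0
    apply hf
    rw [hfPQ₀, h0, zero_div]
  have hmul : fm N P₀ * fm N Q = fm N P * fm N Q₀ := by
    have e : fm N P₀ / fm N Q₀ = fm N P / fm N Q := by rw [← hfPQ₀, ← hfPQ]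
    rw [div_eq_div_iff hQ₀ hQ] at e
    exact e
  have hev : ev N P₀ * ev N Q = ev N P * ev N Q₀ := by
    have h0 : fm N (P₀ * Q - P * Q₀) = 0 := by
      rw [map_sub, map_mul, map_mul, hmul, sub_self]
    have h1 := (QExp.ev_eq_zero_iff N _).mpr h0
    rw [map_sub, map_mul, map_mul, sub_eq_zero] at h1
    exact h1
  exact OrdAt.ordAt_sub_ordAt_eq_of_mul_eq_mul (PtInv.mdiff_ev N P₀) (PtInv.mdiff_ev N Q₀)
    (PtInv.mdiff_ev N P) (PtInv.mdiff_ev N Q) (PtInv.ev_ne_zero N hP₀) (PtInv.ev_ne_zero N hQ₀)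
    (PtInv.ev_ne_zero N hP) (PtInv.ev_ne_zero N hQ) hev τ

/-- **Independence of the representative**: for `f ≠ 0`, the point valuation can be computed on
any representative `f = fm P / fm Q`. -/
theorem valPt_eq_of_isRep (τ : ℍ) {f : FN N} {P Q : MvPolynomial (Dv N) KQ}
    (h : IsRep N f P Q) (hf : f ≠ 0) :
    valPt N τ f = ordAt (ev N P) τ - ordAt (ev N Q) τ := by
  have hex : ∃ P Q, IsRep N f P Q := ⟨P, Q, h⟩
  have hval : valPt N τ f
      = ordAt (ev N hex.choose) τ - ordAt (ev N hex.choose_spec.choose) τ := by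
    unfold valPt
    rw [dif_pos hex]
  rw [hval]
  exact ordAt_sub_ordAt_eq_of_isRep N τ h hex.choose_spec.choose_spec hf

/-- `jBar N - c ≠ 0` in the function field. -/
theorem jBar_sub_ne_zero (c : KQ) : jBar N - algebraMap KQ (FN N) c ≠ 0 := by
  intro h0
  rw [← JPt.fm_X_d1_sub_C] at h0
  have h1 := (QExp.ev_eq_zero_iff N _).mpr h0
  rw [JPt.ev_X_d1_sub_C] at h1
  obtain ⟨τ, hτ⟩ := JPt.exists_Jfun_eq (iotaK c + 1)
  have h2 := congrFun h1 τ
  simp only [Pi.zero_apply] at h2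
  rw [hτ] at h2
  simp at h2

/-- The point valuation of `j - c`: the order of `Jfun - ι c` at `τ`. -/
theorem valPt_jBar_sub (τ : ℍ) (c : KQ) :
    valPt N τ (jBar N - algebraMap KQ (FN N) c)
      = if Jfun τ = iotaK c then (JOrd.ellOrder τ : ℤ) else 0 := by
  rw [valPt_eq_of_isRep N τ (JPt.isRep_jBar_sub N c) (jBar_sub_ne_zero N c), JPt.ev_X_d1_sub_C,
    map_one, JPt.ordAt_one, sub_zero, JPt.ordAt_Jfun_sub]

/-- `0 < valPt N τ (j - c)` iff `Jfun τ = ι c`. -/
theorem valPt_jBar_sub_pos_iff (τ : ℍ) (c : KQ) :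
    0 < valPt N τ (jBar N - algebraMap KQ (FN N) c) ↔ Jfun τ = iotaK c := by
  rw [valPt_jBar_sub N τ c]
  split_ifs with h
  · simp only [h, iff_true]
    exact_mod_cast JOrd.ellOrder_pos τ
  · simp [h]

end PtTop

variable (N : ℕ) [NeZero N]

/-- Generic point: `valPt τ (j - c) = 1`. -/
theorem valPt_jBar_sub_generic (c : KQ) (hc0 : c ≠ 0) (hc1 : c ≠ 1728) (τ : ℍ)
    (hτ : Jfun τ = iotaK c) : valPt N τ (jBar N - algebraMap KQ (FN N) c) = 1 := by
  have h0 : iotaK c ≠ 0 := fun h' => hc0 (by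
    rw [← map_zero iotaK] at h'
    exact iotaK.injective h')
  have h1 : iotaK c ≠ 1728 := fun h' => hc1 (by
    rw [← map_ofNat iotaK 1728] at h'
    exact iotaK.injective h')
  rw [PtTop.valPt_jBar_sub N τ c, if_pos hτ, JPt.ellOrder_of_generic τ (hτ ▸ h0) (hτ ▸ h1)]
  rfl

/-- Orbit of `i`: `valPt τ (j - 1728) = 2`. -/
theorem valPt_jBar_sub_1728 (τ : ℍ) (hτ : Jfun τ = 1728) :
    valPt N τ (jBar N - algebraMap KQ (FN N) 1728) = 2 := by
  have e : iotaK 1728 = (1728 : ℂ) := map_ofNat iotaK 1728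
  rw [PtTop.valPt_jBar_sub N τ 1728, e, if_pos hτ, JPt.ellOrder_of_eq_1728 τ hτ]
  rfl

/-- Orbit of `ρ`: `valPt τ (j - 0) = 3`. -/
theorem valPt_jBar_sub_zero (τ : ℍ) (hτ : Jfun τ = 0) :
    valPt N τ (jBar N - algebraMap KQ (FN N) 0) = 3 := by
  have e : iotaK 0 = (0 : ℂ) := map_zero _
  rw [PtTop.valPt_jBar_sub N τ 0, e, if_pos hτ, JPt.ellOrder_of_eq_zero τ hτ]
  rfl

end Fermat.Agent.S24C
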