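import Mathlib
import Fermat.Agent.S24.ModDefs
import Fermat.Agent.S24C.ModDefs
import Fermat.Agent.S24.Counting
import Fermat.Agent.S24.Rep
import Fermat.Agent.S24C.Rep
import Fermat.Agent.S24.QExpJ
import Fermat.Agent.S24C.QExpJ
import Fermat.Agent.S24.PtInv
import Fermat.Agent.S24C.PtInv
import Fermat.Agent.S24.ValPt

/-
S24C (port of S24 to the base field `ℂ`).  This file repeats, for `K = ℂ`,
`F = ℂ(j(q^d) : d ∣ N)` and the embedding `ι = id`, the declarations of
`Fermat/Agent/S24/ValPt.lean` whose statement mentions the base field — same names, same proofs,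
with `Fermat.Agent.S24` replaced by `Fermat.Agent.S24C`.  The declarations of that file which do
not mention the base field are not repeated: they are used from `Fermat.Agent.S24` directly.
-/

/-!
# S24: the point valuations `valPt N τ` are raw valuations of `F`

* `fm_eq_zero_iff`: `fm N P = 0 ↔ ev N P = 0`;
* `valPt_eq`: for `f ≠ 0` the value `valPt N τ f` can be computed on any representative;
* `isRawVal_valPt`: `valPt N τ` is a raw valuation (in the sense of `Counting.IsRawVal`).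
-/

set_option autoImplicit false

open UpperHalfPlane ModularForm AlgebraicCurve Filter
open scoped MatrixGroups Manifold Topology

noncomputable section

namespace Fermat.Agent.S24C.ValPt
open Fermat.Agent.S24 Fermat.Agent.S24.ValPt

open Fermat.Agent.S24

/-! ### orders at a point -/


/-! ### the bridge -/

variable (N : ℕ) [NeZero N]

theorem fm_eq_zero_iff (P : MvPolynomial (Dv N) KQ) : fm N P = 0 ↔ ev N P = 0 :=
  (QExp.ev_eq_zero_iff N P).symm

theorem ev_ne_zero_iff (P : MvPolynomial (Dv N) KQ) : ev N P ≠ 0 ↔ fm N P ≠ 0 :=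
  (fm_eq_zero_iff N P).not.symm

omit [NeZero N] in
theorem ev_C (a : KQ) : ev N (MvPolynomial.C a) = fun _ => iotaK a := by
  funext z; rw [PtInv.ev_apply, MvPolynomial.eval₂_C]

/-- Independence of the representative. -/
theorem ordAt_sub_eq_of_isRep {f : FN N} (hf : f ≠ 0) {P Q P' Q' : MvPolynomial (Dv N) KQ}
    (h : IsRep N f P Q) (h' : IsRep N f P' Q') (τ : ℍ) :
    ordAt (ev N P) τ - ordAt (ev N Q) τ = ordAt (ev N P') τ - ordAt (ev N Q') τ := by
  obtain ⟨hQ, hfPQ⟩ := h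
  obtain ⟨hQ', hfPQ'⟩ := h'
  have hP : fm N P ≠ 0 := by
    intro h0; apply hf; rw [hfPQ, h0, zero_div]
  have hP' : fm N P' ≠ 0 := by
    intro h0; apply hf; rw [hfPQ', h0, zero_div]
  have hcross : fm N P * fm N Q' = fm N P' * fm N Q := by
    have := hfPQ.symm.trans hfPQ'
    rw [div_eq_div_iff hQ hQ'] at this
    exact this
  have hev : ev N P * ev N Q' = ev N P' * ev N Q := by
    have h0 : fm N (P * Q' - P' * Q) = 0 := by
      rw [map_sub, map_mul, map_mul, hcross, sub_self]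
    have h1 := (fm_eq_zero_iff N _).1 h0
    rw [map_sub, map_mul, map_mul, sub_eq_zero] at h1
    exact h1
  have e1 := ordAt_mul (PtInv.mdiff_ev N P) (PtInv.mdiff_ev N Q')
    ((ev_ne_zero_iff N P).2 hP) ((ev_ne_zero_iff N Q').2 hQ') τ
  have e2 := ordAt_mul (PtInv.mdiff_ev N P') (PtInv.mdiff_ev N Q)
    ((ev_ne_zero_iff N P').2 hP') ((ev_ne_zero_iff N Q).2 hQ) τ
  rw [hev] at e1
  linarith

/-- **The point valuation can be computed on any representative** (for `f ≠ 0`). -/
theorem valPt_eq (τ : ℍ) (f : FN N) (hf : f ≠ 0) (P Q : MvPolynomial (Dv N) KQ)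
    (h : IsRep N f P Q) : valPt N τ f = ordAt (ev N P) τ - ordAt (ev N Q) τ := by
  have hex : ∃ P Q, IsRep N f P Q := ⟨P, Q, h⟩
  unfold valPt
  rw [dif_pos hex]
  exact ordAt_sub_eq_of_isRep N hf hex.choose_spec.choose_spec h τ

/-- **`valPt N τ` is a raw valuation.** -/
theorem isRawVal_valPt (τ : ℍ) : Counting.IsRawVal KQ (valPt N τ) where
  map_mul := by
    intro f g hf hg
    obtain ⟨P, Q, hPQ⟩ := Rep.exists_isRep N f
    obtain ⟨P', Q', hPQ'⟩ := Rep.exists_isRep N g
    have hP : fm N P ≠ 0 := by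
      intro h0; apply hf; rw [hPQ.2, h0, zero_div]
    have hP' : fm N P' ≠ 0 := by
      intro h0; apply hg; rw [hPQ'.2, h0, zero_div]
    have hrep : IsRep N (f * g) (P * P') (Q * Q') := by
      refine ⟨?_, ?_⟩
      · rw [map_mul]; exact mul_ne_zero hPQ.1 hPQ'.1
      · rw [map_mul, map_mul, hPQ.2, hPQ'.2, div_mul_div_comm]
    rw [valPt_eq N τ _ (mul_ne_zero hf hg) _ _ hrep, valPt_eq N τ f hf _ _ hPQ,
      valPt_eq N τ g hg _ _ hPQ', map_mul, map_mul,
      ordAt_mul (PtInv.mdiff_ev N P) (PtInv.mdiff_ev N P') ((ev_ne_zero_iff N P).2 hP)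
        ((ev_ne_zero_iff N P').2 hP') τ,
      ordAt_mul (PtInv.mdiff_ev N Q) (PtInv.mdiff_ev N Q') ((ev_ne_zero_iff N Q).2 hPQ.1)
        ((ev_ne_zero_iff N Q').2 hPQ'.1) τ]
    ring
  map_add := by
    intro f g hf hg hfg
    obtain ⟨P, Q, hPQ⟩ := Rep.exists_isRep N f
    obtain ⟨P', Q', hPQ'⟩ := Rep.exists_isRep N g
    have hP : fm N P ≠ 0 := by
      intro h0; apply hf; rw [hPQ.2, h0, zero_div]
    have hP' : fm N P' ≠ 0 := by
      intro h0; apply hg; rw [hPQ'.2, h0, zero_div]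
    have hrep : IsRep N (f + g) (P * Q' + P' * Q) (Q * Q') := by
      refine ⟨?_, ?_⟩
      · rw [map_mul]; exact mul_ne_zero hPQ.1 hPQ'.1
      · rw [map_add, map_mul, map_mul, map_mul, hPQ.2, hPQ'.2, div_add_div _ _ hPQ.1 hPQ'.1,
          mul_comm (fm N Q) (fm N P')]
    have hnum : fm N (P * Q' + P' * Q) ≠ 0 := by
      intro h0; apply hfg; rw [hrep.2, h0, zero_div]
    rw [valPt_eq N τ _ hfg _ _ hrep, valPt_eq N τ f hf _ _ hPQ, valPt_eq N τ g hg _ _ hPQ']
    have hevnum : ev N (P * Q') + ev N (P' * Q) ≠ 0 := by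
      rw [← map_add]; exact (ev_ne_zero_iff N _).2 hnum
    have hPQ'ne : fm N (P * Q') ≠ 0 := by rw [map_mul]; exact mul_ne_zero hP hPQ'.1
    have hP'Qne : fm N (P' * Q) ≠ 0 := by rw [map_mul]; exact mul_ne_zero hP' hPQ.1
    have hadd := ordAt_add (PtInv.mdiff_ev N (P * Q')) (PtInv.mdiff_ev N (P' * Q))
      ((ev_ne_zero_iff N _).2 hPQ'ne) ((ev_ne_zero_iff N _).2 hP'Qne) hevnum τ
    have e1 := ordAt_mul (PtInv.mdiff_ev N P) (PtInv.mdiff_ev N Q') ((ev_ne_zero_iff N P).2 hP)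
      ((ev_ne_zero_iff N Q').2 hPQ'.1) τ
    have e2 := ordAt_mul (PtInv.mdiff_ev N P') (PtInv.mdiff_ev N Q) ((ev_ne_zero_iff N P').2 hP')
      ((ev_ne_zero_iff N Q).2 hPQ.1) τ
    have e3 := ordAt_mul (PtInv.mdiff_ev N Q) (PtInv.mdiff_ev N Q') ((ev_ne_zero_iff N Q).2 hPQ.1)
      ((ev_ne_zero_iff N Q').2 hPQ'.1) τ
    rw [map_add, map_mul (ev N) Q Q', e3]
    rw [map_mul (ev N) P Q', map_mul (ev N) P' Q] at hadd
    rw [e1, e2] at hadd
    rcases min_le_iff.mp hadd with h | h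
    · exact min_le_iff.mpr (Or.inl (by rw [map_mul (ev N) P Q', map_mul (ev N) P' Q]; linarith))
    · exact min_le_iff.mpr (Or.inr (by rw [map_mul (ev N) P Q', map_mul (ev N) P' Q]; linarith))
  map_algebraMap := by
    intro a ha
    have hrep : IsRep N (algebraMap KQ (FN N) a) (MvPolynomial.C a) 1 := by
      refine ⟨?_, ?_⟩
      · rw [map_one]; exact one_ne_zero
      · rw [map_one, div_one]
        exact (MvPolynomial.aeval_C (jFormal N) a).symm
    have hne : algebraMap KQ (FN N) a ≠ 0 := by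
      rw [Ne, map_eq_zero]; exact ha
    have hι : iotaK a ≠ 0 := by
      rw [Ne, map_eq_zero]; exact ha
    rw [valPt_eq N τ _ hne _ _ hrep, ev_C, ordAt_const hι, map_one]
    have : (1 : ℍ → ℂ) = fun _ => (1 : ℂ) := rfl
    rw [this, ordAt_const one_ne_zero]
    rfl

end Fermat.Agent.S24C.ValPt
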