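import Fermat.Agent.S24.ModDefs
import Fermat.Agent.S24C.ModDefs
import Fermat.Agent.S24.JOrd
import Fermat.Agent.S24.HNF
import Fermat.Agent.S24.HNFMod

/-
S24C (port of S24 to the base field `ℂ`).  This file repeats, for `K = ℂ`,
`F = ℂ(j(q^d) : d ∣ N)` and the embedding `ι = id`, the declarations of
`Fermat/Agent/S24/HNFMod.lean` whose statement mentions the base field — same names, same proofs,
with `Fermat.Agent.S24` replaced by `Fermat.Agent.S24C`.  The declarations of that file which do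
not mention the base field are not repeated: they are used from `Fermat.Agent.S24` directly.
-/

/-!
# S24, package B-HNF on the names of `ModDefs`

* `Jfun_smul`, `Jfun_eq_iff` : `Jfun` is `SL(2, ℤ)`-invariant and separates orbits.
* `affPt a b e z` : the point `(a z + b) / e` of `ℍ`; `Jabd_eq : Jabd a b e z = Jfun (affPt …)`.
* `trans_Jabd` : `trans g (Jabd d 0 1) = Jabd a b e` with `a e = d`, `b < e`,
  `a = gcd (d g⁻¹₀₀, g⁻¹₁₀)`.
* `Jabd_smul_of_mem_Gamma0`, `ev_smul_of_mem_Gamma0`, `trans_ev_of_mem_Gamma0`,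
  `trans_ev_eq_of_coset_eq` : `Γ₀(N)`-invariance.
* `trans_JN_eq_iff` : `trans g (Jabd N 0 1) = trans h (Jabd N 0 1) ↔ (g : XN N) = h`.
* `ev_apply`, `trans_ev_apply`, `exists_trans_ev` : `trans g (ev N P)` is `P` evaluated at the
  functions `Jabd (a d) (b d) (e d)`.
-/

open UpperHalfPlane ModularForm
open scoped MatrixGroups Manifold

noncomputable section

namespace Fermat.Agent.S24C.HNFMod
open Fermat.Agent.S24 Fermat.Agent.S24.HNFMod

open Fermat.Agent.S24


/-- Pointwise form of `ev`. -/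
theorem ev_apply (N : ℕ) (P : MvPolynomial (Dv N) KQ) (z : ℍ) :
    ev N P z = MvPolynomial.eval₂ iotaK (fun d : Dv N => Jabd d.1 0 1 z) P := by
  unfold ev
  induction P using MvPolynomial.induction_on with
  | C c => simp
  | add p q hp hq =>
    rw [map_add, MvPolynomial.eval₂_add, Pi.add_apply, hp, hq]
  | mul_X p i hp =>
    rw [map_mul, MvPolynomial.eval₂_mul, Pi.mul_apply, hp]
    simp

/-- Pointwise form of `trans g (ev N P)`. -/
theorem trans_ev_apply (N : ℕ) (g : SL(2, ℤ)) (P : MvPolynomial (Dv N) KQ) (z : ℍ) :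
    trans g (ev N P) z
      = MvPolynomial.eval₂ iotaK (fun d : Dv N => trans g (Jabd d.1 0 1) z) P :=
  ev_apply N P (g⁻¹ • z)

/-- `ev N P` is `Γ₀(N)`-invariant. -/
theorem ev_smul_of_mem_Gamma0 (N : ℕ) [NeZero N] (P : MvPolynomial (Dv N) KQ) (γ : SL(2, ℤ))
    (hγ : γ ∈ CongruenceSubgroup.Gamma0 N) (z : ℍ) : ev N P (γ • z) = ev N P z := by
  have h : (fun d : Dv N => Jabd d.1 0 1 (γ • z)) = fun d : Dv N => Jabd d.1 0 1 z :=
    funext fun d => Jabd_smul_of_mem_Gamma0 N d γ hγ z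
  rw [ev_apply, ev_apply, h]

/-- `trans (g * γ) (ev N P) = trans g (ev N P)` for `γ ∈ Γ₀(N)`. -/
theorem trans_ev_of_mem_Gamma0 (N : ℕ) [NeZero N] (P : MvPolynomial (Dv N) KQ)
    (g γ : SL(2, ℤ)) (hγ : γ ∈ CongruenceSubgroup.Gamma0 N) :
    trans (g * γ) (ev N P) = trans g (ev N P) := by
  funext z
  show ev N P ((g * γ)⁻¹ • z) = ev N P (g⁻¹ • z)
  rw [mul_inv_rev, mul_smul]
  exact ev_smul_of_mem_Gamma0 N P γ⁻¹ (inv_mem hγ) _

/-- `trans g (ev N P)` depends only on the left coset `g Γ₀(N)`. -/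
theorem trans_ev_eq_of_coset_eq (N : ℕ) [NeZero N] (P : MvPolynomial (Dv N) KQ)
    (g h : SL(2, ℤ)) (hgh : (g : XN N) = h) : trans g (ev N P) = trans h (ev N P) := by
  rw [QuotientGroup.eq] at hgh
  have := trans_ev_of_mem_Gamma0 N P g (g⁻¹ * h) hgh
  rw [mul_inv_cancel_left] at this
  exact this.symm


/-- The generator `X_N` evaluated: `ev N (X ⟨N, _⟩) = Jabd N 0 1`. -/
theorem ev_X (N : ℕ) (d : Dv N) : ev N (MvPolynomial.X d) = Jabd d.1 0 1 := by
  funext z
  rw [ev_apply, MvPolynomial.eval₂_X]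

/-- Distinct conjugates of the generator `X_N`: if the translates of every `ev N P` by `g` and
`h` agree, then `g` and `h` define the same coset. -/
theorem coset_eq_of_trans_ev_eq (N : ℕ) [NeZero N] (g h : SL(2, ℤ))
    (H : ∀ P : MvPolynomial (Dv N) KQ, trans g (ev N P) = trans h (ev N P)) :
    (g : XN N) = h := by
  have := H (MvPolynomial.X ⟨N, dvd_rfl⟩)
  rw [ev_X] at this
  exact (trans_JN_eq_iff N g h).mp this

/-- **`trans g (ev N P)` as a polynomial in the functions `J ((a z + b) / e)`.** -/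
theorem exists_trans_ev (N : ℕ) [NeZero N] (g : SL(2, ℤ)) :
    ∃ a b e : Dv N → ℕ, (∀ d, a d * e d = d.1 ∧ b d < e d ∧ 0 < a d ∧ 0 < e d ∧
        a d = Int.gcd ((d.1 : ℤ) * (g⁻¹ : SL(2, ℤ)) 0 0) ((g⁻¹ : SL(2, ℤ)) 1 0)) ∧
      (∀ d : Dv N, trans g (Jabd d.1 0 1) = Jabd (a d) (b d) (e d)) ∧
      ∀ (P : MvPolynomial (Dv N) KQ) (z : ℍ), trans g (ev N P) z
        = MvPolynomial.eval₂ iotaK (fun d : Dv N => Jabd (a d) (b d) (e d) z) P := by
  have hd : ∀ d : Dv N, 0 < d.1 := fun d => Nat.pos_of_ne_zero (d.neZero).ne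
  choose a b e hae hbe ha he hgcd htr using fun d : Dv N => trans_Jabd g d.1 (hd d)
  refine ⟨a, b, e, fun d => ⟨hae d, hbe d, ha d, he d, hgcd d⟩, htr, fun P z => ?_⟩
  have h : (fun d : Dv N => trans g (Jabd d.1 0 1) z) = fun d : Dv N => Jabd (a d) (b d) (e d) z :=
    funext fun d => by rw [htr d]
  rw [trans_ev_apply, h]


/-- The translates `trans q.out (ev N (X_N))` are pairwise distinct. -/
theorem injective_trans_out_ev (N : ℕ) [NeZero N] :
    Function.Injective
      (fun q : XN N => trans q.out (ev N (MvPolynomial.X (⟨N, dvd_rfl⟩ : Dv N)))) := by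
  intro q q' hqq'
  apply injective_trans_out N
  simpa only [ev_X] using hqq'

end Fermat.Agent.S24C.HNFMod
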