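import Mathlib
import Fermat.Agent.S24.ModDefs
import Fermat.Agent.S24C.ModDefs
import Fermat.Agent.S24.HNF
import Fermat.Agent.S24.HNFMod
import Fermat.Agent.S24C.HNFMod
import Fermat.Agent.S24.Rep
import Fermat.Agent.S24C.Rep
import Fermat.Agent.S24.QExpJ
import Fermat.Agent.S24C.QExpJ
import Fermat.Agent.S24.QLaurentMod
import Fermat.Agent.S24.OrdInf
import Fermat.Agent.S24.CuspTop

/-
S24C (port of S24 to the base field `ℂ`).  This file repeats, for `K = ℂ`,
`F = ℂ(j(q^d) : d ∣ N)` and the embedding `ι = id`, the declarations of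
`Fermat/Agent/S24/CuspTop.lean` whose statement mentions the base field — same names, same proofs,
with `Fermat.Agent.S24` replaced by `Fermat.Agent.S24C`.  The declarations of that file which do
not mention the base field are not repeated: they are used from `Fermat.Agent.S24` directly.
-/

/-!
# S24 / B-top [CUSP] — the cusp valuations `valCusp N g`

Final-layer statements (namespace `Fermat.Agent.S24`, exact shapes of the architect's skeleton):

* `valCusp_jBar_inv` : `valCusp N g (jBar N)⁻¹ = N`;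
* `valCusp_mul_Gamma0` : `valCusp N (g * γ) f = valCusp N g f` for `γ ∈ Γ₀(N)`;
* `valCusp_T_zpow_mul` : `valCusp N (T ^ k * g) f = valCusp N g f`;
* `dvd_valCusp` : `N ∣ valCusp N g f * h` when `g⁻¹ T ^ h g ∈ Γ₀(N)`.

The last three are unconditional consequences of the definition of `ordInf` (no Laurent
expansions): the representative chosen in `valCusp` does not depend on `g`.  The first one uses
the independence of the representative, `CuspTop.valCusp_eq` (for `f ≠ 0`), which rests on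
`CuspTop.merInf_trans_ev : MerInf N (trans g (ev N P))`.

Helper lemmas live in `Fermat.Agent.S24.CuspTop`:
`ordInf_eq_of_tendsto` (uniqueness of the order), `ordInf_Jabd`
(`ord_∞ J((a z + b) / d') = -(a · N / d')` in `q_N`), `ordInf_vadd` (invariance under real
translations), `dvd_ordInf_mul_of_periodic` (width divisibility), `ev_smul_of_mem_Gamma0`.
-/

set_option autoImplicit false

open UpperHalfPlane ModularForm Filter Topology CongruenceSubgroup
open scoped MatrixGroups Manifold Real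

noncomputable section

namespace Fermat.Agent.S24C.CuspTop
open Fermat.Agent.S24 Fermat.Agent.S24.CuspTop

open Fermat.Agent.S24

/-! ### Invariance of `J` and of `ev N P` -/


theorem ev_C (N : ℕ) (a : KQ) (z : ℍ) : ev N (MvPolynomial.C a) z = iotaK a := by
  simp [ev]

theorem ev_X (N : ℕ) (d : Dv N) : ev N (MvPolynomial.X d) = Jabd d.1 0 1 := by
  simp [ev]

/-- `ev N P` is `Γ₀(N)`-invariant. -/
theorem ev_smul_of_mem_Gamma0 (N : ℕ) [NeZero N] (γ : SL(2, ℤ)) (hγ : γ ∈ Gamma0 N)
    (P : MvPolynomial (Dv N) KQ) (z : ℍ) : ev N P (γ • z) = ev N P z := by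
  induction P using MvPolynomial.induction_on with
  | C a => rw [ev_C, ev_C]
  | add p q hp hq => simp only [map_add, Pi.add_apply, hp, hq]
  | mul_X p d hp =>
    simp only [map_mul, Pi.mul_apply, hp, ev_X]
    rw [Jabd_smul_of_mem_Gamma0 N d.1 d.2 γ hγ z]


/-- `trans (g * γ) (ev N P) = trans g (ev N P)` for `γ ∈ Γ₀(N)`. -/
theorem trans_mul_ev_of_mem_Gamma0 (N : ℕ) [NeZero N] (g γ : SL(2, ℤ)) (hγ : γ ∈ Gamma0 N)
    (P : MvPolynomial (Dv N) KQ) : trans (g * γ) (ev N P) = trans g (ev N P) := by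
  rw [trans_mul]
  congr 1
  funext z
  exact ev_smul_of_mem_Gamma0 N γ⁻¹ ((Gamma0 N).inv_mem hγ) P z

/-! ### Behaviour of `J` at `i∞` -/


/-! ### The order at `i∞` -/


/-! ### Translations -/


/-- If `g⁻¹ T^h g ∈ Γ₀(N)` then `trans g (ev N P)` is `h`-periodic. -/
theorem trans_ev_periodic (N : ℕ) [NeZero N] (g : SL(2, ℤ)) (h : ℕ)
    (hg : g⁻¹ * ModularGroup.T ^ h * g ∈ Gamma0 N) (P : MvPolynomial (Dv N) KQ) (z : ℍ) :
    trans g (ev N P) ((h : ℝ) +ᵥ z) = trans g (ev N P) z := by
  simp only [trans]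
  have h1 : ((h : ℝ) +ᵥ z : ℍ) = ModularGroup.T ^ h • z := by
    rw [← zpow_natCast, UpperHalfPlane.modular_T_zpow_smul]
    simp
  rw [h1]
  have h2 : g⁻¹ • ModularGroup.T ^ h • z = (g⁻¹ * ModularGroup.T ^ h * g) • g⁻¹ • z := by
    simp only [mul_smul, smul_inv_smul]
  rw [h2, ev_smul_of_mem_Gamma0 N _ hg]

/-! ### Independence of the representative -/


/-- Every translate `trans g (ev N P)` is holomorphic, `N`-periodic and meromorphic at `i∞`. -/
theorem merInf_trans_ev (N : ℕ) [NeZero N] (g : SL(2, ℤ)) (P : MvPolynomial (Dv N) KQ) :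
    MerInf N (trans g (ev N P)) := by
  have hN : 0 < N := Nat.pos_of_ne_zero (NeZero.ne N)
  obtain ⟨a, b, e, hprop, -, hev⟩ := HNFMod.exists_trans_ev N g
  have key : ∀ P : MvPolynomial (Dv N) KQ, MerInf N
      (fun z => MvPolynomial.eval₂ iotaK (fun d : Dv N => Jabd (a d) (b d) (e d) z) P) := by
    intro P
    induction P using MvPolynomial.induction_on with
    | C c =>
      simp only [MvPolynomial.eval₂_C]
      exact OrdInf.merInf_const N _
    | add p q hp hq =>
      have h : (fun z => MvPolynomial.eval₂ iotaK (fun d : Dv N => Jabd (a d) (b d) (e d) z)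
          (p + q)) =
          (fun z => MvPolynomial.eval₂ iotaK (fun d : Dv N => Jabd (a d) (b d) (e d) z) p) +
          (fun z => MvPolynomial.eval₂ iotaK (fun d : Dv N => Jabd (a d) (b d) (e d) z) q) := by
        funext z
        simp [MvPolynomial.eval₂_add]
      rw [h]
      exact OrdInf.MerInf.add hp hq
    | mul_X p d hp =>
      have h : (fun z => MvPolynomial.eval₂ iotaK (fun d : Dv N => Jabd (a d) (b d) (e d) z)
          (p * MvPolynomial.X d)) =
          (fun z => MvPolynomial.eval₂ iotaK (fun d : Dv N => Jabd (a d) (b d) (e d) z) p) *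
          Jabd (a d) (b d) (e d) := by
        funext z
        simp [MvPolynomial.eval₂_mul, MvPolynomial.eval₂_X]
      rw [h]
      obtain ⟨hae, -, ha, he, -⟩ := hprop d
      exact OrdInf.MerInf.mul hp
        (merInf_Jabd N _ _ _ hN ha he ((Dvd.intro_left _ hae).trans d.2))
  have h : trans g (ev N P) =
      fun z => MvPolynomial.eval₂ iotaK (fun d : Dv N => Jabd (a d) (b d) (e d) z) P :=
    funext (hev P)
  rw [h]
  exact key P


/-- A nonzero translate has an order at `i∞`. -/
theorem exists_hasOrdInf_trans_ev (N : ℕ) [NeZero N] (g : SL(2, ℤ)) (P : MvPolynomial (Dv N) KQ)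
    (hP : fm N P ≠ 0) : ∃ m : ℤ, OrdInf.HasOrdInf N (trans g (ev N P)) m := by
  have hN : 0 < N := Nat.pos_of_ne_zero (NeZero.ne N)
  refine OrdInf.MerInf.exists_hasOrdInf hN (merInf_trans_ev N g P) ?_
  rw [Ne, trans_eq_zero_iff, QExp.ev_eq_zero_iff]
  exact hP

/-- Two representatives of the same `f ≠ 0` give the same difference of orders at `i∞`. -/
theorem ordInf_sub_eq_of_isRep (N : ℕ) [NeZero N] {f : FN N}
    {P Q P' Q' : MvPolynomial (Dv N) KQ} (h : IsRep N f P Q) (h' : IsRep N f P' Q') (hf : f ≠ 0)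
    (g : SL(2, ℤ)) :
    ordInf N (trans g (ev N P')) - ordInf N (trans g (ev N Q')) =
      ordInf N (trans g (ev N P)) - ordInf N (trans g (ev N Q)) := by
  have hN : 0 < N := Nat.pos_of_ne_zero (NeZero.ne N)
  obtain ⟨hQ', hf'⟩ := h'
  obtain ⟨hQ, hfPQ⟩ := h
  have hP : fm N P ≠ 0 := by
    intro h0
    apply hf
    rw [hfPQ, h0, zero_div]
  have hP' : fm N P' ≠ 0 := by
    intro h0
    apply hf
    rw [hf', h0, zero_div]
  have hcross : fm N P * fm N Q' = fm N P' * fm N Q := by
    have h1 : fm N P / fm N Q = fm N P' / fm N Q' := by rw [← hfPQ, ← hf']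
    rw [div_eq_div_iff hQ hQ'] at h1
    exact h1
  have hevz : ev N (P * Q' - P' * Q) = 0 := by
    rw [QExp.ev_eq_zero_iff, map_sub, map_mul, map_mul, hcross, sub_self]
  have hev : ev N P * ev N Q' = ev N P' * ev N Q := by
    rw [map_sub, map_mul, map_mul] at hevz
    exact sub_eq_zero.mp hevz
  obtain ⟨mP, hmP⟩ := exists_hasOrdInf_trans_ev N g P hP
  obtain ⟨mQ, hmQ⟩ := exists_hasOrdInf_trans_ev N g Q hQ
  obtain ⟨mP', hmP'⟩ := exists_hasOrdInf_trans_ev N g P' hP'
  obtain ⟨mQ', hmQ'⟩ := exists_hasOrdInf_trans_ev N g Q' hQ'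
  have e1 := hmP.mul hmQ'
  have e2 := hmP'.mul hmQ
  have e3 : trans g (ev N P) * trans g (ev N Q') = trans g (ev N P') * trans g (ev N Q) := by
    rw [← trans_mul_fun, ← trans_mul_fun, hev]
  rw [e3] at e1
  have e4 := OrdInf.HasOrdInf.unique hN e1 e2
  rw [hmP.ordInf_eq hN, hmQ.ordInf_eq hN, hmP'.ordInf_eq hN, hmQ'.ordInf_eq hN]
  omega

/-- **Independence of the representative** (for `f ≠ 0`): the cusp valuation can be computed
from any representative `f = fm P / fm Q`. -/
theorem valCusp_eq (N : ℕ) [NeZero N] {f : FN N} {P Q : MvPolynomial (Dv N) KQ}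
    (h : IsRep N f P Q) (hf : f ≠ 0) (g : SL(2, ℤ)) :
    valCusp N g f = ordInf N (trans g (ev N P)) - ordInf N (trans g (ev N Q)) := by
  have hex : ∃ P Q, IsRep N f P Q := ⟨P, Q, h⟩
  have hval : valCusp N g f = ordInf N (trans g (ev N hex.choose)) -
      ordInf N (trans g (ev N hex.choose_spec.choose)) := by
    unfold valCusp
    rw [dif_pos hex]
  rw [hval]
  exact ordInf_sub_eq_of_isRep N h hex.choose_spec.choose_spec hf g

theorem fm_X (N : ℕ) [NeZero N] (d : Dv N) : fm N (MvPolynomial.X d) = jFormal N d := by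
  simp [fm]


theorem jBar_ne_zero (N : ℕ) [NeZero N] : jBar N ≠ 0 := by
  intro h0
  have h1 : fm N (MvPolynomial.X (⟨1, one_dvd N⟩ : Dv N)) = 0 := by rw [fm_X]; exact h0
  have h2 := (QExp.ev_eq_zero_iff N _).mpr h1
  rw [ev_X] at h2
  exact Jfun_ne_zero (by rw [← h2]; exact (funext Jabd_one).symm)

end Fermat.Agent.S24C.CuspTop

/-! ## The final-layer statements -/

namespace Fermat.Agent.S24C
open Fermat.Agent.S24

variable (N : ℕ) [NeZero N]

/-- The cusp valuations take the value `N` on `1 / j`. -/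
theorem valCusp_jBar_inv (g : SL(2, ℤ)) : valCusp N g (jBar N)⁻¹ = N := by
  have hN : 0 < N := Nat.pos_of_ne_zero (NeZero.ne N)
  have hj := CuspTop.jBar_ne_zero N
  have hrep : IsRep N (jBar N)⁻¹ 1 (MvPolynomial.X (⟨1, one_dvd N⟩ : Dv N)) := by
    refine ⟨?_, ?_⟩
    · rw [CuspTop.fm_X]
      exact hj
    · rw [map_one, one_div, CuspTop.fm_X]
      rfl
  rw [CuspTop.valCusp_eq N hrep (inv_ne_zero hj) g, map_one, CuspTop.ev_X]
  have h1 : trans g (1 : ℍ → ℂ) = fun _ => (1 : ℂ) := rfl
  have h2 : trans g (Jabd 1 0 1) = Jfun := by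
    funext z
    simp only [trans]
    rw [CuspTop.Jabd_one, CuspTop.Jfun_smul]
  rw [h1, h2, CuspTop.ordInf_const N hN 1 one_ne_zero, CuspTop.ordInf_Jfun N hN]
  ring

/-- `valCusp N g` only depends on the coset `g Γ₀(N)`. -/
theorem valCusp_mul_Gamma0 (g γ : SL(2, ℤ)) (hγ : γ ∈ Gamma0 N) (f : FN N) :
    valCusp N (g * γ) f = valCusp N g f := by
  unfold valCusp
  split_ifs with h
  · rw [CuspTop.trans_mul_ev_of_mem_Gamma0 N g γ hγ, CuspTop.trans_mul_ev_of_mem_Gamma0 N g γ hγ]
  · rfl

/-- `valCusp N g` is constant on the `T`-orbits of cosets. -/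
theorem valCusp_T_zpow_mul (k : ℤ) (g : SL(2, ℤ)) (f : FN N) :
    valCusp N (ModularGroup.T ^ k * g) f = valCusp N g f := by
  have hN : 0 < N := Nat.pos_of_ne_zero (NeZero.ne N)
  unfold valCusp
  split_ifs with h
  · rw [CuspTop.ordInf_trans_T_zpow_mul N hN, CuspTop.ordInf_trans_T_zpow_mul N hN]
  · rfl

set_option linter.unusedVariables false in
/-- Width divisibility of the cusp valuations. -/
theorem dvd_valCusp (g : SL(2, ℤ)) (h : ℕ) (hh : 0 < h)
    (hg : g⁻¹ * ModularGroup.T ^ h * g ∈ Gamma0 N) (f : FN N) (hf : f ≠ 0) :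
    (N : ℤ) ∣ valCusp N g f * h := by
  have hN : 0 < N := Nat.pos_of_ne_zero (NeZero.ne N)
  unfold valCusp
  split_ifs with hrep
  · rw [sub_mul]
    exact dvd_sub
      (CuspTop.dvd_ordInf_mul_of_periodic N hN _ h (CuspTop.trans_ev_periodic N g h hg _))
      (CuspTop.dvd_ordInf_mul_of_periodic N hN _ h (CuspTop.trans_ev_periodic N g h hg _))
  · simp

end Fermat.Agent.S24C
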