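import Mathlib
import Fermat.Agent.S24.QExpJ
import Fermat.Agent.S24C.QExpJ
import Fermat.Agent.S24.HNF
import Fermat.Agent.S24.JPt
import Fermat.Agent.S24C.JPt
import Fermat.Agent.S24.Counting
import Fermat.Agent.S24.QExpCusp

/-
S24C (port of S24 to the base field `ℂ`).  This file repeats, for `K = ℂ`,
`F = ℂ(j(q^d) : d ∣ N)` and the embedding `ι = id`, the declarations of
`Fermat/Agent/S24/QExpCusp.lean` whose statement mentions the base field — same names, same proofs,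
with `Fermat.Agent.S24` replaced by `Fermat.Agent.S24C`.  The declarations of that file which do
not mention the base field are not repeated: they are used from `Fermat.Agent.S24` directly.
-/

/-!
# S24 (B1, cusp part) — expansions at the cusps and the cusp embeddings

* `HasQExp.tendsto_atImInfty`, `HasQExp.ordInf_eq`: a function with a global `q_h`-expansion `L`
  has `ordInf h = L.order`;
* `cuspSeries N g d`: the `q_N`-expansion of `z ↦ J (d (g⁻¹ z))`, a Laurent series over `ℂ`;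
* `hasQExp_trans_ev`: the `q_N`-expansion of `(ev N P) ∘ g⁻¹`;
* `cuspHom N g : F →+* ℂ((q_N))`, and `valCusp N g f = (cuspHom N g f).order`.
-/

set_option autoImplicit false

open Filter Topology UpperHalfPlane
open scoped MatrixGroups

namespace Fermat.Agent.S24C.QExp
open Fermat.Agent.S24 Fermat.Agent.S24.QExp

noncomputable section

open ModularCurve Fermat.Agent.S28.Chain Fermat.Agent.S24

/-! ### Behaviour at `i∞` -/


/-! ### The expansions of `z ↦ J (d (g⁻¹ z))` -/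

/-- Roots of unity of `ℂ` lie in the image of `ℂ`. -/
theorem exists_unit_map_iotaK_eq_zetaU (e : ℕ) [NeZero e] (b : ℤ) :
    ∃ w : KQˣ, w ^ e = 1 ∧ Units.map (iotaK : KQ →* ℂ) w = zetaU e b := by
  obtain ⟨ζ, hζ⟩ := HasEnoughRootsOfUnity.exists_primitiveRoot KQ e
  have hζ' : IsPrimitiveRoot (iotaK ζ) e := hζ.map_of_injective iotaK.injective
  have hpow : ((zetaU e b : ℂˣ) : ℂ) ^ e = 1 := by
    rw [zetaU, Units.val_mk0, ← Complex.exp_nat_mul]
    have he : (e : ℂ) ≠ 0 := by exact_mod_cast NeZero.ne e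
    rw [show (e : ℂ) * (2 * Real.pi * Complex.I * b / e) = (b : ℂ) * (2 * Real.pi * Complex.I) by
      field_simp]
    exact Complex.exp_int_mul_two_pi_mul_I b
  obtain ⟨i, -, hi⟩ := hζ'.eq_pow_of_pow_eq_one hpow
  refine ⟨(Units.mk0 ζ (hζ.ne_zero (NeZero.ne e))) ^ i, ?_, ?_⟩
  · ext
    simp only [Units.val_pow_eq_pow_val, Units.val_mk0, Units.val_one]
    rw [← pow_mul, mul_comm, pow_mul, hζ.pow_eq_one, one_pow]
  · ext
    simp only [map_pow, Units.coe_map, Units.val_pow_eq_pow_val, Units.val_mk0,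
      MonoidHom.coe_coe]
    exact hi


theorem coeffMap_iotaK_coeffEmb (x : LaurentSeries ℚ) :
    coeffMap iotaK (coeffEmb KQ x) = coeffMap (algebraMap ℚ ℂ) x := by
  rw [coeffEmb, coeffMap_coeffMap]
  exact coeffMap_congr (RingHom.ext_rat _ _) _

/-- **Cusp expansion of a generator.** For `g ∈ SL(2, ℤ)` and `d ∣ N`, the function
`z ↦ J (d (g⁻¹ z))` has a `q_N`-expansion with coefficients in `ℂ`, of the explicit shape
`J (w q_N ^ (a N / e))` with `a e = d` and `w` an `e`-th root of unity. -/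
theorem exists_cuspSeries (N : ℕ) [NeZero N] (g : SL(2, ℤ)) (d : Dv N) :
    ∃ S : LaurentSeries KQ, HasQExp N (trans g (Jabd d.1 0 1)) (coeffMap iotaK S) ∧
      ∃ (a e : ℕ) (w : KQˣ) (_ : NeZero a) (_ : NeZero (N / e)), a * e = d.1 ∧ e ∣ N ∧
        w ^ e = 1 ∧ S = qExpand KQ (N / e) (qExpand KQ a (rot w (coeffEmb KQ jq))) := by
  have hd : 0 < d.1 := Nat.pos_of_ne_zero d.neZero.ne
  obtain ⟨a, b, e, hae, hbe, htr⟩ := exists_trans_Jabd_eq g d.1 hd
  have ha : NeZero a := ⟨by rintro rfl; simp at hae; omega⟩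
  have he : NeZero e := ⟨by rintro rfl; simp at hae; omega⟩
  have heN : e ∣ N := (Dvd.intro_left a hae).trans d.2
  have hNe : NeZero (N / e) :=
    ⟨(Nat.div_pos (Nat.le_of_dvd (Nat.pos_of_ne_zero (NeZero.ne N)) heN)
      (Nat.pos_of_ne_zero he.ne)).ne'⟩
  obtain ⟨w, hw1, hw⟩ := exists_unit_map_iotaK_eq_zetaU e (b : ℤ)
  refine ⟨qExpand KQ (N / e) (qExpand KQ a (rot w (coeffEmb KQ jq))), ?_,
    a, e, w, ha, hNe, hae, heN, hw1, rfl⟩
  rw [htr, coeffMap_qExpand, coeffMap_qExpand, coeffMap_rot, hw, coeffMap_iotaK_coeffEmb]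
  have h1 := (hasQExp_Jabd a b e).level (N / e)
  rwa [Nat.mul_div_cancel' heN] at h1

/-- The `q_N`-expansion (over `ℂ`) of `z ↦ J (d (g⁻¹ z))`. -/
def cuspSeries (N : ℕ) [NeZero N] (g : SL(2, ℤ)) (d : Dv N) : LaurentSeries KQ :=
  (exists_cuspSeries N g d).choose

theorem hasQExp_cuspSeries (N : ℕ) [NeZero N] (g : SL(2, ℤ)) (d : Dv N) :
    HasQExp N (trans g (Jabd d.1 0 1)) (coeffMap iotaK (cuspSeries N g d)) :=
  (exists_cuspSeries N g d).choose_spec.1

theorem cuspSeries_shape (N : ℕ) [NeZero N] (g : SL(2, ℤ)) (d : Dv N) :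
    ∃ (a e : ℕ) (w : KQˣ) (_ : NeZero a) (_ : NeZero (N / e)), a * e = d.1 ∧ e ∣ N ∧
      w ^ e = 1 ∧ cuspSeries N g d = qExpand KQ (N / e) (qExpand KQ a (rot w (coeffEmb KQ jq))) :=
  (exists_cuspSeries N g d).choose_spec.2


theorem trans_ev (N : ℕ) (g : SL(2, ℤ)) (P : MvPolynomial (Dv N) KQ) :
    trans g (ev N P) = MvPolynomial.eval₂ ((Pi.constRingHom ℍ ℂ).comp iotaK)
      (fun d : Dv N => trans g (Jabd d.1 0 1)) P := by
  have h := MvPolynomial.hom_eval₂ P ((Pi.constRingHom ℍ ℂ).comp iotaK) (transHom g)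
    (fun d : Dv N => Jabd d.1 0 1)
  have hc : (transHom g).comp ((Pi.constRingHom ℍ ℂ).comp iotaK)
      = (Pi.constRingHom ℍ ℂ).comp iotaK := by
    ext a z
    rfl
  rw [hc] at h
  exact h

/-- **Cusp expansion of `(ev N P) ∘ g⁻¹`** in `q_N`, with coefficients in `ℂ`. -/
theorem hasQExp_trans_ev (N : ℕ) [NeZero N] (g : SL(2, ℤ)) (P : MvPolynomial (Dv N) KQ) :
    HasQExp N (trans g (ev N P)) (coeffMap iotaK (MvPolynomial.aeval (cuspSeries N g) P)) := by
  rw [trans_ev]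
  exact HasQExp.mvPolynomial iotaK _ _ (hasQExp_cuspSeries N g) P

end

end Fermat.Agent.S24C.QExp
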