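import Mathlib
import Fermat.Agent.S24.ModDefs
import Fermat.Agent.S24C.ModDefs
import Fermat.Agent.S24.Counting
import Fermat.Agent.S24.Genus
import Fermat.Agent.S24.Transfer
import Fermat.Agent.S24.OrbitSize
import Fermat.Agent.S24.PtTop
import Fermat.Agent.S24C.PtTop
import Fermat.Agent.S24.PtInv
import Fermat.Agent.S24C.PtInv
import Fermat.Agent.S24.ValPt
import Fermat.Agent.S24C.ValPt
import Fermat.Agent.S24.CuspTop
import Fermat.Agent.S24C.CuspTop
import Fermat.Agent.S24.CuspHom
import Fermat.Agent.S24C.CuspHom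
import Fermat.Agent.S24.DegTop
import Fermat.Agent.S24C.DegTop
import Fermat.Agent.S24.Num
import Fermat.Agent.S21.OrbitGenus
import Fermat.Agent.S20.CountOrbits
import Fermat.Agent.S24.Final

/-
S24C (port of S24 to the base field `ℂ`).  This file repeats, for `K = ℂ`,
`F = ℂ(j(q^d) : d ∣ N)` and the embedding `ι = id`, the declarations of
`Fermat/Agent/S24/Final.lean` whose statement mentions the base field — same names, same proofs,
with `Fermat.Agent.S24` replaced by `Fermat.Agent.S24C`.  The declarations of that file which do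
not mention the base field are not repeated: they are used from `Fermat.Agent.S24` directly.
-/

/-!
# S24: final assembly

`K = ℂ`, `F = ℂ(j(q^d) : d ∣ N)`, `X = SL₂(ℤ) / Γ₀(N)`.

* the places of `F` over `j = c` are counted by `Counting.card_zeros_eq_card_orbits`, with the
  raw valuations `valPt N (x.out⁻¹ • τ₀)` (`J τ₀ = c`), resp. `valCusp N x.out` over `j = ∞`;
  their number is the number of orbits on `X` of the stabiliser generator (`1`, `S`, `S T`, `T`);
* `Genus.genus_eq_of_counts` (Riemann–Hurwitz) then gives the genus.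
-/

set_option autoImplicit false

open UpperHalfPlane ModularForm AlgebraicCurve CongruenceSubgroup
open scoped MatrixGroups Manifold IntermediateField

noncomputable section

namespace Fermat.Agent.S24C.Final
open Fermat.Agent.S24 Fermat.Agent.S24.Final

open Fermat.Agent.S24 Fermat.Agent.S24.Counting


section Final
variable (N : ℕ) [NeZero N]

open ModularGroup


/-- from the coset representatives to all of `SL(2, ℤ)` (points) -/
theorem valPt_all_of_out (τ0 : ℍ) (f : FN N)
    (h : ∀ x : XN N, 0 ≤ valPt N (x.out⁻¹ • τ0) f) (g : SL(2, ℤ)) : 0 ≤ valPt N (g • τ0) f := by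
  obtain ⟨γ, hγ⟩ := QuotientGroup.mk_out_eq_mul (Gamma0 N) g⁻¹
  have h1 := h (QuotientGroup.mk g⁻¹)
  rw [hγ, mul_inv_rev, inv_inv, mul_smul, PtInv.valPt_smul_Gamma0 N _ ((Gamma0 N).inv_mem γ.2)] at h1
  exact h1

/-- from the coset representatives to all of `SL(2, ℤ)` (cusps) -/
theorem valCusp_all_of_out (f : FN N)
    (h : ∀ x : XN N, 0 ≤ valCusp N x.out f) (g : SL(2, ℤ)) : 0 ≤ valCusp N g f := by
  obtain ⟨γ, hγ⟩ := QuotientGroup.mk_out_eq_mul (Gamma0 N) g
  have h1 := h (QuotientGroup.mk g)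
  rw [hγ, valCusp_mul_Gamma0 N _ _ γ.2] at h1
  exact h1

/-- Point fibres: the number of places over `c` is the number of orbits of the stabiliser. -/
theorem card_placesOver_pt (c : KQ) (τ0 : ℍ) (E : ℕ) (hE : 0 < E)
    (hval : ∀ g : SL(2, ℤ), valPt N (g • τ0) (jBar N - algebraMap KQ (FN N) c) = E)
    (δ : SL(2, ℤ)) (hδ : δ • τ0 = τ0)
    (hdiv : ∀ (x : XN N) (f : FN N), f ≠ 0 → (E : ℤ) ∣ valPt N (x.out⁻¹ • τ0) f *
      (Nat.card {y : XN N // (Quotient.mk'' y :
        MulAction.orbitRel.Quotient (Subgroup.zpowers δ) (XN N)) = Quotient.mk'' x} : ℤ)) :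
    Nat.card (placesOver (K := KQ) (jBar N) c) =
        Nat.card (MulAction.orbitRel.Quotient (Subgroup.zpowers δ) (XN N)) ∧
      Module.finrank KQ⟮jBar N⟯ (FN N) = Nat.card (XN N) := by
  classical
  haveI := finiteDimensional_jBar N
  letI : Fintype (MulAction.orbitRel.Quotient (Subgroup.zpowers δ) (XN N)) := Fintype.ofFinite _
  have key := card_zeros_eq_card_orbits (K := KQ) (X := XN N)
    (O := MulAction.orbitRel.Quotient (Subgroup.zpowers δ) (XN N))
    (jBar N - algebraMap KQ (FN N) c) (Module.finrank KQ⟮jBar N⟯ (FN N))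
    (Transfer.placesOver_finite_sum (jBar N) (transcendental_jBar N) c)
    (by rw [← Nat.card_eq_fintype_card]; exact card_XN_le_finrank N)
    (fun x => valPt N (x.out⁻¹ • τ0)) (fun x => ValPt.isRawVal_valPt N _)
    (E : ℤ) (by exact_mod_cast hE) (fun x => hval _)
    (fun x => Quotient.mk'' x) Quotient.mk''_surjective
    (by
      intro i j hij
      obtain ⟨k, hk⟩ := (orb_eq_iff N δ i j).1 hij
      obtain ⟨γ, hγ, hout⟩ := out_smul N (δ ^ k) j
      funext f
      rw [hk, hout, mul_inv_rev, mul_inv_rev, mul_smul, mul_smul,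
        PtInv.valPt_smul_Gamma0 N _ ((Gamma0 N).inv_mem hγ), ← zpow_neg, zpow_smul_fixed hδ])
    hdiv
    (by
      intro f hf hall
      obtain ⟨P, hmonic, hroot, hcoef, hpt, -⟩ := exists_charpoly N f
      refine ⟨P, hmonic, hroot, fun k hk => ⟨?_, ?_⟩⟩
      · rw [Transfer.adjoin_sub_const]; exact hcoef k
      · refine ⟨QuotientGroup.mk 1, ?_⟩
        exact hpt τ0 (valPt_all_of_out N τ0 f hall) k hk _)
  exact ⟨key.1.trans Nat.card_eq_fintype_card.symm, key.2.trans Nat.card_eq_fintype_card.symm⟩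

/-- Generic fibres. -/
theorem card_placesOver_generic (c : KQ) (hc0 : c ≠ 0) (hc1 : c ≠ 1728) :
    Nat.card (placesOver (K := KQ) (jBar N) c) = Nat.card (XN N) ∧
      Module.finrank KQ⟮jBar N⟯ (FN N) = Nat.card (XN N) := by
  classical
  haveI := finiteDimensional_jBar N
  obtain ⟨τ0, hτ0⟩ := exists_Jfun_eq (iotaK c)
  have key := card_zeros_eq_card (K := KQ) (X := XN N)
    (jBar N - algebraMap KQ (FN N) c) (Module.finrank KQ⟮jBar N⟯ (FN N))
    (Transfer.placesOver_finite_sum (jBar N) (transcendental_jBar N) c)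
    (by rw [← Nat.card_eq_fintype_card]; exact card_XN_le_finrank N)
    (fun x => valPt N (x.out⁻¹ • τ0)) (fun x => ValPt.isRawVal_valPt N _)
    (fun x => valPt_jBar_sub_generic N c hc0 hc1 _ (by rw [Jfun_smul, hτ0]))
    (by
      intro f hf hall
      obtain ⟨P, hmonic, hroot, hcoef, hpt, -⟩ := exists_charpoly N f
      refine ⟨P, hmonic, hroot, fun k hk => ⟨?_, ?_⟩⟩
      · rw [Transfer.adjoin_sub_const]; exact hcoef k
      · refine ⟨QuotientGroup.mk 1, ?_⟩
        exact hpt τ0 (valPt_all_of_out N τ0 f hall) k hk _)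
  exact ⟨key.1.trans Nat.card_eq_fintype_card.symm, key.2.trans Nat.card_eq_fintype_card.symm⟩


/-- The fibre over `1728`. -/
theorem card_placesOver_1728 :
    Nat.card (placesOver (K := KQ) (jBar N) 1728) =
      Nat.card (MulAction.orbitRel.Quotient (Subgroup.zpowers S) (XN N)) := by
  refine (card_placesOver_pt N 1728 UpperHalfPlane.I 2 two_pos
    (fun g => by
      rw [valPt_jBar_sub_1728 N _ (by rw [Jfun_smul, Jfun_I])]; rfl)
    S S_smul_I ?_).1
  intro x f hf
  by_cases hx : S • x = x
  · have hmem := (smul_eq_self_iff N S x).1 hx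
    have h2 : (x.out⁻¹ * S * x.out) ^ 2 = -1 := by
      have : (x.out⁻¹ * S * x.out) ^ 2 = x.out⁻¹ * S ^ 2 * x.out := by
        rw [pow_two, pow_two]; group
      rw [this, S_sq]; simp
    have hfix : (x.out⁻¹ * S * x.out) • (x.out⁻¹ • UpperHalfPlane.I) = x.out⁻¹ • UpperHalfPlane.I := by
      rw [← mul_smul, mul_assoc, mul_assoc, mul_inv_cancel, mul_one, mul_smul, S_smul_I]
    exact Dvd.dvd.mul_right (by exact_mod_cast PtInv.two_dvd_valPt N _ hmem h2 _ hfix f hf) _
  · rw [card_fibre_S N x hx]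
    exact Dvd.intro_left _ rfl

/-- The fibre over `0`. -/
theorem card_placesOver_zero :
    Nat.card (placesOver (K := KQ) (jBar N) 0) =
      Nat.card (MulAction.orbitRel.Quotient (Subgroup.zpowers (S * T)) (XN N)) := by
  obtain ⟨τ0, hfix0, hJ0⟩ : ∃ τ : ℍ, (S * T) • τ = τ ∧ Jfun τ = 0 :=
    exists_fixed_ST
  refine (card_placesOver_pt N 0 τ0 3 (by norm_num)
    (fun g => by
      rw [valPt_jBar_sub_zero N _ (by rw [Jfun_smul, hJ0])]; rfl)
    (S * T) hfix0 ?_).1
  intro x f hf
  by_cases hx : (S * T) • x = x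
  · have hmem := (smul_eq_self_iff N (S * T) x).1 hx
    have h3 : (x.out⁻¹ * (S * T) * x.out) ^ 3 = -1 := by
      have : (x.out⁻¹ * (S * T) * x.out) ^ 3 = x.out⁻¹ * (S * T) ^ 3 * x.out := by
        rw [pow_succ, pow_two, pow_succ, pow_two]; group
      rw [this, ST_cube']; simp
    have hne : x.out⁻¹ * (S * T) * x.out ≠ -1 := by
      intro h
      apply ST_ne_neg_one
      have : S * T = x.out * (x.out⁻¹ * (S * T) * x.out) * x.out⁻¹ := by group
      rw [this, h]; simp
    have hfix : (x.out⁻¹ * (S * T) * x.out) • (x.out⁻¹ • τ0) = x.out⁻¹ • τ0 := by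
      rw [← mul_smul, mul_assoc, mul_assoc, mul_inv_cancel, mul_one, mul_smul, hfix0]
    exact Dvd.dvd.mul_right (by exact_mod_cast PtInv.three_dvd_valPt N _ hmem h3 hne _ hfix f hf) _
  · rw [card_fibre_ST N x hx]
    exact Dvd.intro_left _ rfl

/-- The poles of `j` (the cusps). -/
theorem card_polesOf :
    Nat.card (polesOf KQ (jBar N)) =
      Nat.card (MulAction.orbitRel.Quotient (Subgroup.zpowers T) (XN N)) := by
  classical
  haveI := finiteDimensional_jBar N
  letI : Fintype (MulAction.orbitRel.Quotient (Subgroup.zpowers T) (XN N)) := Fintype.ofFinite _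
  have key := card_zeros_eq_card_orbits (K := KQ) (X := XN N)
    (O := MulAction.orbitRel.Quotient (Subgroup.zpowers T) (XN N))
    (jBar N)⁻¹ (Module.finrank KQ⟮jBar N⟯ (FN N))
    (zeros_inv_finite_sum (jBar N) (transcendental_jBar N))
    (by rw [← Nat.card_eq_fintype_card]; exact card_XN_le_finrank N)
    (fun x => valCusp N x.out) (fun x => QExp.isRawVal_valCusp N _)
    (N : ℤ) (by exact_mod_cast Nat.pos_of_ne_zero (NeZero.ne N)) (fun x => valCusp_jBar_inv N _)
    (fun x => Quotient.mk'' x) Quotient.mk''_surjective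
    (by
      intro i j hij
      obtain ⟨k, hk⟩ := (orb_eq_iff N T i j).1 hij
      obtain ⟨γ, hγ, hout⟩ := out_smul N (T ^ k) j
      funext f
      rw [hk, hout, valCusp_mul_Gamma0 N _ _ hγ, valCusp_T_zpow_mul])
    (by
      intro x f hf
      obtain ⟨h, hh, hfix, hcard⟩ := card_fibre_T N x
      rw [hcard]
      exact dvd_valCusp N x.out h hh ((smul_eq_self_iff N (T ^ h) x).1 hfix) f hf)
    (by
      intro f hf hall
      obtain ⟨P, hmonic, hroot, hcoef, -, hcusp⟩ := exists_charpoly N f
      refine ⟨P, hmonic, hroot, fun k hk => ⟨?_, ?_⟩⟩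
      · rw [Transfer.adjoin_inv]; exact hcoef k
      · refine ⟨QuotientGroup.mk 1, ?_⟩
        exact hcusp (valCusp_all_of_out N f hall) k hk _)
  have hset : polesOf KQ (jBar N) = {v : Place KQ (FN N) | 0 < v.ord (jBar N)⁻¹} := by
    ext v
    simp only [polesOf, Set.mem_ofPred_eq, Place.ord_inv]
    omega
  rw [hset]
  exact key.1.trans Nat.card_eq_fintype_card.symm

theorem genus_eq (g : ℕ) (hg : (g : ℚ) = ModularCurve.genusFormula N)
    [HasCanonicalDivisor (K := KQ) (F := FN N)] : genus KQ (FN N) = g := by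
  classical
  haveI := finiteDimensional_jBar N
  have hn : Module.finrank KQ⟮jBar N⟯ (FN N) = Nat.card (XN N) :=
    (card_placesOver_generic N 1 one_ne_zero (by norm_num)).2
  have h01 : (0 : KQ) ≠ 1728 := by norm_num
  refine genus_eq_of_counts (K := KQ) (jBar N) (transcendental_jBar N) {0, 1728} ?_ g ?_
  · intro c hc
    simp only [Finset.mem_insert, Finset.mem_singleton, not_or] at hc
    rw [hn]
    exact (card_placesOver_generic N c hc.1 hc.2).1
  · rw [Finset.sum_pair h01, card_placesOver_zero, card_placesOver_1728, card_polesOf, hn]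
    have h := Fermat.Agent.S21.two_mul_genusFormula_sub_two N
    rw [← hg] at h
    have h' : ((2 * (g : ℤ) - 2 : ℤ) : ℚ) = (((Nat.card (XN N) : ℤ) -
        Nat.card (MulAction.orbitRel.Quotient (Subgroup.zpowers (S * T)) (XN N)) +
        ((Nat.card (XN N) : ℤ) -
          Nat.card (MulAction.orbitRel.Quotient (Subgroup.zpowers S) (XN N))) -
        Nat.card (XN N) -
        Nat.card (MulAction.orbitRel.Quotient (Subgroup.zpowers T) (XN N)) : ℤ) : ℚ) := by
      push_cast
      linarith
    exact_mod_cast h'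

end Final

end Fermat.Agent.S24C.Final
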