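import Mathlib
import Fermat.Agent.S24.Final
import Fermat.Agent.S24C.Final
import Fermat.Agent.S24.CountExact
import Fermat.Agent.S24.Ramif

/-
S24C (port of S24 to the base field `ℂ`).  This file repeats, for `K = ℂ`,
`F = ℂ(j(q^d) : d ∣ N)` and the embedding `ι = id`, the declarations of
`Fermat/Agent/S24/Ramif.lean` whose statement mentions the base field — same names, same proofs,
with `Fermat.Agent.S24` replaced by `Fermat.Agent.S24C`.  The declarations of that file which do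
not mention the base field are not repeated: they are used from `Fermat.Agent.S24` directly.
-/

/-!
# JAC-C: places of `F = K(j(q^d) : d ∣ N)` versus points and cusps, with exact ramification

* `exists_place_valPt`: for `τ ∈ ℍ` with `J τ ∈ ι K`, the point valuation `valPt N τ` is
  `e * v.ord` for a place `v` over `j = J τ`, and `e` is the exact order of the stabiliser of `τ`
  in `Γ₀(N) / ±1` (`EllType N τ e`: `e = 1`, or `e = 2, 3` with an explicit elliptic element);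
* `exists_place_valCusp`: `valCusp N g = e * v.ord` with `e * w = N`, `w` a width of the cusp
  (`g⁻¹ T ^ w g ∈ Γ₀(N)`);
* `exists_pt_or_cusp`: every place of `F` is of one of these two kinds;
* `forall_dvd_ord_iff`: the Kummer form: `n ∣ v.ord f` for all places iff the orders of `f` at
  the points and the cusps are divisible by `n` times the local index.
-/

set_option autoImplicit false
set_option linter.unusedSectionVars false

open UpperHalfPlane ModularForm AlgebraicCurve CongruenceSubgroup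
open scoped MatrixGroups Manifold IntermediateField

noncomputable section

namespace Fermat.Agent.S24C.Ramif
open Fermat.Agent.S24 Fermat.Agent.S24.Ramif

open Fermat.Agent.S24 Fermat.Agent.S24.Counting ModularGroup
open Fermat.Agent.S24.Final hiding card_placesOver_1728 card_placesOver_generic
  card_placesOver_pt card_placesOver_zero card_polesOf genus_eq valCusp_all_of_out
  valPt_all_of_out
open Fermat.Agent.S24C.Final

/-! ### Group-theoretic preliminaries -/


section Main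

variable (N : ℕ) [NeZero N]


variable {N}


variable (N)

/-- The elliptic order divides all point valuations. -/
theorem EllType.dvd_valPt {τ : ℍ} {e : ℕ} (h : EllType N τ e) (f : FN N) (hf : f ≠ 0) :
    (e : ℤ) ∣ valPt N τ f := by
  rcases h with rfl | ⟨rfl, δ, hδ, h2, hfix⟩ | ⟨rfl, δ, hδ, h3, hne, hfix⟩
  · simp
  · exact_mod_cast PtInv.two_dvd_valPt N δ hδ h2 τ hfix f hf
  · exact_mod_cast PtInv.three_dvd_valPt N δ hδ h3 hne τ hfix f hf

/-! ### Point fibres -/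


/-- Exact ramification in a fibre with an elliptic element of prime order `p` in `PSL₂(ℤ)`. -/
theorem exact_prime (p : ℕ) (hp : p.Prime) (c : KQ) (τ0 : ℍ)
    (hval : ∀ g : SL(2, ℤ), valPt N (g • τ0) (jBar N - algebraMap KQ (FN N) c) = p)
    (δ : SL(2, ℤ)) (hδp : δ ^ p = -1) (hδ : δ • τ0 = τ0)
    (hdvd : ∀ x : XN N, x.out⁻¹ * δ * x.out ∈ Gamma0 N → ∀ f : FN N, f ≠ 0 →
      (p : ℤ) ∣ valPt N (x.out⁻¹ • τ0) f) :
    (∀ x : XN N, ∃ (v : Place KQ (FN N)) (m : ℤ),
        0 < v.ord (jBar N - algebraMap KQ (FN N) c) ∧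
        (∀ f : FN N, f ≠ 0 → valPt N (x.out⁻¹ • τ0) f = m * v.ord f) ∧
        (m = 1 ∨ (m = p ∧ x.out⁻¹ * δ * x.out ∈ Gamma0 N))) ∧
    (∀ v : Place KQ (FN N), 0 < v.ord (jBar N - algebraMap KQ (FN N) c) →
      ∃ (x : XN N) (m : ℤ),
        (∀ f : FN N, f ≠ 0 → valPt N (x.out⁻¹ • τ0) f = m * v.ord f) ∧
        (m = 1 ∨ (m = p ∧ x.out⁻¹ * δ * x.out ∈ Gamma0 N))) := by
  classical
  have := finiteDimensional_jBar N
  let _ : Fintype (MulAction.orbitRel.Quotient (Subgroup.zpowers δ) (XN N)) := Fintype.ofFinite _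
  have hpx : ∀ x : XN N, δ ^ p • x = x := fun x => by
    rw [hδp]
    exact Fermat.Agent.S21.ParabolicBound.neg_one_smul_coset
      (Fermat.Agent.S20.Count.neg_one_mem_Gamma0 N) x
  have key := CountExact.exists_place_exact (K := KQ) (X := XN N)
    (O := MulAction.orbitRel.Quotient (Subgroup.zpowers δ) (XN N))
    (jBar N - algebraMap KQ (FN N) c) (Module.finrank KQ⟮jBar N⟯ (FN N))
    (Transfer.placesOver_finite_sum (jBar N) (transcendental_jBar N) c)
    (by rw [← Nat.card_eq_fintype_card]; exact card_XN_le_finrank N)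
    (fun x => valPt N (x.out⁻¹ • τ0)) (fun x => ValPt.isRawVal_valPt N _)
    (p : ℤ) (by exact_mod_cast hp.pos) (fun x => hval _)
    (fun x => Quotient.mk'' x) Quotient.mk''_surjective
    (by
      intro i j hij
      obtain ⟨k, hk⟩ := (orb_eq_iff N δ i j).1 hij
      obtain ⟨γ, hγ, hout⟩ := out_smul N (δ ^ k) j
      funext f
      rw [hk, hout, mul_inv_rev, mul_inv_rev, mul_smul, mul_smul,
        PtInv.valPt_smul_Gamma0 N _ ((Gamma0 N).inv_mem hγ), ← zpow_neg, zpow_smul_fixed hδ])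
    (by
      intro x f hf
      by_cases hx : δ • x = x
      · exact Dvd.dvd.mul_right (hdvd x ((smul_eq_self_iff N δ x).1 hx) f hf) _
      · rw [card_fibre_of_prime N δ x p hp (hpx x) hx]
        exact Dvd.intro_left _ rfl)
    (by
      intro f hf hall
      obtain ⟨P, hmonic, hroot, hcoef, hpt, -⟩ := exists_charpoly N f
      refine ⟨P, hmonic, hroot, fun k hk => ⟨?_, ?_⟩⟩
      · rw [Transfer.adjoin_sub_const]; exact hcoef k
      · refine ⟨QuotientGroup.mk 1, ?_⟩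
        exact hpt τ0 (valPt_all_of_out N τ0 f hall) k hk _)
  have hm : ∀ (x : XN N) (m : ℤ), 0 < m →
      m * (Nat.card {y : XN N // (Quotient.mk'' y :
        MulAction.orbitRel.Quotient (Subgroup.zpowers δ) (XN N)) = Quotient.mk'' x} : ℤ) = p →
      (m = 1 ∨ (m = p ∧ x.out⁻¹ * δ * x.out ∈ Gamma0 N)) := by
    intro x m hm0 hmp
    by_cases hx : δ • x = x
    · right
      rw [card_fibre_of_fixed N δ x hx] at hmp
      exact ⟨by simpa using hmp, (smul_eq_self_iff N δ x).1 hx⟩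
    · left
      rw [card_fibre_of_prime N δ x p hp (hpx x) hx] at hmp
      have hp0 : (p : ℤ) ≠ 0 := by exact_mod_cast hp.ne_zero
      exact mul_right_cancel₀ hp0 (by rw [hmp, one_mul])
  refine ⟨fun x => ?_, fun v hv => ?_⟩
  · obtain ⟨v, m, hm0, hv, hcardm, hfm⟩ := key.1 x
    exact ⟨v, m, hv, hfm, hm x m hm0 hcardm⟩
  · obtain ⟨x, m, hm0, hcardm, hfm⟩ := key.2 v hv
    exact ⟨x, m, hfm, hm x m hm0 hcardm⟩

/-- The generic fibres: no ramification. -/
theorem exact_generic (c : KQ) (hc0 : c ≠ 0) (hc1 : c ≠ 1728) (τ0 : ℍ)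
    (hτ0 : Jfun τ0 = iotaK c) :
    (∀ x : XN N, ∃ v : Place KQ (FN N), 0 < v.ord (jBar N - algebraMap KQ (FN N) c) ∧
        ∀ f : FN N, f ≠ 0 → valPt N (x.out⁻¹ • τ0) f = v.ord f) ∧
    (∀ v : Place KQ (FN N), 0 < v.ord (jBar N - algebraMap KQ (FN N) c) →
      ∃ x : XN N, ∀ f : FN N, f ≠ 0 → valPt N (x.out⁻¹ • τ0) f = v.ord f) := by
  classical
  have := finiteDimensional_jBar N
  have key := CountExact.exists_place_exact (K := KQ) (X := XN N) (O := XN N)
    (jBar N - algebraMap KQ (FN N) c) (Module.finrank KQ⟮jBar N⟯ (FN N))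
    (Transfer.placesOver_finite_sum (jBar N) (transcendental_jBar N) c)
    (by rw [← Nat.card_eq_fintype_card]; exact card_XN_le_finrank N)
    (fun x => valPt N (x.out⁻¹ • τ0)) (fun x => ValPt.isRawVal_valPt N _)
    1 one_pos
    (fun x => valPt_jBar_sub_generic N c hc0 hc1 _ (by rw [Jfun_smul, hτ0]))
    id Function.surjective_id
    (fun i j h => congrArg (fun x : XN N => valPt N (x.out⁻¹ • τ0)) (show i = j from h))
    (fun _ _ _ => one_dvd _)
    (by
      intro f hf hall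
      obtain ⟨P, hmonic, hroot, hcoef, hpt, -⟩ := exists_charpoly N f
      refine ⟨P, hmonic, hroot, fun k hk => ⟨?_, ?_⟩⟩
      · rw [Transfer.adjoin_sub_const]; exact hcoef k
      · refine ⟨QuotientGroup.mk 1, ?_⟩
        exact hpt τ0 (valPt_all_of_out N τ0 f hall) k hk _)
  refine ⟨fun x => ?_, fun v hv => ?_⟩
  · obtain ⟨v, m, hm0, hv, hcardm, hfm⟩ := key.1 x
    have hm1 : m = 1 := Int.eq_one_of_mul_eq_one_right hm0.le hcardm
    exact ⟨v, hv, fun f hf => by rw [hfm f hf, hm1, one_mul]⟩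
  · obtain ⟨x, m, hm0, hcardm, hfm⟩ := key.2 v hv
    have hm1 : m = 1 := Int.eq_one_of_mul_eq_one_right hm0.le hcardm
    exact ⟨x, fun f hf => by rw [hfm f hf, hm1, one_mul]⟩

/-- The elliptic fibres (`p = 2`: over `1728`, `p = 3`: over `0`). -/
theorem exact_ell (p : ℕ) (hp : p = 2 ∨ p = 3) (c : KQ) (τ0 : ℍ)
    (hval : ∀ g : SL(2, ℤ), valPt N (g • τ0) (jBar N - algebraMap KQ (FN N) c) = p)
    (δ : SL(2, ℤ)) (hδp : δ ^ p = -1) (hδne : δ ≠ -1) (hδ : δ • τ0 = τ0) :
    (∀ x : XN N, ∃ (v : Place KQ (FN N)) (e : ℕ), EllType N (x.out⁻¹ • τ0) e ∧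
        0 < v.ord (jBar N - algebraMap KQ (FN N) c) ∧
        ∀ f : FN N, f ≠ 0 → valPt N (x.out⁻¹ • τ0) f = e * v.ord f) ∧
    (∀ v : Place KQ (FN N), 0 < v.ord (jBar N - algebraMap KQ (FN N) c) →
      ∃ (x : XN N) (e : ℕ), EllType N (x.out⁻¹ • τ0) e ∧
        ∀ f : FN N, f ≠ 0 → valPt N (x.out⁻¹ • τ0) f = e * v.ord f) := by
  have hprime : p.Prime := by
    rcases hp with rfl | rfl
    · exact Nat.prime_two
    · exact Nat.prime_three
  have hE : ∀ x : XN N, x.out⁻¹ * δ * x.out ∈ Gamma0 N → EllType N (x.out⁻¹ • τ0) p := by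
    intro x hmem
    have hpow : (x.out⁻¹ * δ * x.out) ^ p = -1 := by
      rw [conj_pow', hδp]; exact conj_neg_one _
    have hne : x.out⁻¹ * δ * x.out ≠ -1 := fun h => hδne ((conj_eq_neg_one_iff _ _).1 h)
    have hfix : (x.out⁻¹ * δ * x.out) • (x.out⁻¹ • τ0) = x.out⁻¹ • τ0 := by
      rw [← mul_smul, mul_assoc, mul_assoc, mul_inv_cancel, mul_one, mul_smul, hδ]
    rcases hp with rfl | rfl
    · exact Or.inr (Or.inl ⟨rfl, _, hmem, hpow, hfix⟩)
    · exact Or.inr (Or.inr ⟨rfl, _, hmem, hpow, hne, hfix⟩)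
  have key := exact_prime N p hprime c τ0 hval δ hδp hδ
    (fun x hmem f hf => EllType.dvd_valPt N (hE x hmem) f hf)
  have hconv : ∀ (x : XN N) (m : ℤ), (m = 1 ∨ (m = p ∧ x.out⁻¹ * δ * x.out ∈ Gamma0 N)) →
      ∃ e : ℕ, (e : ℤ) = m ∧ EllType N (x.out⁻¹ • τ0) e := by
    rintro x m (rfl | ⟨rfl, hmem⟩)
    · exact ⟨1, by simp, Or.inl rfl⟩
    · exact ⟨p, rfl, hE x hmem⟩
  refine ⟨fun x => ?_, fun v hv => ?_⟩
  · obtain ⟨v, m, hv, hfm, hm⟩ := key.1 x
    obtain ⟨e, hem, hell⟩ := hconv x m hm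
    exact ⟨v, e, hell, hv, fun f hf => by rw [hfm f hf, hem]⟩
  · obtain ⟨x, m, hfm, hm⟩ := key.2 v hv
    obtain ⟨e, hem, hell⟩ := hconv x m hm
    exact ⟨x, e, hell, fun f hf => by rw [hfm f hf, hem]⟩

/-- **Point fibres, exact form.**  Let `J τ0 = ι c`.  Each translate `x.out⁻¹ • τ0` defines a
place over `j = c` with index the exact elliptic order, and every place over `j = c` arises. -/
theorem exact_pt_all (c : KQ) (τ0 : ℍ) (hτ0 : Jfun τ0 = iotaK c) :
    (∀ x : XN N, ∃ (v : Place KQ (FN N)) (e : ℕ), EllType N (x.out⁻¹ • τ0) e ∧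
        0 < v.ord (jBar N - algebraMap KQ (FN N) c) ∧
        ∀ f : FN N, f ≠ 0 → valPt N (x.out⁻¹ • τ0) f = e * v.ord f) ∧
    (∀ v : Place KQ (FN N), 0 < v.ord (jBar N - algebraMap KQ (FN N) c) →
      ∃ (x : XN N) (e : ℕ), EllType N (x.out⁻¹ • τ0) e ∧
        ∀ f : FN N, f ≠ 0 → valPt N (x.out⁻¹ • τ0) f = e * v.ord f) := by
  by_cases hc1 : c = 1728
  · subst hc1
    have hJ : Jfun τ0 = 1728 := by rw [hτ0]; exact map_ofNat iotaK 1728
    obtain ⟨γ, hγ⟩ := (JPt.Jfun_eq_1728_iff τ0).1 hJ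
    refine exact_ell N 2 (Or.inl rfl) 1728 τ0
      (fun g => by rw [valPt_jBar_sub_1728 N _ (by rw [Jfun_smul, hJ])]; rfl)
      (γ * S * γ⁻¹) ?_ ?_ ?_
    · have := conj_pow' γ⁻¹ S 2
      rw [inv_inv] at this
      rw [this, S_sq]; simp
    · intro h
      have h2 : (γ * S * γ⁻¹) ^ 2 = -1 := by
        have := conj_pow' γ⁻¹ S 2
        rw [inv_inv] at this
        rw [this, S_sq]; simp
      rw [h] at h2
      have h3 : (1 : SL(2, ℤ)) = -1 := by simpa using h2
      have h4 := congrArg (fun g : SL(2, ℤ) => (g : Matrix (Fin 2) (Fin 2) ℤ) 0 0) h3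
      simp at h4
    · rw [hγ, ← mul_smul, mul_assoc, inv_mul_cancel, mul_one, mul_smul, S_smul_I]
  by_cases hc0 : c = 0
  · subst hc0
    have hJ : Jfun τ0 = 0 := by rw [hτ0]; exact map_zero iotaK
    obtain ⟨τ1, hfix1, hJ1⟩ : ∃ τ : ℍ, (S * T) • τ = τ ∧ Jfun τ = 0 := exists_fixed_ST
    obtain ⟨γ, hγ⟩ := (JPt.Jfun_eq_iff τ0 τ1).1 (hJ.trans hJ1.symm)
    refine exact_ell N 3 (Or.inr rfl) 0 τ0
      (fun g => by rw [valPt_jBar_sub_zero N _ (by rw [Jfun_smul, hJ])]; rfl)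
      (γ * (S * T) * γ⁻¹) ?_ ?_ ?_
    · have := conj_pow' γ⁻¹ (S * T) 3
      rw [inv_inv] at this
      rw [this, ST_cube']; simp
    · intro h
      exact ST_ne_neg_one ((conj_eq_neg_one_iff γ⁻¹ (S * T)).1 (by rwa [inv_inv]))
    · rw [← hγ, ← mul_smul, mul_assoc, inv_mul_cancel, mul_one, mul_smul, hfix1]
  · obtain ⟨h1, h2⟩ := exact_generic N c hc0 hc1 τ0 hτ0
    refine ⟨fun x => ?_, fun v hv => ?_⟩
    · obtain ⟨v, hv, hf⟩ := h1 x
      exact ⟨v, 1, Or.inl rfl, hv, fun f hf0 => by rw [hf f hf0]; simp⟩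
    · obtain ⟨x, hf⟩ := h2 v hv
      exact ⟨x, 1, Or.inl rfl, fun f hf0 => by rw [hf f hf0]; simp⟩

/-- **Exact ramification at a point.**  If `J τ = ι c`, the point valuation at `τ` is `e` times
the order function of a place over `j = c`, `e` the exact elliptic order of `τ` for `Γ₀(N)`. -/
theorem exists_place_valPt (τ : ℍ) (c : KQ) (hc : Jfun τ = iotaK c) :
    ∃ (v : Place KQ (FN N)) (e : ℕ), EllType N τ e ∧
      0 < v.ord (jBar N - algebraMap KQ (FN N) c) ∧
      ∀ f : FN N, f ≠ 0 → valPt N τ f = e * v.ord f := by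
  obtain ⟨v, e, hell, hv, hf⟩ := (exact_pt_all N c τ hc).1 (QuotientGroup.mk 1)
  obtain ⟨γ, hγ⟩ := QuotientGroup.mk_out_eq_mul (Gamma0 N) (1 : SL(2, ℤ))
  rw [one_mul] at hγ
  have hτ : (γ : SL(2, ℤ)) • ((γ : SL(2, ℤ))⁻¹ • τ) = τ := by
    rw [← mul_smul, mul_inv_cancel, one_smul]
  refine ⟨v, e, ?_, hv, fun f hf0 => ?_⟩
  · have := hell.smul (γ : SL(2, ℤ)) γ.2
    rw [hγ] at this
    rwa [hτ] at this
  · rw [← hf f hf0, hγ, PtInv.valPt_smul_Gamma0 N _ ((Gamma0 N).inv_mem γ.2)]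

/-! ### The cusps -/

/-- **Cusp fibre, exact form.**  Each coset `x` defines a place over `j = ∞` with
`valCusp N x.out = e * v.ord`, `e * w = N`, `w` the size of the `T`-orbit of `x`; and every
pole of `j` arises. -/
theorem exact_cusp_all :
    (∀ x : XN N, ∃ (v : Place KQ (FN N)) (e w : ℕ), 0 < w ∧ e * w = N ∧ T ^ w • x = x ∧
        0 < v.ord (jBar N)⁻¹ ∧ ∀ f : FN N, f ≠ 0 → valCusp N x.out f = e * v.ord f) ∧
    (∀ v : Place KQ (FN N), 0 < v.ord (jBar N)⁻¹ → ∃ (x : XN N) (e w : ℕ), 0 < w ∧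
        e * w = N ∧ T ^ w • x = x ∧ ∀ f : FN N, f ≠ 0 → valCusp N x.out f = e * v.ord f) := by
  classical
  have := finiteDimensional_jBar N
  let _ : Fintype (MulAction.orbitRel.Quotient (Subgroup.zpowers T) (XN N)) := Fintype.ofFinite _
  have key := CountExact.exists_place_exact (K := KQ) (X := XN N)
    (O := MulAction.orbitRel.Quotient (Subgroup.zpowers T) (XN N))
    (jBar N)⁻¹ (Module.finrank KQ⟮jBar N⟯ (FN N))
    (zeros_inv_finite_sum (jBar N) (transcendental_jBar N))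
    (by rw [← Nat.card_eq_fintype_card]; exact card_XN_le_finrank N)
    (fun x => valCusp N x.out) (fun x => QExp.isRawVal_valCusp N _)
    (N : ℤ) (by exact_mod_cast Nat.pos_of_ne_zero (NeZero.ne N)) (fun x => valCusp_jBar_inv N _)
    (fun x => Quotient.mk'' x) Quotient.mk''_surjective
    (by
      intro i j hij
      obtain ⟨k, hk⟩ := (orb_eq_iff N T i j).1 hij
      obtain ⟨γ, hγ, hout⟩ := out_smul N (T ^ k) j
      funext f
      rw [hk, hout, valCusp_mul_Gamma0 N _ _ hγ, valCusp_T_zpow_mul])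
    (by
      intro x f hf
      obtain ⟨h, hh, hfix, hcard⟩ := card_fibre_T N x
      rw [hcard]
      exact dvd_valCusp N x.out h hh ((smul_eq_self_iff N (T ^ h) x).1 hfix) f hf)
    (by
      intro f hf hall
      obtain ⟨P, hmonic, hroot, hcoef, -, hcusp⟩ := exists_charpoly N f
      refine ⟨P, hmonic, hroot, fun k hk => ⟨?_, ?_⟩⟩
      · rw [Transfer.adjoin_inv]; exact hcoef k
      · refine ⟨QuotientGroup.mk 1, ?_⟩
        exact hcusp (valCusp_all_of_out N f hall) k hk _)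
  have hconv : ∀ (x : XN N) (m : ℤ), 0 < m →
      m * (Nat.card {y : XN N // (Quotient.mk'' y :
        MulAction.orbitRel.Quotient (Subgroup.zpowers T) (XN N)) = Quotient.mk'' x} : ℤ) = N →
      ∃ e w : ℕ, (e : ℤ) = m ∧ 0 < w ∧ e * w = N ∧ T ^ w • x = x := by
    intro x m hm0 hmN
    obtain ⟨h, hh, hfix, hcard⟩ := card_fibre_T N x
    rw [hcard] at hmN
    refine ⟨m.toNat, h, Int.toNat_of_nonneg hm0.le, hh, ?_, hfix⟩
    have h1 : ((m.toNat * h : ℕ) : ℤ) = (N : ℤ) := by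
      push_cast
      rw [Int.toNat_of_nonneg hm0.le]
      exact hmN
    exact_mod_cast h1
  refine ⟨fun x => ?_, fun v hv => ?_⟩
  · obtain ⟨v, m, hm0, hv, hcardm, hfm⟩ := key.1 x
    obtain ⟨e, w, hem, hw, hew, hfix⟩ := hconv x m hm0 hcardm
    exact ⟨v, e, w, hw, hew, hfix, hv, fun f hf => by rw [hfm f hf, hem]⟩
  · obtain ⟨x, m, hm0, hcardm, hfm⟩ := key.2 v hv
    obtain ⟨e, w, hem, hw, hew, hfix⟩ := hconv x m hm0 hcardm
    exact ⟨x, e, w, hw, hew, hfix, fun f hf => by rw [hfm f hf, hem]⟩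

/-- **Exact ramification at a cusp.**  The cusp valuation at `g⁻¹ ∞` (order in `q_N`) is `e`
times the order function of a pole of `j`, with `e * w = N` and `w` the width of the cusp:
`g⁻¹ T ^ w g ∈ Γ₀(N)`. -/
theorem exists_place_valCusp (g : SL(2, ℤ)) :
    ∃ (v : Place KQ (FN N)) (e w : ℕ), 0 < w ∧ e * w = N ∧ g⁻¹ * T ^ w * g ∈ Gamma0 N ∧
      v.ord (jBar N) < 0 ∧ ∀ f : FN N, f ≠ 0 → valCusp N g f = e * v.ord f := by
  obtain ⟨v, e, w, hw, hew, hfix, hv, hf⟩ := (exact_cusp_all N).1 (QuotientGroup.mk g)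
  obtain ⟨γ, hγ⟩ := QuotientGroup.mk_out_eq_mul (Gamma0 N) g
  have hmem := (smul_eq_self_iff N (T ^ w) _).1 hfix
  rw [hγ] at hmem
  refine ⟨v, e, w, hw, hew, ?_, ?_, fun f hf0 => ?_⟩
  · have h2 := (Gamma0 N).mul_mem ((Gamma0 N).mul_mem γ.2 hmem) ((Gamma0 N).inv_mem γ.2)
    have e2 : (γ : SL(2, ℤ)) * ((g * γ)⁻¹ * T ^ w * (g * γ)) * (γ : SL(2, ℤ))⁻¹
        = g⁻¹ * T ^ w * g := by group
    rwa [e2] at h2
  · rw [Place.ord_inv] at hv
    omega
  · rw [← hf f hf0, hγ, valCusp_mul_Gamma0 N g γ γ.2]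

/-! ### Every place is a point place or a cusp place -/

/-- **Every place of `F` is a point place or a cusp place**, with exact index. -/
theorem exists_pt_or_cusp (v : Place KQ (FN N)) :
    (∃ (τ : ℍ) (c : KQ) (e : ℕ), Jfun τ = iotaK c ∧ EllType N τ e ∧
        0 < v.ord (jBar N - algebraMap KQ (FN N) c) ∧
        ∀ f : FN N, f ≠ 0 → valPt N τ f = e * v.ord f) ∨
    (∃ (g : SL(2, ℤ)) (e w : ℕ), 0 < w ∧ e * w = N ∧ g⁻¹ * T ^ w * g ∈ Gamma0 N ∧
        v.ord (jBar N) < 0 ∧ ∀ f : FN N, f ≠ 0 → valCusp N g f = e * v.ord f) := by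
  have := finiteDimensional_jBar N
  have : Algebra.IsAlgebraic KQ⟮jBar N⟯ (FN N) := Algebra.IsAlgebraic.of_finite _ _
  rcases ARest.exists_value (jBar N) (transcendental_jBar N) v with hneg | ⟨c, hc⟩
  · right
    have hv : 0 < v.ord (jBar N)⁻¹ := by
      rw [Place.ord_inv]
      omega
    obtain ⟨x, e, w, hw, hew, hfix, hf⟩ := (exact_cusp_all N).2 v hv
    exact ⟨x.out, e, w, hw, hew, (smul_eq_self_iff N (T ^ w) x).1 hfix, hneg, hf⟩
  · left
    obtain ⟨τ0, hτ0⟩ := exists_Jfun_eq (iotaK c)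
    obtain ⟨x, e, hell, hf⟩ := (exact_pt_all N c τ0 hτ0).2 v hc
    exact ⟨x.out⁻¹ • τ0, c, e, by rw [Jfun_smul, hτ0], hell, hc, hf⟩

/-! ### Kummer form -/

/-- If all orders of `f` are divisible by `n`, its order at a point of elliptic type `e` is
divisible by `n * e`. -/
theorem dvd_valPt_of_forall_dvd_ord (n : ℕ) (f : FN N) (hf : f ≠ 0)
    (h : ∀ v : Place KQ (FN N), (n : ℤ) ∣ v.ord f) (τ : ℍ) (e : ℕ) (hell : EllType N τ e) :
    ((n * e : ℕ) : ℤ) ∣ valPt N τ f := by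
  have hw := ValPt.isRawVal_valPt N τ
  by_cases hnt : ∃ g : FN N, g ≠ 0 ∧ valPt N τ g ≠ 0
  · obtain ⟨m, hm, ⟨π, hπ0, hπ1, hπm⟩, hall⟩ := hw.exists_mul_ord hnt
    have h1 : (e : ℤ) ∣ m := by
      rw [← hπm]
      exact EllType.dvd_valPt N hell π hπ0
    rw [hall f hf]
    push_cast
    rw [mul_comm (n : ℤ)]
    exact mul_dvd_mul h1 (h _)
  · push Not at hnt
    rw [hnt f hf]
    exact dvd_zero _

/-- If all orders of `f` are divisible by `n`, its order (in `q_N`) at a cusp with a period `w`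
is divisible by `n * (N / w)`. -/
theorem dvd_valCusp_of_forall_dvd_ord (n : ℕ) (f : FN N) (hf : f ≠ 0)
    (h : ∀ v : Place KQ (FN N), (n : ℤ) ∣ v.ord f) (g : SL(2, ℤ)) (w : ℕ) (hw : 0 < w)
    (hwN : w ∣ N) (hmem : g⁻¹ * T ^ w * g ∈ Gamma0 N) :
    ((n * (N / w) : ℕ) : ℤ) ∣ valCusp N g f := by
  have hraw := QExp.isRawVal_valCusp N g
  by_cases hnt : ∃ f' : FN N, f' ≠ 0 ∧ valCusp N g f' ≠ 0
  · obtain ⟨m, hm, ⟨π, hπ0, hπ1, hπm⟩, hall⟩ := hraw.exists_mul_ord hnt
    have h1 : ((N / w : ℕ) : ℤ) ∣ m := by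
      have h2 := dvd_valCusp N g w hw hmem π hπ0
      rw [hπm] at h2
      obtain ⟨k, hk⟩ := hwN
      have hk' : N / w = k := by
        rw [hk]
        exact Nat.mul_div_cancel_left k hw
      rw [hk']
      have h3 : ((k : ℤ) * w) ∣ m * w := by
        have : ((N : ℕ) : ℤ) = (k : ℤ) * w := by
          rw [hk]
          push_cast
          ring
        rwa [this] at h2
      exact (mul_dvd_mul_iff_right (by exact_mod_cast hw.ne')).mp h3
    rw [hall f hf]
    push_cast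
    rw [mul_comm (n : ℤ)]
    exact mul_dvd_mul h1 (h _)
  · push Not at hnt
    rw [hnt f hf]
    exact dvd_zero _

/-- **Kummer form of the dictionary.**  All orders of `f ≠ 0` at the places of `F` are divisible
by `n` iff the order of `f` at every point of elliptic type `e` is divisible by `n * e` and its
order (in `q_N`) at every cusp with a period `w ∣ N` is divisible by `n * (N / w)`. -/
theorem forall_dvd_ord_iff (n : ℕ) (f : FN N) (hf : f ≠ 0) :
    (∀ v : Place KQ (FN N), (n : ℤ) ∣ v.ord f) ↔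
      (∀ (τ : ℍ) (e : ℕ), EllType N τ e → ((n * e : ℕ) : ℤ) ∣ valPt N τ f) ∧
      (∀ (g : SL(2, ℤ)) (w : ℕ), 0 < w → w ∣ N → g⁻¹ * T ^ w * g ∈ Gamma0 N →
        ((n * (N / w) : ℕ) : ℤ) ∣ valCusp N g f) := by
  constructor
  · intro h
    exact ⟨fun τ e hell => dvd_valPt_of_forall_dvd_ord N n f hf h τ e hell,
      fun g w hw hwN hmem => dvd_valCusp_of_forall_dvd_ord N n f hf h g w hw hwN hmem⟩
  · rintro ⟨hpt, hcusp⟩ v
    rcases exists_pt_or_cusp N v with ⟨τ, c, e, -, hell, -, hval⟩ | ⟨g, e, w, hw, hew, hmem, -, hval⟩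
    · have h1 := hpt τ e hell
      rw [hval f hf] at h1
      push_cast at h1
      rw [mul_comm (n : ℤ)] at h1
      exact (mul_dvd_mul_iff_left (by exact_mod_cast hell.pos.ne')).mp h1
    · have hwN : w ∣ N := ⟨e, by rw [← hew, mul_comm]⟩
      have hNw : N / w = e := by
        rw [← hew]
        exact Nat.mul_div_cancel e hw
      have h1 := hcusp g w hw hwN hmem
      rw [hNw, hval f hf] at h1
      push_cast at h1
      rw [mul_comm (n : ℤ)] at h1
      have he : e ≠ 0 := by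
        rintro rfl
        rw [zero_mul] at hew
        exact (NeZero.ne N) hew.symm
      exact (mul_dvd_mul_iff_left (by exact_mod_cast he)).mp h1

/-! ### Pair form (for the analytic Kummer theory on `ℍ`) -/

/-- The point valuation as the order of the quotient `ev P / ev Q`. -/
theorem valPt_eq_ordFrac (τ : ℍ) {f : FN N} {P Q : MvPolynomial (Dv N) KQ}
    (h : IsRep N f P Q) (hf : f ≠ 0) :
    valPt N τ f = OrdH.ordFrac (ev N P) (ev N Q) τ :=
  PtTop.valPt_eq_of_isRep N τ h hf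

end Main

end Fermat.Agent.S24C.Ramif
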