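import Mathlib
import Fermat.Agent.ESJ.Dict.Defs
import Fermat.Agent.S24.Ramif
import Fermat.Agent.S24C.Ramif
import Fermat.Agent.S24.Mer
import Fermat.Agent.S24C.Mer
import Fermat.Agent.Lib.FF.ExtPrincipal
import Fermat.Agent.S24.DictInst

/-
S24C (port of S24 to the base field `ℂ`).  This file repeats, for `K = ℂ`,
`F = ℂ(j(q^d) : d ∣ N)` and the embedding `ι = id`, the declarations of
`Fermat/Agent/S24/DictInst.lean` whose statement mentions the base field — same names, same proofs,
with `Fermat.Agent.S24` replaced by `Fermat.Agent.S24C`.  The declarations of that file which do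
not mention the base field are not repeated: they are used from `Fermat.Agent.S24` directly.
-/

/-!
# JAC-DICT: the dictionary structure `IsDict iotaK N` from the S24 statements

(Written on the S24 names only, so that the same file ports to the coefficient field `ℂ`.)
The two statements on the cusps (`S24/MerCusp.lean`) enter `isDict_of` as hypotheses.
-/

set_option autoImplicit false

open UpperHalfPlane ModularForm AlgebraicCurve CongruenceSubgroup
open scoped MatrixGroups Manifold IntermediateField

noncomputable section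

namespace Fermat.Agent.S24C.DictInst
open Fermat.Agent.S24 Fermat.Agent.S24.DictInst

open Fermat.Agent.S24 Fermat.Agent.ESJ.Jac Fermat.Agent.ESJ.Dict

variable (N : ℕ) [NeZero N]

/-- The dictionary for the coefficient field of this namespace, given the two statements on the
cusps. -/
theorem isDict_of
    (hshape : ∀ f : FN N, f ≠ 0 → ∀ g : SL(2, ℤ),
      ∃ ψ : ℂ → ℂ, AnalyticAt ℂ ψ 0 ∧ ψ 0 ≠ 0 ∧ ∀ z : ℂ, z ∈ U →
        merK iotaK N f (mob g⁻¹ z) = Function.Periodic.qParam (N : ℝ) z ^ (valCusp N g f) *
          ψ (Function.Periodic.qParam (N : ℝ) z))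
    (hmer : ∀ f : FN N, MerAtCusps (merK iotaK N f)) :
    IsDict iotaK N where
  exists_isRepK := Rep.exists_isRep N
  fmK_eq_zero_iff := ValPt.fm_eq_zero_iff N
  mdiff_evK := PtInv.mdiff_ev N
  evK_smul_Gamma0 := fun P γ hγ z => PtInv.ev_smul_Gamma0 N P γ hγ z
  valPtK_eq_of_isRepK := fun τ _ _ _ h hf => PtTop.valPt_eq_of_isRep N τ h hf
  valCuspK_eq_of_isRepK := fun g _ _ _ h hf => QExp.valCusp_eq_of_isRep N g hf h
  merK_eq_div_ae := fun f _ _ h => Mer.merK_eq_div_ae N f h
  isRawVal_valPtK := fun τ => ValPt.isRawVal_valPt N τ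
  isRawVal_valCuspK := fun g => QExp.isRawVal_valCusp N g
  meromorphicOn_merK := Mer.meromorphicOn_merK N
  meromorphicOrderAt_merK := Mer.meromorphicOrderAt_merK N
  merK_mob := fun f γ hγ z hz => Mer.merK_mob N f γ hγ hz
  merK_mul := Mer.merK_mul N
  merK_add := Mer.merK_add N
  merK_algebraMap := Mer.merK_algebraMap N
  merK_eq_zero_iff := Mer.merK_eq_zero_iff N
  merK_cusp_shape := hshape
  merAtCusps_merK := hmer
  transcendental_jBarK := transcendental_jBar N
  finiteDimensional_jBarK := finiteDimensional_jBar N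
  finrank_jBarK := finrank_jBar N
  hasPrincipalDivisors := by
    have := finiteDimensional_jBar N
    exact Fermat.Agent.Lib.FF.Ext.hasPrincipalDivisors (K := KQ) (jBar N)
  ellType_dvd_valPtK := fun τ e h f hf => Ramif.EllType.dvd_valPt N h f hf
  dvd_valCuspK_mul := fun g w hw hmem f hf => dvd_valCusp N g w hw hmem f hf
  place_cases := fun v => by
    rcases Ramif.exists_pt_or_cusp N v with ⟨τ, c, e, -, hell, -, hval⟩ |
      ⟨g, e, w, hw, hew, hmem, -, hval⟩
    · exact Or.inl ⟨τ, e, hell, hval⟩
    · exact Or.inr ⟨g, e, w, hw, hew, hmem, hval⟩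
  forall_dvd_ord_iff := fun n f hf => Ramif.forall_dvd_ord_iff N n f hf

end Fermat.Agent.S24C.DictInst
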