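import Mathlib
import Fermat.Agent.ESJ.Jac.Defs
import Fermat.Agent.S24.CuspHom
import Fermat.Agent.S24C.CuspHom
import Fermat.Agent.S24.MerCusp

/-
S24C (port of S24 to the base field `ℂ`).  This file repeats, for `K = ℂ`,
`F = ℂ(j(q^d) : d ∣ N)` and the embedding `ι = id`, the declarations of
`Fermat/Agent/S24/MerCusp.lean` whose statement mentions the base field — same names, same proofs,
with `Fermat.Agent.S24` replaced by `Fermat.Agent.S24C`.  The declarations of that file which do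
not mention the base field are not repeated: they are used from `Fermat.Agent.S24` directly.
-/

/-!
# The meromorphic function of an element of the function field at the cusps

For `f` in the function field of `X₀(N)` and `g ∈ SL(2, ℤ)`, the meromorphic function
`merK f ∘ g⁻¹` is, on the whole upper half plane, of the shape `q_N ^ v * ψ (q_N)` with
`v = valCusp N g f` and `ψ` analytic and nonvanishing at `q_N = 0`.  In particular `merK f` is
meromorphic at all cusps.

* `hasQExp_shape`: a function with a nonzero global `q_h`-expansion `L` is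
  `q_h ^ L.order * ψ (q_h)` with `ψ` analytic and nonvanishing at `0`;
* `merK_cusp_shape`: the local shape of `merK f` at the cusp `g⁻¹ ∞`;
* `merAtCusps_merK`: `merK f` is meromorphic at all cusps.

Only the names `KQ`, `iotaK`, `FN`, `fm`, `ev`, `valCusp` of the coefficient field are used
(no property of the coefficient field itself).
-/

set_option autoImplicit false

open Filter Topology UpperHalfPlane
open scoped MatrixGroups

noncomputable section

namespace Fermat.Agent.S24C.MerCusp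
open Fermat.Agent.S24 Fermat.Agent.S24.MerCusp

open Fermat.Agent.S24 Fermat.Agent.ESJ.Jac

/-! ### Functions with a global `q`-expansion near `i∞` -/


/-! ### The Möbius maps on `U` -/


/-! ### The function `merK f` -/

variable (N : ℕ) [NeZero N]

/-- `merK f` is the quotient `ev P / ev Q` for the chosen representative of `f`. -/
theorem exists_merK_eq (f : FN N) :
    ∃ P Q : MvPolynomial (Dv N) KQ, IsRep N f P Q ∧
      merK iotaK N f = fun z : ℂ => ev N P (ofComplex z) / ev N Q (ofComplex z) := by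
  have hex : ∃ P Q, IsRep N f P Q := QExp.exists_isRep N f
  refine ⟨hex.choose, hex.choose_spec.choose, hex.choose_spec.choose_spec, ?_⟩
  unfold merK
  exact dif_pos hex

/-- `merK f ∘ g⁻¹` on `U` as a quotient of translates. -/
theorem merK_mob_inv (f : FN N) {P Q : MvPolynomial (Dv N) KQ}
    (hmer : merK iotaK N f = fun z : ℂ => ev N P (ofComplex z) / ev N Q (ofComplex z))
    (g : SL(2, ℤ)) {z : ℂ} (hz : z ∈ U) :
    merK iotaK N f (mob g⁻¹ z) = trans g (ev N P) ⟨z, hz⟩ / trans g (ev N Q) ⟨z, hz⟩ := by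
  have h1 : mob g⁻¹ z = ((g⁻¹ • (⟨z, hz⟩ : ℍ) : ℍ) : ℂ) := mob_coe_aux g⁻¹ ⟨z, hz⟩
  rw [hmer]
  show ev N P (ofComplex (mob g⁻¹ z)) / ev N Q (ofComplex (mob g⁻¹ z))
    = ev N P (g⁻¹ • (⟨z, hz⟩ : ℍ)) / ev N Q (g⁻¹ • (⟨z, hz⟩ : ℍ))
  rw [h1, UpperHalfPlane.ofComplex_apply]

/-- **Local shape of `merK f` at the cusp `g⁻¹ ∞`.** -/
theorem merK_cusp_shape (f : FN N) (hf : f ≠ 0) (g : SL(2, ℤ)) :
    ∃ ψ : ℂ → ℂ, AnalyticAt ℂ ψ 0 ∧ ψ 0 ≠ 0 ∧ ∀ z : ℂ, z ∈ U →
      merK iotaK N f (mob g⁻¹ z) = Function.Periodic.qParam (N : ℝ) z ^ (valCusp N g f) *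
        ψ (Function.Periodic.qParam (N : ℝ) z) := by
  obtain ⟨P, Q, hrep, hmer⟩ := exists_merK_eq N f
  have hQ : fm N Q ≠ 0 := hrep.1
  have hP : fm N P ≠ 0 := by
    intro h0
    apply hf
    rw [hrep.2, h0, zero_div]
  have hLP := QExp.hasQExp_trans_ev' N g P
  have hLQ := QExp.hasQExp_trans_ev' N g Q
  have hLP0 : ModularCurve.coeffMap iotaK (QExp.cuspPoly N g P) ≠ 0 := fun h =>
    QExp.cuspPoly_ne_zero N g hP (QExp.coeffMap_injective' iotaK (by rw [h, map_zero]))
  have hLQ0 : ModularCurve.coeffMap iotaK (QExp.cuspPoly N g Q) ≠ 0 := fun h =>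
    QExp.cuspPoly_ne_zero N g hQ (QExp.coeffMap_injective' iotaK (by rw [h, map_zero]))
  obtain ⟨ψP, hPa, hP0, hPe⟩ := hasQExp_shape hLP hLP0
  obtain ⟨ψQ, hQa, hQ0, hQe⟩ := hasQExp_shape hLQ hLQ0
  have hval : valCusp N g f = (ModularCurve.coeffMap iotaK (QExp.cuspPoly N g P)).order
      - (ModularCurve.coeffMap iotaK (QExp.cuspPoly N g Q)).order := by
    rw [QExp.valCusp_eq_of_isRep N g hf hrep, hLP.ordInf_eq hLP0, hLQ.ordInf_eq hLQ0]
  refine ⟨fun q => ψP q / ψQ q, hPa.div hQa hQ0, div_ne_zero hP0 hQ0, fun z hz => ?_⟩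
  have hq0 : Function.Periodic.qParam (N : ℝ) z ≠ 0 := Complex.exp_ne_zero _
  rw [merK_mob_inv N f hmer g hz, hPe ⟨z, hz⟩, hQe ⟨z, hz⟩, hval]
  show Function.Periodic.qParam (N : ℝ) z ^ _ * ψP (Function.Periodic.qParam (N : ℝ) z)
      / (Function.Periodic.qParam (N : ℝ) z ^ _ * ψQ (Function.Periodic.qParam (N : ℝ) z))
    = Function.Periodic.qParam (N : ℝ) z ^ _ *
      (ψP (Function.Periodic.qParam (N : ℝ) z) / ψQ (Function.Periodic.qParam (N : ℝ) z))
  rw [zpow_sub₀ hq0, mul_div_mul_comm]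

/-! ### Meromorphy at the cusps -/


/-- `merK 0 = 0`. -/
theorem merK_zero : merK iotaK N (0 : FN N) = 0 := by
  obtain ⟨P, Q, hrep, hmer⟩ := exists_merK_eq N (0 : FN N)
  have hP : fm N P = 0 := by
    have h := hrep.2
    rcases div_eq_zero_iff.mp h.symm with h0 | h0
    · exact h0
    · exact absurd h0 hrep.1
  have hev : ev N P = 0 := (QExp.ev_eq_zero_iff N P).mpr hP
  rw [hmer, hev]
  funext z
  simp

/-- **`merK f` is meromorphic at all cusps.** -/
theorem merAtCusps_merK (f : FN N) : MerAtCusps (merK iotaK N f) := by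
  intro g
  by_cases hf : f = 0
  · subst hf
    rw [merK_zero]
    exact ⟨0, 0, fun z _ => ⟨analyticAt_const, by simp⟩⟩
  · obtain ⟨ψ, hψ, -, hsh⟩ := merK_cusp_shape N f hf g⁻¹
    simp only [inv_inv] at hsh
    exact exists_bound_of_shape N (merK iotaK N f) g (valCusp N g⁻¹ f) ψ hψ hsh

end Fermat.Agent.S24C.MerCusp
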