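import Mathlib
import Fermat.Agent.S24.DictInst
import Fermat.Agent.S24C.DictInst
import Fermat.Agent.S24.MerCusp
import Fermat.Agent.S24C.MerCusp
import Fermat.Agent.S24.DictFull

/-
S24C (port of S24 to the base field `ℂ`).  This file repeats, for `K = ℂ`,
`F = ℂ(j(q^d) : d ∣ N)` and the embedding `ι = id`, the declarations of
`Fermat/Agent/S24/DictFull.lean` whose statement mentions the base field — same names, same proofs,
with `Fermat.Agent.S24` replaced by `Fermat.Agent.S24C`.  The declarations of that file which do
not mention the base field are not repeated: they are used from `Fermat.Agent.S24` directly.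
-/

/-!
# JAC-DICT: the dictionary structure `IsDict iotaK N`, unconditionally

(Written on the S24 names only, so that the same file ports to the coefficient field `ℂ`.)
-/

set_option autoImplicit false

noncomputable section

namespace Fermat.Agent.S24C.DictInst
open Fermat.Agent.S24 Fermat.Agent.S24.DictInst

open Fermat.Agent.S24 Fermat.Agent.ESJ.Jac Fermat.Agent.ESJ.Dict

/-- The dictionary for the coefficient field of this namespace. -/
theorem isDict (N : ℕ) [NeZero N] : IsDict iotaK N :=
  isDict_of N (MerCusp.merK_cusp_shape N) (MerCusp.merAtCusps_merK N)

end Fermat.Agent.S24C.DictInst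

end
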