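import Mathlib
import Fermat.Agent.S24.ModDefs
import Fermat.Agent.S24C.ModDefs
import Fermat.Agent.S24.Counting
import Fermat.Agent.S24.LevelOneInv
import Fermat.Agent.S24.PtVal

/-
S24C (port of S24 to the base field `ℂ`).  This file repeats, for `K = ℂ`,
`F = ℂ(j(q^d) : d ∣ N)` and the embedding `ι = id`, the declarations of
`Fermat/Agent/S24/PtVal.lean` whose statement mentions the base field — same names, same proofs,
with `Fermat.Agent.S24` replaced by `Fermat.Agent.S24C`.  The declarations of that file which do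
not mention the base field are not repeated: they are used from `Fermat.Agent.S24` directly.
-/

/-!
# S24 — representatives (`B-REP`) and the point valuations `valPt` (glue layer on `ModDefs`)
-/

set_option autoImplicit false

open UpperHalfPlane ModularForm IntermediateField
open scoped MatrixGroups Manifold
open Matrix.SpecialLinearGroup

noncomputable section

namespace Fermat.Agent.S24C.PtVal
open Fermat.Agent.S24 Fermat.Agent.S24.PtVal

open Fermat.Agent.S24

/-! ## (R1) the field `F` is generated over `K` by the `j(q^d)` -/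

/-- The generators, as Laurent series over `K`. -/
def genL (N : ℕ) [NeZero N] (d : Dv N) : LaurentSeries KQ := (jFormal N d : LaurentSeries KQ)

theorem genL_eq (N : ℕ) [NeZero N] (d : Dv N) :
    genL N d = haveI : NeZero d.1 := d.neZero
      ModularCurve.coeffEmb KQ (ModularCurve.qExpand ℚ d.1 ModularCurve.jq) := rfl

theorem modularFunctionFieldBar_eq_adjoin (N : ℕ) [NeZero N] :
    modularFunctionFieldC N = IntermediateField.adjoin KQ (Set.range (genL N)) := by
  apply le_antisymm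
  · -- `≤`
    unfold modularFunctionFieldC ModularCurve.laurentBaseChange
    rw [IntermediateField.adjoin_le_iff]
    rintro _ ⟨x, hx, rfl⟩
    -- the comap subfield
    let E : IntermediateField KQ (LaurentSeries KQ) :=
      IntermediateField.adjoin KQ (Set.range (genL N))
    let S' : Subfield (LaurentSeries ℚ) := E.toSubfield.comap (ModularCurve.coeffEmb KQ)
    let S'' : IntermediateField ℚ (LaurentSeries ℚ) :=
      S'.toIntermediateField (fun q => by
        rw [eq_ratCast]; exact SubfieldClass.ratCast_mem S' q)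
    have hle : ModularCurve.modularFunctionFieldFull N ≤ S'' := by
      unfold ModularCurve.modularFunctionFieldFull
      rw [IntermediateField.adjoin_le_iff]
      rintro y ⟨d, hd0, hdN, rfl⟩
      show ModularCurve.coeffEmb KQ (ModularCurve.qExpand ℚ d ModularCurve.jq) ∈ E
      exact IntermediateField.subset_adjoin KQ _ ⟨⟨d, hdN⟩, rfl⟩
    exact hle hx
  · rw [IntermediateField.adjoin_le_iff]
    rintro _ ⟨d, rfl⟩
    exact (jFormal N d).2

/-! ## (R2) every element of `F` is a quotient of polynomial expressions in the generators -/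

theorem coe_fm (N : ℕ) [NeZero N] (P : MvPolynomial (Dv N) KQ) :
    ((fm N P : FN N) : LaurentSeries KQ) = MvPolynomial.aeval (genL N) P := by
  have h : ((modularFunctionFieldC N).val.comp (fm N)) =
      MvPolynomial.aeval (genL N) := by
    apply MvPolynomial.algHom_ext
    intro d
    simp [fm, genL]
  exact congrArg (fun φ : MvPolynomial (Dv N) KQ →ₐ[KQ] LaurentSeries KQ => φ P) h

theorem exists_rep (N : ℕ) [NeZero N] (f : FN N) : ∃ P Q, IsRep N f P Q := by
  have hf : (f : LaurentSeries KQ) ∈ IntermediateField.adjoin KQ (Set.range (genL N)) := by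
    rw [← modularFunctionFieldBar_eq_adjoin]; exact f.2
  obtain ⟨r, s, hrs⟩ := (IntermediateField.mem_adjoin_range_iff KQ (genL N) _).mp hf
  by_cases hs : fm N s = 0
  · refine ⟨0, 1, ?_, ?_⟩
    · simp
    · have h0 : MvPolynomial.aeval (genL N) s = 0 := by
        rw [← coe_fm, hs]; rfl
      rw [h0, div_zero] at hrs
      have : f = 0 := Subtype.ext hrs
      simp [this]
  · refine ⟨r, s, hs, ?_⟩
    apply Subtype.ext
    rw [hrs, ← coe_fm, ← coe_fm]
    rfl

/-! ## the analytic `j`-function and the generators `z ↦ J(d z)` -/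


/-! ## function-level order lemmas -/


/-! ## the analytic evaluation `ev` -/

theorem ev_X (N : ℕ) (d : Dv N) : ev N (MvPolynomial.X d) = Jabd d.1 0 1 := by
  simp [ev]

theorem ev_C (N : ℕ) (c : KQ) : ev N (MvPolynomial.C c) = fun _ : ℍ => iotaK c := by
  simp [ev]
  rfl

theorem mdiff_ev (N : ℕ) [NeZero N] (P : MvPolynomial (Dv N) KQ) : MDiff (ev N P) := by
  induction P using MvPolynomial.induction_on with
  | C a => rw [ev_C]; exact mdifferentiable_const
  | add p q hp hq => rw [map_add]; exact hp.add hq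
  | mul_X p d hp =>
    rw [map_mul, ev_X]
    exact hp.mul (mdiff_Jabd d.1 (Nat.pos_of_ne_zero d.neZero.ne))

/-- `ev N P` is `Γ₀(N)`-invariant. -/
theorem ev_smul_Gamma0 (N : ℕ) [NeZero N] (P : MvPolynomial (Dv N) KQ) (γ : SL(2, ℤ))
    (hγ : γ ∈ CongruenceSubgroup.Gamma0 N) (z : ℍ) : ev N P (γ • z) = ev N P z := by
  induction P using MvPolynomial.induction_on with
  | C a => rw [ev_C]
  | add p q hp hq => rw [map_add, Pi.add_apply, Pi.add_apply, hp, hq]
  | mul_X p d hp =>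
    rw [map_mul, ev_X, Pi.mul_apply, Pi.mul_apply, hp,
      Jabd_smul_Gamma0 N d.1 (Nat.pos_of_ne_zero d.neZero.ne) d.2 γ hγ z]

theorem ev_comp_smul_Gamma0 (N : ℕ) [NeZero N] (P : MvPolynomial (Dv N) KQ) (γ : SL(2, ℤ))
    (hγ : γ ∈ CongruenceSubgroup.Gamma0 N) : (fun z : ℍ => ev N P (γ • z)) = ev N P :=
  funext (ev_smul_Gamma0 N P γ hγ)

theorem ordAt_ev_smul_Gamma0 (N : ℕ) [NeZero N] (P : MvPolynomial (Dv N) KQ) (γ : SL(2, ℤ))
    (hγ : γ ∈ CongruenceSubgroup.Gamma0 N) (τ : ℍ) :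
    ordAt (ev N P) (γ • τ) = ordAt (ev N P) τ := by
  rw [← ordAt_comp_smul (mdiff_ev N P) γ τ, ev_comp_smul_Gamma0 N P γ hγ]

/-! ## translates -/


/-- If `g⁻¹ δ g ∈ Γ₀(N)`, the translate `trans g (ev N P)` is `δ`-invariant. -/
theorem trans_ev_smul (N : ℕ) [NeZero N] (P : MvPolynomial (Dv N) KQ) (g δ : SL(2, ℤ))
    (h : g⁻¹ * δ * g ∈ CongruenceSubgroup.Gamma0 N) (z : ℍ) :
    trans g (ev N P) (δ • z) = trans g (ev N P) z := by
  unfold trans
  have e : g⁻¹ • δ • z = (g⁻¹ * δ * g) • g⁻¹ • z := by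
    rw [← mul_smul, ← mul_smul]
    congr 1
    group
  rw [e, ev_smul_Gamma0 N P _ h]

/-! ## the point valuations -/

section Val

variable {N : ℕ} [NeZero N]

theorem valPt_def' (τ : ℍ) (f : FN N) :
    valPt N τ f = ordAt (ev N (exists_rep N f).choose) τ -
      ordAt (ev N (exists_rep N f).choose_spec.choose) τ := by
  unfold valPt
  rw [dif_pos (exists_rep N f)]

/-- `valPt` is `Γ₀(N)`-invariant in the point (no hypothesis needed). -/
theorem valPt_smul_Gamma0 (γ : SL(2, ℤ)) (hγ : γ ∈ CongruenceSubgroup.Gamma0 N) (τ : ℍ)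
    (f : FN N) : valPt N (γ • τ) f = valPt N τ f := by
  rw [valPt_def', valPt_def', ordAt_ev_smul_Gamma0 N _ γ hγ, ordAt_ev_smul_Gamma0 N _ γ hγ]

variable (hbr : ∀ P : MvPolynomial (Dv N) KQ, fm N P = 0 ↔ ev N P = 0)
include hbr

theorem ev_ne_zero {P : MvPolynomial (Dv N) KQ} (h : fm N P ≠ 0) : ev N P ≠ 0 :=
  fun h0 => h ((hbr P).mpr h0)

theorem ev_mul_eq_of_fm {P Q P' Q' : MvPolynomial (Dv N) KQ}
    (h : fm N P * fm N Q' = fm N P' * fm N Q) : ev N P * ev N Q' = ev N P' * ev N Q := by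
  have h1 : fm N (P * Q' - P' * Q) = 0 := by
    rw [map_sub, map_mul, map_mul, h, sub_self]
  have h2 := (hbr _).mp h1
  rw [map_sub, map_mul, map_mul, sub_eq_zero] at h2
  exact h2

/-- Independence of the representative. -/
theorem ordAt_sub_eq_of_rep (τ : ℍ) {f : FN N} (hf : f ≠ 0) {P Q P' Q' : MvPolynomial (Dv N) KQ}
    (h : IsRep N f P Q) (h' : IsRep N f P' Q') :
    ordAt (ev N P) τ - ordAt (ev N Q) τ = ordAt (ev N P') τ - ordAt (ev N Q') τ := by
  obtain ⟨hQ, hfe⟩ := h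
  obtain ⟨hQ', hfe'⟩ := h'
  have hP : fm N P ≠ 0 := by
    intro h0; apply hf; rw [hfe, h0, zero_div]
  have hP' : fm N P' ≠ 0 := by
    intro h0; apply hf; rw [hfe', h0, zero_div]
  have hcross : fm N P * fm N Q' = fm N P' * fm N Q := by
    have := hfe.symm.trans hfe'
    rw [div_eq_div_iff hQ hQ'] at this
    exact this
  have hev := ev_mul_eq_of_fm hbr hcross
  have e1 := ordAt_mul (mdiff_ev N P) (mdiff_ev N Q') (ev_ne_zero hbr hP) (ev_ne_zero hbr hQ') τ
  have e2 := ordAt_mul (mdiff_ev N P') (mdiff_ev N Q) (ev_ne_zero hbr hP') (ev_ne_zero hbr hQ) τ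
  rw [hev] at e1
  linarith

theorem valPt_eq_of_isRep (τ : ℍ) {f : FN N} (hf : f ≠ 0) {P Q : MvPolynomial (Dv N) KQ}
    (h : IsRep N f P Q) : valPt N τ f = ordAt (ev N P) τ - ordAt (ev N Q) τ := by
  rw [valPt_def']
  exact ordAt_sub_eq_of_rep hbr τ hf (exists_rep N f).choose_spec.choose_spec h

theorem valPt_fm (τ : ℍ) {P : MvPolynomial (Dv N) KQ} (hP : fm N P ≠ 0) :
    valPt N τ (fm N P) = ordAt (ev N P) τ := by
  have h : IsRep N (fm N P) P 1 := ⟨by simp, by simp⟩
  rw [valPt_eq_of_isRep hbr τ hP h, map_one, ordAt_one, sub_zero]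

/-- `valPt N τ` is a raw valuation of `F` trivial on `K`. -/
theorem isRawVal_valPt (τ : ℍ) : Counting.IsRawVal KQ (valPt N τ) where
  map_mul := by
    intro f g hf hg
    obtain ⟨P, Q, hPQ⟩ := exists_rep N f
    obtain ⟨P', Q', hPQ'⟩ := exists_rep N g
    have hP : fm N P ≠ 0 := by
      intro h0; apply hf; rw [hPQ.2, h0, zero_div]
    have hP' : fm N P' ≠ 0 := by
      intro h0; apply hg; rw [hPQ'.2, h0, zero_div]
    have hrep : IsRep N (f * g) (P * P') (Q * Q') := by
      refine ⟨?_, ?_⟩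
      · rw [map_mul]; exact mul_ne_zero hPQ.1 hPQ'.1
      · rw [map_mul, map_mul, hPQ.2, hPQ'.2, div_mul_div_comm]
    rw [valPt_eq_of_isRep hbr τ (mul_ne_zero hf hg) hrep, valPt_eq_of_isRep hbr τ hf hPQ,
      valPt_eq_of_isRep hbr τ hg hPQ', map_mul, map_mul,
      ordAt_mul (mdiff_ev N P) (mdiff_ev N P') (ev_ne_zero hbr hP) (ev_ne_zero hbr hP') τ,
      ordAt_mul (mdiff_ev N Q) (mdiff_ev N Q') (ev_ne_zero hbr hPQ.1) (ev_ne_zero hbr hPQ'.1) τ]
    ring
  map_add := by
    intro f g hf hg hfg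
    obtain ⟨P, Q, hPQ⟩ := exists_rep N f
    obtain ⟨P', Q', hPQ'⟩ := exists_rep N g
    have hP : fm N P ≠ 0 := by
      intro h0; apply hf; rw [hPQ.2, h0, zero_div]
    have hP' : fm N P' ≠ 0 := by
      intro h0; apply hg; rw [hPQ'.2, h0, zero_div]
    have hsumeq : fm N (P * Q' + P' * Q) = fm N P * fm N Q' + fm N P' * fm N Q := by
      have h1 : fm N (P * Q' + P' * Q) = fm N (P * Q') + fm N (P' * Q) :=
        (fm N).toRingHom.map_add _ _
      have h2 : fm N (P * Q') = fm N P * fm N Q' := (fm N).toRingHom.map_mul _ _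
      have h3 : fm N (P' * Q) = fm N P' * fm N Q := (fm N).toRingHom.map_mul _ _
      rw [h1, h2, h3]
    have hQQeq : fm N (Q * Q') = fm N Q * fm N Q' := (fm N).toRingHom.map_mul _ _
    have hrep : IsRep N (f + g) (P * Q' + P' * Q) (Q * Q') := by
      refine ⟨?_, ?_⟩
      · rw [hQQeq]; exact mul_ne_zero hPQ.1 hPQ'.1
      · rw [hsumeq, hQQeq, hPQ.2, hPQ'.2, div_add_div _ _ hPQ.1 hPQ'.1,
          mul_comm (fm N Q) (fm N P')]
    have hsum : fm N (P * Q' + P' * Q) ≠ 0 := by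
      intro h0; apply hfg; rw [hrep.2, h0, zero_div]
    rw [valPt_eq_of_isRep hbr τ hfg hrep, valPt_eq_of_isRep hbr τ hf hPQ,
      valPt_eq_of_isRep hbr τ hg hPQ']
    have hne1 : ev N (P * Q') ≠ 0 := ev_ne_zero hbr (by rw [map_mul]; exact mul_ne_zero hP hPQ'.1)
    have hne2 : ev N (P' * Q) ≠ 0 := ev_ne_zero hbr (by rw [map_mul]; exact mul_ne_zero hP' hPQ.1)
    have hne3 : ev N (P * Q') + ev N (P' * Q) ≠ 0 := by
      rw [← map_add]; exact ev_ne_zero hbr hsum
    have hmin : min (ordAt (ev N (P * Q')) τ) (ordAt (ev N (P' * Q)) τ) ≤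
        ordAt (ev N (P * Q' + P' * Q)) τ := by
      have := ordAt_add_ge (mdiff_ev N (P * Q')) (mdiff_ev N (P' * Q)) hne1 hne2 hne3 τ
      rwa [← map_add] at this
    have hA : ordAt (ev N (P * Q')) τ = ordAt (ev N P) τ + ordAt (ev N Q') τ := by
      rw [map_mul]
      exact ordAt_mul (mdiff_ev N P) (mdiff_ev N Q') (ev_ne_zero hbr hP) (ev_ne_zero hbr hPQ'.1) τ
    have hB : ordAt (ev N (P' * Q)) τ = ordAt (ev N P') τ + ordAt (ev N Q) τ := by
      rw [map_mul]
      exact ordAt_mul (mdiff_ev N P') (mdiff_ev N Q) (ev_ne_zero hbr hP') (ev_ne_zero hbr hPQ.1) τ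
    have hQQ : ordAt (ev N (Q * Q')) τ = ordAt (ev N Q) τ + ordAt (ev N Q') τ := by
      rw [map_mul]
      exact ordAt_mul (mdiff_ev N Q) (mdiff_ev N Q') (ev_ne_zero hbr hPQ.1) (ev_ne_zero hbr hPQ'.1) τ
    rw [hA, hB] at hmin
    rw [hQQ]
    rcases min_le_iff.mp hmin with h1 | h1
    · apply min_le_iff.mpr; left; linarith
    · apply min_le_iff.mpr; right; linarith
  map_algebraMap := by
    intro a ha
    have hfa : algebraMap KQ (FN N) a ≠ 0 := by
      rw [Ne, map_eq_zero_iff _ (algebraMap KQ (FN N)).injective]; exact ha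
    have hrep : IsRep N (algebraMap KQ (FN N) a) (MvPolynomial.C a) 1 := by
      refine ⟨by simp, ?_⟩
      rw [map_one, div_one]
      simp [fm]
    rw [valPt_eq_of_isRep hbr τ hfa hrep, ev_C, map_one, ordAt_one, sub_zero]
    exact ordAt_const (by
      rw [Ne, map_eq_zero_iff _ iotaK.injective]; exact ha) τ

/-- `valPt` at a translated point, in terms of the translates of the representatives. -/
theorem valPt_inv_smul (g : SL(2, ℤ)) (τ : ℍ) {f : FN N} (hf : f ≠ 0)
    {P Q : MvPolynomial (Dv N) KQ} (h : IsRep N f P Q) :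
    valPt N (g⁻¹ • τ) f = ordAt (trans g (ev N P)) τ - ordAt (trans g (ev N Q)) τ := by
  rw [valPt_eq_of_isRep hbr _ hf h, ordAt_trans (mdiff_ev N P), ordAt_trans (mdiff_ev N Q)]


/-! ### the element `j - c` -/


omit hbr [NeZero N] in
theorem ev_X_one_sub_C (c : KQ) :
    ev N (MvPolynomial.X (⟨1, one_dvd N⟩ : Dv N) - MvPolynomial.C c) =
      fun z : ℍ => Jfun z - iotaK c := by
  rw [map_sub, ev_X, ev_C]
  funext z
  rw [Pi.sub_apply, Jabd_one]

omit hbr in
theorem fm_X_one_sub_C (c : KQ) :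
    fm N (MvPolynomial.X (⟨1, one_dvd N⟩ : Dv N) - MvPolynomial.C c) =
      jBar N - algebraMap KQ (FN N) c := by
  have h1 : fm N (MvPolynomial.X (⟨1, one_dvd N⟩ : Dv N) - MvPolynomial.C c) =
      fm N (MvPolynomial.X (⟨1, one_dvd N⟩ : Dv N)) - fm N (MvPolynomial.C c) :=
    (fm N).toRingHom.map_sub _ _
  rw [h1]
  simp [fm, jBar]


theorem jBar_sub_const_ne_zero (c : KQ) : jBar N - algebraMap KQ (FN N) c ≠ 0 := by
  rw [← fm_X_one_sub_C]
  intro h
  have := (hbr _).mp h
  rw [ev_X_one_sub_C] at this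
  exact Jfun_sub_const_ne_zero _ this

/-- The value of `valPt` on `j - c` is the order of the analytic function `J - ι c`. -/
theorem valPt_jBar_sub_const (τ : ℍ) (c : KQ) :
    valPt N τ (jBar N - algebraMap KQ (FN N) c) = ordAt (fun z : ℍ => Jfun z - iotaK c) τ := by
  have h := jBar_sub_const_ne_zero hbr c
  rw [← fm_X_one_sub_C] at h ⊢
  rw [valPt_fm hbr τ h, ev_X_one_sub_C]

/-! ### the family of valuations indexed by the cosets -/


end Val

/-- The valuation of `F` attached to the coset `q` and the base point `τ₀`: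
the order at `τ₀` of `f ∘ q.out⁻¹`, i.e. `valPt` at the point `q.out⁻¹ • τ₀`. -/
def wPt (N : ℕ) [NeZero N] (τ₀ : ℍ) (q : XN N) (f : FN N) : ℤ :=
  valPt N ((Quotient.out q : SL(2, ℤ))⁻¹ • τ₀) f

section W

variable {N : ℕ} [NeZero N]

theorem wPt_mk (τ₀ : ℍ) (g : SL(2, ℤ)) (f : FN N) :
    wPt N τ₀ (QuotientGroup.mk g : XN N) f = valPt N (g⁻¹ • τ₀) f := by
  unfold wPt
  obtain ⟨h, hh⟩ := QuotientGroup.mk_out_eq_mul (CongruenceSubgroup.Gamma0 N) g
  rw [hh, mul_inv_rev, mul_smul]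
  exact valPt_smul_Gamma0 _ (inv_mem h.2) _ f

/-- (`hO1` of the counting lemma.) If `δ` fixes `τ₀`, then `δ • q` and `q` give the same
valuation. -/
theorem wPt_smul (τ₀ : ℍ) (δ : SL(2, ℤ)) (hδ : δ • τ₀ = τ₀) (q : XN N) (f : FN N) :
    wPt N τ₀ (δ • q) f = wPt N τ₀ q f := by
  have hq : δ • q = (QuotientGroup.mk (δ * Quotient.out q) : XN N) := by
    conv_lhs => rw [← QuotientGroup.out_eq' q]
    rfl
  rw [hq, wPt_mk]
  unfold wPt
  have hδ' : δ⁻¹ • τ₀ = τ₀ := by
    conv_lhs => rw [← hδ]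
    rw [inv_smul_smul]
  rw [mul_inv_rev, mul_smul, hδ']

theorem wPt_zpow_smul (τ₀ : ℍ) (δ : SL(2, ℤ)) (hδ : δ • τ₀ = τ₀) (k : ℤ) (q : XN N) (f : FN N) :
    wPt N τ₀ (δ ^ k • q) f = wPt N τ₀ q f := by
  apply wPt_smul
  have h1 : ∀ n : ℕ, δ ^ n • τ₀ = τ₀ := by
    intro n
    induction n with
    | zero => simp
    | succ n ih => rw [pow_succ, mul_smul, hδ, ih]
  cases k with
  | ofNat n => simpa using h1 n
  | negSucc n =>
    rw [zpow_negSucc]
    conv_lhs => rw [← h1 (n + 1)]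
    rw [inv_smul_smul]

variable (hbr : ∀ P : MvPolynomial (Dv N) KQ, fm N P = 0 ↔ ev N P = 0)
include hbr

/-- (`hw` of the counting lemma.) -/
theorem isRawVal_wPt (τ₀ : ℍ) (q : XN N) : Counting.IsRawVal KQ (wPt N τ₀ q) :=
  isRawVal_valPt hbr _

/-- (`hwy` of the counting lemma.) The value on `j - c` does not depend on the coset. -/
theorem wPt_jBar_sub_const (τ₀ : ℍ) (q : XN N) (c : KQ) :
    wPt N τ₀ q (jBar N - algebraMap KQ (FN N) c) = ordAt (fun z : ℍ => Jfun z - iotaK c) τ₀ := by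
  unfold wPt
  rw [valPt_jBar_sub_const hbr, ordAt_Jfun_sub_const_smul]

/-- (`hO2` of the counting lemma, fixed cosets.) If `δ` fixes both `τ₀` and the coset `q`, and
the order at `τ₀` of every nonzero `δ`-invariant holomorphic function is divisible by `E`
(fixed-point lemma, `E = 2` for `δ² = -1`, `E = 3` for `δ³ = -1`), then `E ∣ wPt N τ₀ q f`. -/
theorem dvd_wPt_of_fixed (τ₀ : ℍ) (δ : SL(2, ℤ)) (E : ℤ)
    (hfix : ∀ H : ℍ → ℂ, MDiff H → H ≠ 0 → (∀ z, H (δ • z) = H z) → E ∣ ordAt H τ₀)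
    (q : XN N) (hq : δ • q = q) (f : FN N) (hf : f ≠ 0) : E ∣ wPt N τ₀ q f := by
  obtain ⟨P, Q, hPQ⟩ := exists_rep N f
  have hP : fm N P ≠ 0 := by
    intro h0; apply hf; rw [hPQ.2, h0, zero_div]
  have hmem : (Quotient.out q : SL(2, ℤ))⁻¹ * δ * Quotient.out q ∈ CongruenceSubgroup.Gamma0 N := by
    have h1 : (QuotientGroup.mk (δ * Quotient.out q) : XN N) = QuotientGroup.mk (Quotient.out q) := by
      have : δ • q = (QuotientGroup.mk (δ * Quotient.out q) : XN N) := by
        conv_lhs => rw [← QuotientGroup.out_eq' q]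
        rfl
      rw [← this, hq, QuotientGroup.out_eq']
    have h2 := QuotientGroup.eq.mp h1
    have h3 := inv_mem h2
    have e : ((δ * Quotient.out q)⁻¹ * Quotient.out q)⁻¹ =
        (Quotient.out q : SL(2, ℤ))⁻¹ * δ * Quotient.out q := by group
    rw [e] at h3
    exact h3
  unfold wPt
  rw [valPt_inv_smul hbr _ τ₀ hf hPQ]
  apply dvd_sub
  · exact hfix _ (mdiff_trans (mdiff_ev N P) _) (trans_ne_zero (ev_ne_zero hbr hP) _)
      (trans_ev_smul N P _ δ hmem)
  · exact hfix _ (mdiff_trans (mdiff_ev N Q) _) (trans_ne_zero (ev_ne_zero hbr hPQ.1) _)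
      (trans_ev_smul N Q _ δ hmem)

end W


end Fermat.Agent.S24C.PtVal
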