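import Mathlib
import Fermat.Agent.S24.PlaceDictCore
import Fermat.Agent.S24.ModDefs
import Fermat.Agent.S24C.ModDefs
import Fermat.Agent.S24.PtVal
import Fermat.Agent.S24C.PtVal
import Fermat.Agent.S24.CuspHom
import Fermat.Agent.S24C.CuspHom
import Fermat.Agent.S24.PtTop
import Fermat.Agent.S24C.PtTop
import Fermat.Agent.S24.PtInv
import Fermat.Agent.S24C.PtInv
import Fermat.Agent.S24.CuspTop
import Fermat.Agent.S24C.CuspTop
import Fermat.Agent.S24.ARest
import Fermat.Agent.S24.OrbitSize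
import Fermat.Agent.S24.Transfer
import Fermat.Agent.S20.EllCount
import Fermat.Agent.S20.CountOrbits
import Fermat.Agent.S24.DegTop
import Fermat.Agent.S24C.DegTop
import Fermat.Agent.S24.PlaceDict

/-
S24C (port of S24 to the base field `ℂ`).  This file repeats, for `K = ℂ`,
`F = ℂ(j(q^d) : d ∣ N)` and the embedding `ι = id`, the declarations of
`Fermat/Agent/S24/PlaceDict.lean` whose statement mentions the base field — same names, same proofs,
with `Fermat.Agent.S24` replaced by `Fermat.Agent.S24C`.  The declarations of that file which do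
not mention the base field are not repeated: they are used from `Fermat.Agent.S24` directly.
-/

/-!
# S24 → ESJ dictionary: places of `F = ℂ(X₀(N))` ↔ points and cusps of `Γ₀(N)\ℍ*`

* `placePt N τ h` : the place of `F` at a point `τ : ℍ` with `J(τ) ∈ ι(ℂ)` (`IsAlgPt τ`);
  `valPt N τ f = mulPt N τ h * (placePt N τ h).ord f`.
* `placeCusp N g` : the place at the cusp `g⁻¹∞`;
  `valCusp N g f = mulCusp N g * (placeCusp N g).ord f`.
* every place is one of these (`exists_placePt_or_placeCusp`), a point place is never a cusp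
  place, `placePt N τ = placePt N τ'` iff `τ' ∈ Γ₀(N) τ`, `placeCusp N g = placeCusp N g'` iff
  `g' ∈ ⟨T⟩ g Γ₀(N)`;
* the multipliers: `mulPt ∈ {1, 2, 3}` is the order of the stabiliser of `τ` in `Γ₀(N)/±1`,
  `mulCusp N g * (width of the cusp) = N`;
* at a point which is not algebraic, `valPt N τ` is trivial.
-/

set_option autoImplicit false

open UpperHalfPlane ModularForm AlgebraicCurve CongruenceSubgroup ModularGroup
open scoped MatrixGroups Manifold IntermediateField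

noncomputable section

namespace Fermat.Agent.S24C.PlaceDict
open Fermat.Agent.S24 Fermat.Agent.S24.PlaceDict

open Fermat.Agent.S24 Fermat.Agent.S24.Counting
open Fermat.Agent.S20 (rhoPt)

variable (N : ℕ) [NeZero N]

/-! ### The raw valuations -/

theorem rawPt (τ : ℍ) : IsRawVal KQ (valPt N τ) :=
  PtVal.isRawVal_valPt (fun P => (QExp.ev_eq_zero_iff N P).symm) τ

theorem rawCusp (g : SL(2, ℤ)) : IsRawVal KQ (valCusp N g) := QExp.isRawVal_valCusp N g

/-- The point `τ` is algebraic: `J(τ)` lies in the image of `ℂ`. -/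
def IsAlgPt (τ : ℍ) : Prop := ∃ c : KQ, Jfun τ = iotaK c

theorem IsAlgPt.smul {τ : ℍ} (h : IsAlgPt τ) (g : SL(2, ℤ)) : IsAlgPt (g • τ) := by
  obtain ⟨c, hc⟩ := h
  exact ⟨c, by rw [JPt.Jfun_smul, hc]⟩

theorem isAlgPt_smul_iff (g : SL(2, ℤ)) (τ : ℍ) : IsAlgPt (g • τ) ↔ IsAlgPt τ := by
  refine ⟨fun h => ?_, fun h => h.smul g⟩
  have := h.smul g⁻¹
  rwa [inv_smul_smul] at this

theorem ntPt {τ : ℍ} (h : IsAlgPt τ) : ∃ f : FN N, f ≠ 0 ∧ valPt N τ f ≠ 0 := by
  obtain ⟨c, hc⟩ := h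
  exact ⟨jBar N - algebraMap KQ (FN N) c, PtTop.jBar_sub_ne_zero N c,
    ((PtTop.valPt_jBar_sub_pos_iff N τ c).mpr hc).ne'⟩

theorem jBar_ne_zero : jBar N ≠ 0 := by
  have := PtTop.jBar_sub_ne_zero N 0
  rwa [map_zero, sub_zero] at this

theorem ntCusp (g : SL(2, ℤ)) : ∃ f : FN N, f ≠ 0 ∧ valCusp N g f ≠ 0 :=
  ⟨(jBar N)⁻¹, inv_ne_zero (jBar_ne_zero N), by
    rw [valCusp_jBar_inv]
    exact_mod_cast NeZero.ne N⟩

/-- The place of `F` at an algebraic point of `ℍ`. -/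
def placePt (τ : ℍ) (h : IsAlgPt τ) : Place KQ (FN N) := (rawPt N τ).place (ntPt N h)

/-- The multiplier at an algebraic point: `valPt = mulPt * ord`. -/
def mulPt (τ : ℍ) (h : IsAlgPt τ) : ℕ := mult (rawPt N τ) (ntPt N h)

/-- The place of `F` at the cusp `g⁻¹ ∞`. -/
def placeCusp (g : SL(2, ℤ)) : Place KQ (FN N) := (rawCusp N g).place (ntCusp N g)

/-- The multiplier at a cusp: `valCusp = mulCusp * ord`. -/
def mulCusp (g : SL(2, ℤ)) : ℕ := mult (rawCusp N g) (ntCusp N g)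

theorem mulPt_pos (τ : ℍ) (h : IsAlgPt τ) : 0 < mulPt N τ h := mult_pos _ _

theorem mulCusp_pos (g : SL(2, ℤ)) : 0 < mulCusp N g := mult_pos _ _

theorem valPt_eq_mul_ord (τ : ℍ) (h : IsAlgPt τ) {f : FN N} (hf : f ≠ 0) :
    valPt N τ f = mulPt N τ h * (placePt N τ h).ord f :=
  eq_mult_mul_ord (rawPt N τ) (ntPt N h) hf

theorem valCusp_eq_mul_ord (g : SL(2, ℤ)) {f : FN N} (hf : f ≠ 0) :
    valCusp N g f = mulCusp N g * (placeCusp N g).ord f :=
  eq_mult_mul_ord (rawCusp N g) (ntCusp N g) hf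

theorem exists_uniformizer_pt (τ : ℍ) (h : IsAlgPt τ) :
    ∃ π : FN N, π ≠ 0 ∧ (placePt N τ h).ord π = 1 ∧ valPt N τ π = mulPt N τ h :=
  exists_uniformizer (rawPt N τ) (ntPt N h)

theorem exists_uniformizer_cusp (g : SL(2, ℤ)) :
    ∃ π : FN N, π ≠ 0 ∧ (placeCusp N g).ord π = 1 ∧ valCusp N g π = mulCusp N g :=
  exists_uniformizer (rawCusp N g) (ntCusp N g)

theorem ord_placePt_nonneg_iff (τ : ℍ) (h : IsAlgPt τ) {f : FN N} (hf : f ≠ 0) :
    0 ≤ (placePt N τ h).ord f ↔ 0 ≤ valPt N τ f :=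
  ord_nonneg_iff_raw (rawPt N τ) (ntPt N h) hf

theorem ord_placePt_pos_iff (τ : ℍ) (h : IsAlgPt τ) {f : FN N} (hf : f ≠ 0) :
    0 < (placePt N τ h).ord f ↔ 0 < valPt N τ f :=
  ord_pos_iff_raw (rawPt N τ) (ntPt N h) hf

theorem ord_placeCusp_nonneg_iff (g : SL(2, ℤ)) {f : FN N} (hf : f ≠ 0) :
    0 ≤ (placeCusp N g).ord f ↔ 0 ≤ valCusp N g f :=
  ord_nonneg_iff_raw (rawCusp N g) (ntCusp N g) hf

theorem ord_placeCusp_pos_iff (g : SL(2, ℤ)) {f : FN N} (hf : f ≠ 0) :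
    0 < (placeCusp N g).ord f ↔ 0 < valCusp N g f :=
  ord_pos_iff_raw (rawCusp N g) (ntCusp N g) hf

/-! ### Invariance -/

theorem placePt_congr {τ τ' : ℍ} (h : IsAlgPt τ) (h' : IsAlgPt τ')
    (heq : ∀ f : FN N, f ≠ 0 → valPt N τ f = valPt N τ' f) :
    placePt N τ h = placePt N τ' h' :=
  place_congr _ _ _ _ heq

theorem placePt_smul_Gamma0 (γ : SL(2, ℤ)) (hγ : γ ∈ Gamma0 N) (τ : ℍ) (h : IsAlgPt τ) :
    placePt N (γ • τ) (h.smul γ) = placePt N τ h :=
  placePt_congr N _ _ (fun f _ => PtInv.valPt_smul_Gamma0 N γ hγ τ f)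

theorem mulPt_congr {τ τ' : ℍ} (h : IsAlgPt τ) (h' : IsAlgPt τ')
    (heq : ∀ f : FN N, f ≠ 0 → valPt N τ f = valPt N τ' f) :
    mulPt N τ h = mulPt N τ' h' := by
  obtain ⟨π, hπ0, hπ1, hπm⟩ := exists_uniformizer_pt N τ h
  have h1 := valPt_eq_mul_ord N τ' h' hπ0
  rw [← heq π hπ0, hπm, ← placePt_congr N h h' heq, hπ1, mul_one] at h1
  exact_mod_cast h1

theorem mulPt_smul_Gamma0 (γ : SL(2, ℤ)) (hγ : γ ∈ Gamma0 N) (τ : ℍ) (h : IsAlgPt τ) :
    mulPt N (γ • τ) (h.smul γ) = mulPt N τ h :=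
  mulPt_congr N _ _ (fun f _ => PtInv.valPt_smul_Gamma0 N γ hγ τ f)

theorem placeCusp_congr {g g' : SL(2, ℤ)}
    (heq : ∀ f : FN N, f ≠ 0 → valCusp N g f = valCusp N g' f) :
    placeCusp N g = placeCusp N g' :=
  place_congr _ _ _ _ heq

theorem mulCusp_congr {g g' : SL(2, ℤ)}
    (heq : ∀ f : FN N, f ≠ 0 → valCusp N g f = valCusp N g' f) :
    mulCusp N g = mulCusp N g' := by
  obtain ⟨π, hπ0, hπ1, hπm⟩ := exists_uniformizer_cusp N g
  have h1 := valCusp_eq_mul_ord N g' hπ0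
  rw [← heq π hπ0, hπm, ← placeCusp_congr N heq, hπ1, mul_one] at h1
  exact_mod_cast h1

theorem placeCusp_mul_Gamma0 (g γ : SL(2, ℤ)) (hγ : γ ∈ Gamma0 N) :
    placeCusp N (g * γ) = placeCusp N g :=
  placeCusp_congr N (fun f _ => valCusp_mul_Gamma0 N g γ hγ f)

theorem placeCusp_T_zpow_mul (k : ℤ) (g : SL(2, ℤ)) :
    placeCusp N (T ^ k * g) = placeCusp N g :=
  placeCusp_congr N (fun f _ => valCusp_T_zpow_mul N k g f)

theorem mulCusp_mul_Gamma0 (g γ : SL(2, ℤ)) (hγ : γ ∈ Gamma0 N) :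
    mulCusp N (g * γ) = mulCusp N g :=
  mulCusp_congr N (fun f _ => valCusp_mul_Gamma0 N g γ hγ f)

theorem mulCusp_T_zpow_mul (k : ℤ) (g : SL(2, ℤ)) :
    mulCusp N (T ^ k * g) = mulCusp N g :=
  mulCusp_congr N (fun f _ => valCusp_T_zpow_mul N k g f)

/-! ### Coset glue -/


/-- from the coset representatives to all of `SL(2, ℤ)` (points) -/
theorem valPt_all_of_out (τ0 : ℍ) (f : FN N)
    (h : ∀ x : XN N, 0 ≤ valPt N (x.out⁻¹ • τ0) f) (g : SL(2, ℤ)) : 0 ≤ valPt N (g • τ0) f := by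
  obtain ⟨γ, hγ⟩ := QuotientGroup.mk_out_eq_mul (Gamma0 N) g⁻¹
  have h1 := h (QuotientGroup.mk g⁻¹)
  rw [hγ, mul_inv_rev, inv_inv, mul_smul,
    PtInv.valPt_smul_Gamma0 N _ ((Gamma0 N).inv_mem γ.2)] at h1
  exact h1

/-- from the coset representatives to all of `SL(2, ℤ)` (cusps) -/
theorem valCusp_all_of_out (f : FN N)
    (h : ∀ x : XN N, 0 ≤ valCusp N x.out f) (g : SL(2, ℤ)) : 0 ≤ valCusp N g f := by
  obtain ⟨γ, hγ⟩ := QuotientGroup.mk_out_eq_mul (Gamma0 N) g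
  have h1 := h (QuotientGroup.mk g)
  rw [hγ, valCusp_mul_Gamma0 N _ _ γ.2] at h1
  exact h1

/-! ### Every place is a point place or a cusp place -/

theorem ord_jBar_sub_pos_iff (τ : ℍ) (h : IsAlgPt τ) (c : KQ) :
    0 < (placePt N τ h).ord (jBar N - algebraMap KQ (FN N) c) ↔ Jfun τ = iotaK c := by
  rw [ord_placePt_pos_iff N _ _ (PtTop.jBar_sub_ne_zero N c), PtTop.valPt_jBar_sub_pos_iff]

theorem ord_jBar_placeCusp_neg (g : SL(2, ℤ)) : (placeCusp N g).ord (jBar N) < 0 := by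
  have h1 : 0 < (placeCusp N g).ord (jBar N)⁻¹ := by
    rw [ord_placeCusp_pos_iff N _ (inv_ne_zero (jBar_ne_zero N)), valCusp_jBar_inv]
    exact_mod_cast Nat.pos_of_ne_zero (NeZero.ne N)
  rw [Place.ord_inv] at h1
  omega

/-- The places over `j = c` are the point places of the translates of any `τ0` with
`J(τ0) = c`. -/
theorem exists_placePt_of_ord_pos (c : KQ) (τ0 : ℍ) (hτ0 : Jfun τ0 = iotaK c)
    (v : Place KQ (FN N)) (hv : 0 < v.ord (jBar N - algebraMap KQ (FN N) c)) :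
    ∃ x : XN N, v = placePt N (x.out⁻¹ • τ0) (IsAlgPt.smul ⟨c, hτ0⟩ _) := by
  haveI : Finite (XN N) := inferInstance
  refine exists_eq_of_forall_integral (jBar N - algebraMap KQ (FN N) c)
    (fun x : XN N => placePt N (x.out⁻¹ • τ0) (IsAlgPt.smul ⟨c, hτ0⟩ _)) ?_ ?_ v hv
  · intro x
    rw [ord_jBar_sub_pos_iff, JPt.Jfun_smul, hτ0]
  · intro f hf hall
    obtain ⟨P, hmonic, hroot, hcoef, hpt, -⟩ := exists_charpoly N f
    refine ⟨P, hmonic, hroot, fun k hk => ⟨?_, ?_⟩⟩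
    · rw [Transfer.adjoin_sub_const]; exact hcoef k
    · refine ⟨QuotientGroup.mk 1, ?_⟩
      rw [ord_placePt_nonneg_iff N _ _ hk]
      exact hpt τ0 (valPt_all_of_out N τ0 f
        (fun x => (ord_placePt_nonneg_iff N _ _ hf).mp (hall x))) k hk _

/-- The poles of `j` are the cusp places. -/
theorem exists_placeCusp_of_ord_neg (v : Place KQ (FN N)) (hv : v.ord (jBar N) < 0) :
    ∃ x : XN N, v = placeCusp N x.out := by
  haveI : Finite (XN N) := inferInstance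
  have hv' : 0 < v.ord (jBar N)⁻¹ := by
    rw [Place.ord_inv]
    omega
  refine exists_eq_of_forall_integral (jBar N)⁻¹
    (fun x : XN N => placeCusp N x.out) ?_ ?_ v hv'
  · intro x
    have := ord_jBar_placeCusp_neg N x.out
    rw [Place.ord_inv]
    omega
  · intro f hf hall
    obtain ⟨P, hmonic, hroot, hcoef, -, hcusp⟩ := exists_charpoly N f
    refine ⟨P, hmonic, hroot, fun k hk => ⟨?_, ?_⟩⟩
    · rw [Transfer.adjoin_inv]; exact hcoef k
    · refine ⟨QuotientGroup.mk 1, ?_⟩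
      rw [ord_placeCusp_nonneg_iff N _ hk]
      exact hcusp (valCusp_all_of_out N f
        (fun x => (ord_placeCusp_nonneg_iff N _ hf).mp (hall x))) k hk _

/-- **Every place of `F` is a point place or a cusp place.** -/
theorem exists_placePt_or_placeCusp (v : Place KQ (FN N)) :
    (∃ (τ : ℍ) (h : IsAlgPt τ), v = placePt N τ h) ∨ ∃ g : SL(2, ℤ), v = placeCusp N g := by
  haveI := finiteDimensional_jBar N
  rcases ARest.exists_value (jBar N) (transcendental_jBar N) v with h | ⟨c, hc⟩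
  · right
    obtain ⟨x, hx⟩ := exists_placeCusp_of_ord_neg N v h
    exact ⟨_, hx⟩
  · left
    obtain ⟨τ0, hτ0⟩ := JPt.exists_Jfun_eq (iotaK c)
    obtain ⟨x, hx⟩ := exists_placePt_of_ord_pos N c τ0 hτ0 v hc
    exact ⟨_, _, hx⟩

/-- A point place is never a cusp place. -/
theorem placePt_ne_placeCusp (τ : ℍ) (h : IsAlgPt τ) (g : SL(2, ℤ)) :
    placePt N τ h ≠ placeCusp N g := by
  intro heq
  have h1 := ord_jBar_placeCusp_neg N g
  rw [← heq] at h1
  have h2 : 0 ≤ (placePt N τ h).ord (jBar N) := by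
    rw [ord_placePt_nonneg_iff N _ _ (jBar_ne_zero N)]
    have h3 := PtTop.valPt_jBar_sub N τ 0
    rw [map_zero, sub_zero] at h3
    rw [h3]
    split_ifs
    · exact Int.natCast_nonneg _
    · exact le_rfl
  omega

/-- At a point which is not algebraic the valuation `valPt` is trivial. -/
theorem valPt_eq_zero_of_not_isAlgPt (τ : ℍ) (h : ¬ IsAlgPt τ) (f : FN N) (hf : f ≠ 0) :
    valPt N τ f = 0 := by
  by_contra hne
  haveI := finiteDimensional_jBar N
  have hnt : ∃ f : FN N, f ≠ 0 ∧ valPt N τ f ≠ 0 := ⟨f, hf, hne⟩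
  set v := (rawPt N τ).place hnt with hv
  rcases ARest.exists_value (jBar N) (transcendental_jBar N) v with h1 | ⟨c, hc⟩
  · have h2 : 0 ≤ v.ord (jBar N) := by
      rw [hv, ord_nonneg_iff_raw (rawPt N τ) hnt (jBar_ne_zero N)]
      have h3 := PtTop.valPt_jBar_sub N τ 0
      rw [map_zero, sub_zero] at h3
      rw [h3]
      split_ifs
      · exact Int.natCast_nonneg _
      · exact le_rfl
    omega
  · rw [hv, ord_pos_iff_raw (rawPt N τ) hnt (PtTop.jBar_sub_ne_zero N c),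
      PtTop.valPt_jBar_sub_pos_iff] at hc
    exact h ⟨c, hc⟩

/-! ### The fibres over `j = c` -/

/-- **Fibre structure at points.**  Same hypotheses as the architect's `card_placesOver_pt`;
the conclusion describes the places over `j = c` completely. -/
theorem fibre_pt (c : KQ) (τ0 : ℍ) (hτ0 : Jfun τ0 = iotaK c) (E : ℕ) (hE : 0 < E)
    (hval : ∀ g : SL(2, ℤ), valPt N (g • τ0) (jBar N - algebraMap KQ (FN N) c) = E)
    (δ : SL(2, ℤ)) (hδ : δ • τ0 = τ0)
    (hdiv : ∀ (x : XN N) (f : FN N), f ≠ 0 → (E : ℤ) ∣ valPt N (x.out⁻¹ • τ0) f *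
      (Nat.card {y : XN N // (Quotient.mk'' y :
        MulAction.orbitRel.Quotient (Subgroup.zpowers δ) (XN N)) = Quotient.mk'' x} : ℤ)) :
    (∀ x y : XN N, placePt N (x.out⁻¹ • τ0) (IsAlgPt.smul ⟨c, hτ0⟩ _) =
        placePt N (y.out⁻¹ • τ0) (IsAlgPt.smul ⟨c, hτ0⟩ _) → ∃ k : ℤ, x = δ ^ k • y) ∧
    (∀ x : XN N, mulPt N (x.out⁻¹ • τ0) (IsAlgPt.smul ⟨c, hτ0⟩ _) *
        Nat.card {y : XN N // (Quotient.mk'' y :
          MulAction.orbitRel.Quotient (Subgroup.zpowers δ) (XN N)) = Quotient.mk'' x} = E) ∧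
    (∀ x : XN N, (placePt N (x.out⁻¹ • τ0) (IsAlgPt.smul ⟨c, hτ0⟩ _)).ord
        (jBar N - algebraMap KQ (FN N) c) =
        (Nat.card {y : XN N // (Quotient.mk'' y :
          MulAction.orbitRel.Quotient (Subgroup.zpowers δ) (XN N)) = Quotient.mk'' x} : ℤ)) ∧
    Module.finrank KQ⟮jBar N⟯ (FN N) = Nat.card (XN N) := by
  classical
  haveI := finiteDimensional_jBar N
  letI : Fintype (XN N) := Fintype.ofFinite _
  letI : Fintype (MulAction.orbitRel.Quotient (Subgroup.zpowers δ) (XN N)) := Fintype.ofFinite _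
  have halg : ∀ x : XN N, IsAlgPt (x.out⁻¹ • τ0) := fun x => IsAlgPt.smul ⟨c, hτ0⟩ _
  obtain ⟨-, h2, h3, h4, h5⟩ := fibre_dict (K := KQ) (X := XN N)
    (O := MulAction.orbitRel.Quotient (Subgroup.zpowers δ) (XN N))
    (jBar N - algebraMap KQ (FN N) c) (PtTop.jBar_sub_ne_zero N c)
    (Module.finrank KQ⟮jBar N⟯ (FN N))
    (Transfer.placesOver_finite_sum (jBar N) (transcendental_jBar N) c)
    (by rw [← Nat.card_eq_fintype_card]; exact card_XN_le_finrank N)
    (fun x => valPt N (x.out⁻¹ • τ0)) (fun x => rawPt N _)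
    (E : ℤ) (by exact_mod_cast hE) (fun x => hval _)
    (fun x => Quotient.mk'' x) Quotient.mk''_surjective
    (by
      intro i j hij
      obtain ⟨k, hk⟩ := (orb_eq_iff N δ i j).1 hij
      obtain ⟨γ, hγ, hout⟩ := out_smul N (δ ^ k) j
      funext f
      rw [hk, hout, mul_inv_rev, mul_inv_rev, mul_smul, mul_smul,
        PtInv.valPt_smul_Gamma0 N _ ((Gamma0 N).inv_mem hγ), ← zpow_neg, zpow_smul_fixed hδ])
    hdiv
    (by
      intro f hf hall
      obtain ⟨P, hmonic, hroot, hcoef, hpt, -⟩ := exists_charpoly N f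
      refine ⟨P, hmonic, hroot, fun k hk => ⟨?_, ?_⟩⟩
      · rw [Transfer.adjoin_sub_const]; exact hcoef k
      · refine ⟨QuotientGroup.mk 1, ?_⟩
        exact hpt τ0 (valPt_all_of_out N τ0 f hall) k hk _)
    (fun x => ntPt N (halg x))
  refine ⟨fun x y hxy => (orb_eq_iff N δ x y).1 (h2 x y hxy), fun x => ?_, fun x => h3 x, ?_⟩
  · obtain ⟨π, hπ0, hπ1, hπm⟩ := exists_uniformizer_pt N (x.out⁻¹ • τ0) (halg x)
    have h6 := h4 x π hπ0
    have h7 : ((rawPt N (x.out⁻¹ • τ0)).place (ntPt N (halg x))).ord π = 1 := hπ1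
    rw [h7, hπm, mul_one] at h6
    exact_mod_cast h6
  · rw [h5, Nat.card_eq_fintype_card]

/-- Generic fibres: the point places of the translates are pairwise distinct and unramified. -/
theorem fibre_pt_generic (c : KQ) (hc0 : c ≠ 0) (hc1 : c ≠ 1728) (τ0 : ℍ)
    (hτ0 : Jfun τ0 = iotaK c) :
    (∀ x y : XN N, placePt N (x.out⁻¹ • τ0) (IsAlgPt.smul ⟨c, hτ0⟩ _) =
        placePt N (y.out⁻¹ • τ0) (IsAlgPt.smul ⟨c, hτ0⟩ _) → x = y) ∧
    (∀ x : XN N, mulPt N (x.out⁻¹ • τ0) (IsAlgPt.smul ⟨c, hτ0⟩ _) = 1) := by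
  obtain ⟨h1, h2, -, -⟩ := fibre_pt N c τ0 hτ0 1 one_pos
    (fun g => by
      rw [valPt_jBar_sub_generic N c hc0 hc1 _ (by rw [JPt.Jfun_smul, hτ0])]; rfl)
    1 (one_smul _ _) (fun x f hf => by simp)
  refine ⟨fun x y hxy => ?_, fun x => ?_⟩
  · obtain ⟨k, hk⟩ := h1 x y hxy
    rw [hk, one_zpow, one_smul]
  · exact Nat.eq_one_of_mul_eq_one_right (h2 x)


theorem Jfun_I_eq : Jfun UpperHalfPlane.I = iotaK 1728 := by
  rw [JPt.Jfun_I]
  exact (map_ofNat iotaK 1728).symm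

theorem Jfun_rhoPt_eq : Jfun rhoPt = iotaK 0 := by
  rw [JPt.Jfun_rhoPt, map_zero]

/-- The fibre over `1728` (base point `i`, stabiliser generated by `S`). -/
theorem fibre_pt_1728 :
    (∀ x y : XN N, placePt N (x.out⁻¹ • UpperHalfPlane.I) (IsAlgPt.smul ⟨1728, Jfun_I_eq⟩ _) =
        placePt N (y.out⁻¹ • UpperHalfPlane.I) (IsAlgPt.smul ⟨1728, Jfun_I_eq⟩ _) →
          ∃ k : ℤ, x = S ^ k • y) ∧
    (∀ x : XN N, mulPt N (x.out⁻¹ • UpperHalfPlane.I) (IsAlgPt.smul ⟨1728, Jfun_I_eq⟩ _) *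
        Nat.card {y : XN N // (Quotient.mk'' y :
          MulAction.orbitRel.Quotient (Subgroup.zpowers S) (XN N)) = Quotient.mk'' x} = 2) := by
  obtain ⟨h1, h2, -, -⟩ := fibre_pt N 1728 UpperHalfPlane.I Jfun_I_eq 2 two_pos
    (fun g => by
      rw [valPt_jBar_sub_1728 N _ (by rw [JPt.Jfun_smul, JPt.Jfun_I])]; rfl)
    S Fermat.Agent.S20.EllCount.S_smul_I
    (by
      intro x f hf
      by_cases hx : S • x = x
      · have hmem := (smul_eq_self_iff N S x).1 hx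
        have h2 : (x.out⁻¹ * S * x.out) ^ 2 = -1 := by
          have : (x.out⁻¹ * S * x.out) ^ 2 = x.out⁻¹ * S ^ 2 * x.out := by
            rw [pow_two, pow_two]; group
          rw [this, S_sq]; simp
        have hfix : (x.out⁻¹ * S * x.out) • (x.out⁻¹ • UpperHalfPlane.I) =
            x.out⁻¹ • UpperHalfPlane.I := by
          rw [← mul_smul, mul_assoc, mul_assoc, mul_inv_cancel, mul_one, mul_smul,
            Fermat.Agent.S20.EllCount.S_smul_I]
        exact Dvd.dvd.mul_right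
          (by exact_mod_cast PtInv.two_dvd_valPt N _ hmem h2 _ hfix f hf) _
      · rw [card_fibre_S N x hx]
        exact Dvd.intro_left _ rfl)
  exact ⟨h1, h2⟩

/-- The fibre over `0` (base point `ρ`, stabiliser generated by `S * T`). -/
theorem fibre_pt_zero :
    (∀ x y : XN N, placePt N (x.out⁻¹ • rhoPt) (IsAlgPt.smul ⟨0, Jfun_rhoPt_eq⟩ _) =
        placePt N (y.out⁻¹ • rhoPt) (IsAlgPt.smul ⟨0, Jfun_rhoPt_eq⟩ _) →
          ∃ k : ℤ, x = (S * T) ^ k • y) ∧
    (∀ x : XN N, mulPt N (x.out⁻¹ • rhoPt) (IsAlgPt.smul ⟨0, Jfun_rhoPt_eq⟩ _) *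
        Nat.card {y : XN N // (Quotient.mk'' y :
          MulAction.orbitRel.Quotient (Subgroup.zpowers (S * T)) (XN N)) = Quotient.mk'' x} = 3) := by
  have hfix0 : (S * T) • rhoPt = rhoPt := Fermat.Agent.S20.EllCount.ST_smul_rhoPt
  obtain ⟨h1, h2, -, -⟩ := fibre_pt N 0 rhoPt Jfun_rhoPt_eq 3 (by norm_num)
    (fun g => by
      rw [valPt_jBar_sub_zero N _ (by rw [JPt.Jfun_smul, JPt.Jfun_rhoPt])]; rfl)
    (S * T) hfix0
    (by
      intro x f hf
      by_cases hx : (S * T) • x = x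
      · have hmem := (smul_eq_self_iff N (S * T) x).1 hx
        have h3 : (x.out⁻¹ * (S * T) * x.out) ^ 3 = -1 := by
          have : (x.out⁻¹ * (S * T) * x.out) ^ 3 = x.out⁻¹ * (S * T) ^ 3 * x.out := by
            rw [pow_succ, pow_two, pow_succ, pow_two]; group
          rw [this, ST_cube]; simp
        have hne : x.out⁻¹ * (S * T) * x.out ≠ -1 := by
          intro h
          apply ST_ne_neg_one
          have : S * T = x.out * (x.out⁻¹ * (S * T) * x.out) * x.out⁻¹ := by group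
          rw [this, h]; simp
        have hfix : (x.out⁻¹ * (S * T) * x.out) • (x.out⁻¹ • rhoPt) = x.out⁻¹ • rhoPt := by
          rw [← mul_smul, mul_assoc, mul_assoc, mul_inv_cancel, mul_one, mul_smul, hfix0]
        exact Dvd.dvd.mul_right
          (by exact_mod_cast PtInv.three_dvd_valPt N _ hmem h3 hne _ hfix f hf) _
      · rw [card_fibre_ST N x hx]
        exact Dvd.intro_left _ rfl)
  exact ⟨h1, h2⟩

/-! ### Equality of point places -/


theorem mulPt_dvd_ellOrder (τ : ℍ) (h : IsAlgPt τ) : mulPt N τ h ∣ JOrd.ellOrder τ := by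
  obtain ⟨c, hc⟩ := h
  have h1 := valPt_eq_mul_ord N τ ⟨c, hc⟩ (PtTop.jBar_sub_ne_zero N c)
  rw [PtTop.valPt_jBar_sub N τ c, if_pos hc] at h1
  exact Int.natCast_dvd_natCast.mp ⟨_, h1⟩

/-- The value of `j` at a place is unique. -/
theorem value_unique (v : Place KQ (FN N)) (c c' : KQ)
    (h : 0 < v.ord (jBar N - algebraMap KQ (FN N) c))
    (h' : 0 < v.ord (jBar N - algebraMap KQ (FN N) c')) : c = c' := by
  by_contra hne
  have hcc : c' - c ≠ 0 := sub_ne_zero.mpr (Ne.symm hne)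
  have h1 := (isRawVal_ord v).map_algebraMap (c' - c) hcc
  have h2 : algebraMap KQ (FN N) (c' - c) =
      (jBar N - algebraMap KQ (FN N) c) + -(jBar N - algebraMap KQ (FN N) c') := by
    rw [map_sub]; ring
  have h0 : algebraMap KQ (FN N) (c' - c) ≠ 0 := (map_ne_zero _).mpr hcc
  have h3 := (isRawVal_ord v).map_add _ _ (PtTop.jBar_sub_ne_zero N c)
    (neg_ne_zero.mpr (PtTop.jBar_sub_ne_zero N c')) (by rw [← h2]; exact h0)
  rw [← h2, h1, (isRawVal_ord v).map_neg (PtTop.jBar_sub_ne_zero N c')] at h3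
  rcases min_le_iff.mp h3 with h4 | h4 <;> omega

/-- Transport of injectivity on cosets to arbitrary translates of the base point. -/
theorem exists_Gamma0_of_base (c : KQ) (τ0 : ℍ) (hτ0 : Jfun τ0 = iotaK c) (δ : SL(2, ℤ))
    (hδ : δ • τ0 = τ0)
    (hinj : ∀ x y : XN N, placePt N (x.out⁻¹ • τ0) (IsAlgPt.smul ⟨c, hτ0⟩ _) =
        placePt N (y.out⁻¹ • τ0) (IsAlgPt.smul ⟨c, hτ0⟩ _) → ∃ k : ℤ, x = δ ^ k • y)
    (a b : SL(2, ℤ))
    (hab : placePt N (a • τ0) (IsAlgPt.smul ⟨c, hτ0⟩ _) =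
      placePt N (b • τ0) (IsAlgPt.smul ⟨c, hτ0⟩ _)) :
    ∃ γ ∈ Gamma0 N, γ • (a • τ0) = b • τ0 := by
  have halg : IsAlgPt τ0 := ⟨c, hτ0⟩
  have key : ∀ a : SL(2, ℤ),
      placePt N ((QuotientGroup.mk a⁻¹ : XN N).out⁻¹ • τ0) (halg.smul _) =
        placePt N (a • τ0) (halg.smul _) := by
    intro a
    obtain ⟨γa, hγa, ha⟩ := exists_out_inv_smul N a τ0
    rw [← placePt_smul_Gamma0 N γa hγa (a • τ0) (halg.smul _)]
    exact placePt_congr N _ _ (fun f _ => by rw [ha])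
  obtain ⟨k, hk⟩ := hinj _ _ ((key a).trans (hab.trans (key b).symm))
  have hmem : a * δ ^ k * b⁻¹ ∈ Gamma0 N := by
    have h1 : (QuotientGroup.mk a⁻¹ : XN N) = QuotientGroup.mk (δ ^ k * b⁻¹) := hk
    rw [QuotientGroup.eq] at h1
    simpa [mul_assoc] using h1
  refine ⟨(a * δ ^ k * b⁻¹)⁻¹, (Gamma0 N).inv_mem hmem, ?_⟩
  rw [mul_inv_rev, mul_inv_rev, inv_inv, mul_smul, mul_smul, inv_smul_smul, ← zpow_neg,
    zpow_smul_fixed hδ]

/-- **Two algebraic points define the same place iff they are `Γ₀(N)`-equivalent.** -/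
theorem placePt_eq_iff (τ τ' : ℍ) (h : IsAlgPt τ) (h' : IsAlgPt τ') :
    placePt N τ h = placePt N τ' h' ↔ ∃ γ ∈ Gamma0 N, γ • τ = τ' := by
  constructor
  · intro heq
    obtain ⟨c, hc⟩ := h
    obtain ⟨c', hc'⟩ := h'
    have hcc : c = c' := by
      apply value_unique N (placePt N τ ⟨c, hc⟩)
      · exact (ord_jBar_sub_pos_iff N τ _ c).mpr hc
      · rw [heq]; exact (ord_jBar_sub_pos_iff N τ' _ c').mpr hc'
    subst hcc
    by_cases hc0 : c = 0
    · subst hc0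
      obtain ⟨a, rfl⟩ : ∃ a : SL(2, ℤ), τ = a • rhoPt :=
        (JPt.Jfun_eq_zero_iff τ).mp (by rw [hc, map_zero])
      obtain ⟨b, rfl⟩ : ∃ b : SL(2, ℤ), τ' = b • rhoPt :=
        (JPt.Jfun_eq_zero_iff τ').mp (by rw [hc', map_zero])
      exact exists_Gamma0_of_base N 0 rhoPt Jfun_rhoPt_eq (S * T)
        Fermat.Agent.S20.EllCount.ST_smul_rhoPt (fibre_pt_zero N).1 a b heq
    · by_cases hc1 : c = 1728
      · subst hc1
        obtain ⟨a, rfl⟩ : ∃ a : SL(2, ℤ), a • UpperHalfPlane.I = τ :=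
          (JOrd.Jf_eq_iff τ UpperHalfPlane.I).mp (hc.trans Jfun_I_eq.symm)
        obtain ⟨b, rfl⟩ : ∃ b : SL(2, ℤ), b • UpperHalfPlane.I = τ' :=
          (JOrd.Jf_eq_iff τ' UpperHalfPlane.I).mp (hc'.trans Jfun_I_eq.symm)
        exact exists_Gamma0_of_base N 1728 UpperHalfPlane.I Jfun_I_eq S
          Fermat.Agent.S20.EllCount.S_smul_I (fibre_pt_1728 N).1 a b heq
      · obtain ⟨b, rfl⟩ : ∃ b : SL(2, ℤ), b • τ = τ' :=
          (JOrd.Jf_eq_iff τ' τ).mp (hc'.trans hc.symm)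
        have h1 : placePt N ((1 : SL(2, ℤ)) • τ) (IsAlgPt.smul ⟨c, hc⟩ _) =
            placePt N τ ⟨c, hc⟩ :=
          placePt_congr N _ _ (fun f _ => by rw [one_smul])
        obtain ⟨γ, hγ, hγ'⟩ := exists_Gamma0_of_base N c τ hc 1 (one_smul _ _)
          (fun x y hxy => ⟨0, by
            rw [(fibre_pt_generic N c hc0 hc1 τ hc).1 x y hxy]; simp⟩) 1 b (h1.trans heq)
        rw [one_smul] at hγ'
        exact ⟨γ, hγ, hγ'⟩
  · rintro ⟨γ, hγ, rfl⟩
    exact (placePt_smul_Gamma0 N γ hγ τ h).symm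

/-! ### The multiplier at a point -/

theorem mulPt_eq_two_of_fixed (τ : ℍ) (h : IsAlgPt τ) (δ : SL(2, ℤ)) (hδN : δ ∈ Gamma0 N)
    (hδ : δ ^ 2 = -1) (hfix : δ • τ = τ) : mulPt N τ h = 2 := by
  obtain ⟨π, hπ0, hπ1, hπm⟩ := exists_uniformizer_pt N τ h
  have h1 := PtInv.two_dvd_valPt N δ hδN hδ τ hfix π hπ0
  rw [hπm] at h1
  have h2 : 2 ∣ mulPt N τ h := by exact_mod_cast h1
  have h3 := mulPt_dvd_ellOrder N τ h
  have h4 := mulPt_pos N τ h
  obtain ⟨k, hk⟩ := h2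
  rcases ellOrder_mem τ with e | e | e <;> rw [e] at h3
  · have := Nat.le_of_dvd one_pos h3
    omega
  · have := Nat.le_of_dvd two_pos h3
    omega
  · rcases (Nat.dvd_prime Nat.prime_three).mp h3 with h5 | h5 <;> omega

theorem mulPt_eq_three_of_fixed (τ : ℍ) (h : IsAlgPt τ) (δ : SL(2, ℤ)) (hδN : δ ∈ Gamma0 N)
    (hδ : δ ^ 3 = -1) (hne : δ ≠ -1) (hfix : δ • τ = τ) : mulPt N τ h = 3 := by
  obtain ⟨π, hπ0, hπ1, hπm⟩ := exists_uniformizer_pt N τ h
  have h1 := PtInv.three_dvd_valPt N δ hδN hδ hne τ hfix π hπ0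
  rw [hπm] at h1
  have h2 : 3 ∣ mulPt N τ h := by exact_mod_cast h1
  have h3 := mulPt_dvd_ellOrder N τ h
  have h4 := mulPt_pos N τ h
  obtain ⟨k, hk⟩ := h2
  rcases ellOrder_mem τ with e | e | e <;> rw [e] at h3
  · have := Nat.le_of_dvd one_pos h3
    omega
  · have := Nat.le_of_dvd two_pos h3
    omega
  · have := Nat.le_of_dvd (by norm_num) h3
    omega


theorem mulPt_out_eq (τ0 : ℍ) (halg : IsAlgPt τ0) (a : SL(2, ℤ)) :
    mulPt N ((QuotientGroup.mk a⁻¹ : XN N).out⁻¹ • τ0) (halg.smul _) =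
      mulPt N (a • τ0) (halg.smul _) := by
  obtain ⟨γa, hγa, ha⟩ := exists_out_inv_smul N a τ0
  rw [← mulPt_smul_Gamma0 N γa hγa (a • τ0) (halg.smul _)]
  exact mulPt_congr N _ _ (fun f _ => by rw [ha])

/-- **The multiplier at a point is the order of its stabiliser in `Γ₀(N)/±1`.** -/
theorem mulPt_cases (τ : ℍ) (h : IsAlgPt τ) :
    mulPt N τ h = 1 ∨
    (mulPt N τ h = 2 ∧ ∃ δ ∈ Gamma0 N, δ ^ 2 = -1 ∧ δ • τ = τ) ∨
    (mulPt N τ h = 3 ∧ ∃ δ ∈ Gamma0 N, δ ^ 3 = -1 ∧ δ ≠ -1 ∧ δ • τ = τ) := by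
  by_cases h0 : Jfun τ = 0
  · obtain ⟨a, rfl⟩ : ∃ a : SL(2, ℤ), τ = a • rhoPt := (JPt.Jfun_eq_zero_iff τ).mp h0
    by_cases hx : (S * T) • (QuotientGroup.mk a⁻¹ : XN N) = QuotientGroup.mk a⁻¹
    · right; right
      have hmem := (smul_mk_inv_eq_iff N (S * T) a).mp hx
      have h3 : (a * (S * T) * a⁻¹) ^ 3 = -1 := by
        have : (a * (S * T) * a⁻¹) ^ 3 = a * (S * T) ^ 3 * a⁻¹ := by
          rw [pow_succ, pow_two, pow_succ, pow_two]; group
        rw [this, ST_cube]; simp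
      have hne : a * (S * T) * a⁻¹ ≠ -1 := by
        intro h'
        apply ST_ne_neg_one
        have : S * T = a⁻¹ * (a * (S * T) * a⁻¹) * a := by group
        rw [this, h']; simp
      have hfix : (a * (S * T) * a⁻¹) • (a • rhoPt) = a • rhoPt := by
        rw [← mul_smul, mul_assoc, mul_assoc, inv_mul_cancel, mul_one, mul_smul,
          Fermat.Agent.S20.EllCount.ST_smul_rhoPt]
      exact ⟨mulPt_eq_three_of_fixed N _ h _ hmem h3 hne hfix, _, hmem, h3, hne, hfix⟩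
    · left
      have h1 := (fibre_pt_zero N).2 (QuotientGroup.mk a⁻¹)
      rw [card_fibre_ST N _ hx, mulPt_out_eq N rhoPt ⟨0, Jfun_rhoPt_eq⟩ a] at h1
      omega
  · by_cases h1 : Jfun τ = 1728
    · obtain ⟨a, rfl⟩ : ∃ a : SL(2, ℤ), a • UpperHalfPlane.I = τ :=
        (JOrd.Jf_eq_iff τ UpperHalfPlane.I).mp (h1.trans JPt.Jfun_I.symm)
      by_cases hx : S • (QuotientGroup.mk a⁻¹ : XN N) = QuotientGroup.mk a⁻¹
      · right; left
        have hmem := (smul_mk_inv_eq_iff N S a).mp hx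
        have h2 : (a * S * a⁻¹) ^ 2 = -1 := by
          have : (a * S * a⁻¹) ^ 2 = a * S ^ 2 * a⁻¹ := by
            rw [pow_two, pow_two]; group
          rw [this, S_sq]; simp
        have hfix : (a * S * a⁻¹) • (a • UpperHalfPlane.I) = a • UpperHalfPlane.I := by
          rw [← mul_smul, mul_assoc, inv_mul_cancel, mul_one, mul_smul,
            Fermat.Agent.S20.EllCount.S_smul_I]
        exact ⟨mulPt_eq_two_of_fixed N _ h _ hmem h2 hfix, _, hmem, h2, hfix⟩
      · left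
        have h2 := (fibre_pt_1728 N).2 (QuotientGroup.mk a⁻¹)
        rw [card_fibre_S N _ hx, mulPt_out_eq N UpperHalfPlane.I ⟨1728, Jfun_I_eq⟩ a] at h2
        omega
    · left
      have h2 := mulPt_dvd_ellOrder N τ h
      rw [JPt.ellOrder_of_generic τ h0 h1] at h2
      exact Nat.eq_one_of_dvd_one h2

/-! ### The cusps -/

/-- **Fibre structure over `j = ∞`.** -/
theorem fibre_cusp :
    (∀ x y : XN N, placeCusp N x.out = placeCusp N y.out → ∃ k : ℤ, x = T ^ k • y) ∧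
    (∀ x : XN N, mulCusp N x.out *
        Nat.card {y : XN N // (Quotient.mk'' y :
          MulAction.orbitRel.Quotient (Subgroup.zpowers T) (XN N)) = Quotient.mk'' x} = N) ∧
    (∀ x : XN N, (placeCusp N x.out).ord (jBar N)⁻¹ =
        (Nat.card {y : XN N // (Quotient.mk'' y :
          MulAction.orbitRel.Quotient (Subgroup.zpowers T) (XN N)) = Quotient.mk'' x} : ℤ)) ∧
    Module.finrank KQ⟮jBar N⟯ (FN N) = Nat.card (XN N) := by
  classical
  haveI := finiteDimensional_jBar N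
  letI : Fintype (XN N) := Fintype.ofFinite _
  letI : Fintype (MulAction.orbitRel.Quotient (Subgroup.zpowers T) (XN N)) := Fintype.ofFinite _
  have hA2 : ∃ hfin : {v : Place KQ (FN N) | 0 < v.ord (jBar N)⁻¹}.Finite,
      ∑ v ∈ hfin.toFinset, v.ord (jBar N)⁻¹ = (Module.finrank KQ⟮jBar N⟯ (FN N) : ℤ) := by
    haveI := Transfer.finiteDimensional_inv (K := KQ) (jBar N)
    obtain ⟨hfin, hsum⟩ := zerosOf_finite_sum (jBar N)⁻¹
      (Transfer.transcendental_inv (transcendental_jBar N))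
    rw [Transfer.finrank_inv] at hsum
    exact ⟨hfin, hsum⟩
  obtain ⟨-, h2, h3, h4, h5⟩ := fibre_dict (K := KQ) (X := XN N)
    (O := MulAction.orbitRel.Quotient (Subgroup.zpowers T) (XN N))
    (jBar N)⁻¹ (inv_ne_zero (jBar_ne_zero N))
    (Module.finrank KQ⟮jBar N⟯ (FN N)) hA2
    (by rw [← Nat.card_eq_fintype_card]; exact card_XN_le_finrank N)
    (fun x => valCusp N x.out) (fun x => rawCusp N _)
    (N : ℤ) (by exact_mod_cast Nat.pos_of_ne_zero (NeZero.ne N)) (fun x => valCusp_jBar_inv N _)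
    (fun x => Quotient.mk'' x) Quotient.mk''_surjective
    (by
      intro i j hij
      obtain ⟨k, hk⟩ := (orb_eq_iff N T i j).1 hij
      obtain ⟨γ, hγ, hout⟩ := out_smul N (T ^ k) j
      funext f
      rw [hk, hout, valCusp_mul_Gamma0 N _ _ hγ, valCusp_T_zpow_mul])
    (by
      intro x f hf
      obtain ⟨h, hh, hfix, hcard⟩ := card_fibre_T N x
      rw [hcard]
      exact dvd_valCusp N x.out h hh ((smul_eq_self_iff N (T ^ h) x).1 hfix) f hf)
    (by
      intro f hf hall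
      obtain ⟨P, hmonic, hroot, hcoef, -, hcusp⟩ := exists_charpoly N f
      refine ⟨P, hmonic, hroot, fun k hk => ⟨?_, ?_⟩⟩
      · rw [Transfer.adjoin_inv]; exact hcoef k
      · refine ⟨QuotientGroup.mk 1, ?_⟩
        exact hcusp (valCusp_all_of_out N f hall) k hk _)
    (fun x => ntCusp N x.out)
  refine ⟨fun x y hxy => (orb_eq_iff N T x y).1 (h2 x y hxy), fun x => ?_, fun x => h3 x, ?_⟩
  · obtain ⟨π, hπ0, hπ1, hπm⟩ := exists_uniformizer_cusp N x.out
    have h6 := h4 x π hπ0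
    have h7 : ((rawCusp N x.out).place (ntCusp N x.out)).ord π = 1 := hπ1
    rw [h7, hπm, mul_one] at h6
    exact_mod_cast h6
  · rw [h5, Nat.card_eq_fintype_card]

/-- **Two cusp places coincide iff the cusps are `Γ₀(N)`-equivalent**, i.e. iff the matrices lie
in the same double coset `⟨T⟩ g Γ₀(N)`. -/
theorem placeCusp_eq_iff (g g' : SL(2, ℤ)) :
    placeCusp N g = placeCusp N g' ↔ ∃ (k : ℤ) (γ : SL(2, ℤ)), γ ∈ Gamma0 N ∧ g' = T ^ k * g * γ := by
  constructor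
  · intro heq
    have key : ∀ a : SL(2, ℤ), placeCusp N (QuotientGroup.mk a : XN N).out = placeCusp N a := by
      intro a
      obtain ⟨γ, hγ⟩ := QuotientGroup.mk_out_eq_mul (Gamma0 N) a
      rw [hγ, placeCusp_mul_Gamma0 N a _ γ.2]
    obtain ⟨k, hk⟩ := (fibre_cusp N).1 _ _ ((key g').trans (heq.symm.trans (key g).symm))
    have h1 : (QuotientGroup.mk g' : XN N) = QuotientGroup.mk (T ^ k * g) := hk
    rw [QuotientGroup.eq] at h1
    refine ⟨k, (g'⁻¹ * (T ^ k * g))⁻¹, (Gamma0 N).inv_mem h1, ?_⟩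
    group
  · rintro ⟨k, γ, hγ, rfl⟩
    rw [placeCusp_mul_Gamma0 N _ γ hγ, placeCusp_T_zpow_mul]


theorem mulCusp_out_eq (g : SL(2, ℤ)) :
    mulCusp N (QuotientGroup.mk g : XN N).out = mulCusp N g := by
  obtain ⟨γ, hγ⟩ := QuotientGroup.mk_out_eq_mul (Gamma0 N) g
  rw [hγ, mulCusp_mul_Gamma0 N g _ γ.2]

/-- **The multiplier at a cusp times the width of the cusp is `N`.** -/
theorem mulCusp_mul_cuspWidth (g : SL(2, ℤ)) : mulCusp N g * cuspWidth N g = N := by
  have h1 := (fibre_cusp N).2.1 (QuotientGroup.mk g)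
  have h2 : Nat.card {y : XN N // (Quotient.mk'' y :
      MulAction.orbitRel.Quotient (Subgroup.zpowers T) (XN N)) =
        Quotient.mk'' (QuotientGroup.mk g : XN N)} = cuspWidth N g :=
    orbSize_card_fibre_eq_minimalPeriod T (QuotientGroup.mk g : XN N)
  rw [mulCusp_out_eq, h2] at h1
  exact h1


/-- The ramification index of `j` at a cusp is the width. -/
theorem ord_jBar_inv_placeCusp (g : SL(2, ℤ)) :
    (placeCusp N g).ord (jBar N)⁻¹ = cuspWidth N g := by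
  have h1 := valCusp_eq_mul_ord N g (inv_ne_zero (jBar_ne_zero N))
  rw [valCusp_jBar_inv] at h1
  have h2 := mulCusp_mul_cuspWidth N g
  have h3 : (0 : ℤ) < mulCusp N g := by exact_mod_cast mulCusp_pos N g
  have h4 : (mulCusp N g : ℤ) * (cuspWidth N g : ℤ) = N := by exact_mod_cast h2
  rw [← h4] at h1
  exact (mul_left_cancel₀ h3.ne' h1).symm

/-! ### Degrees -/

/-- Every place of `F` has degree one. -/
theorem deg_eq_one (v : Place KQ (FN N)) : v.deg = 1 := by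
  haveI := finiteDimensional_jBar N
  exact ARest.deg_eq_one (jBar N) v

/-- The degree of `F` over `ℂ(j)` is the index of `Γ₀(N)`. -/
theorem finrank_eq_card : Module.finrank KQ⟮jBar N⟯ (FN N) = Nat.card (XN N) :=
  (fibre_cusp N).2.2.2

end Fermat.Agent.S24C.PlaceDict
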