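import Mathlib
import Fermat.Agent.S24C.DictFull
import Fermat.Agent.S24C.PlaceDict
import Fermat.Agent.S24C.Ramif

/-!
# S24C: statements specific to the base field `ℂ`

* consistency of the S24C names with the `(K, ι)`-generic definitions of `ESJ/Jac/Defs.lean` at
  `K = ℂ`, `ι = RingHom.id ℂ` (all by `rfl`);
* `isDict_id`: the analytic dictionary `ESJ.Dict.IsDict (RingHom.id ℂ) N`;
* over `ℂ` every point of `ℍ` is "algebraic" (`PlaceDict.IsAlgPt`), hence gives a place of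
  `F = ℂ(j(q^d) : d ∣ N)`: hypothesis-free forms of the point statements.

These declarations live in `Fermat.Agent.S24C.Cx` (a namespace without counterpart in S24).
-/

set_option autoImplicit false

open UpperHalfPlane ModularForm AlgebraicCurve CongruenceSubgroup
open scoped MatrixGroups Manifold IntermediateField

noncomputable section

namespace Fermat.Agent.S24C.Cx

open Fermat.Agent.S24 Fermat.Agent.ESJ.Jac Fermat.Agent.ESJ.Dict

variable (N : ℕ) [NeZero N]

/-! ### Consistency with `ESJ/Jac/Defs.lean` -/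

theorem FN_eq : FN N = FNK ℂ N := rfl

theorem jFormal_eq : jFormal N = jFormalK ℂ N := rfl

theorem jBar_eq : jBar N = jBarK ℂ N := rfl

theorem fm_eq : fm N = fmK ℂ N := rfl

theorem ev_eq (N : ℕ) : ev N = evK (RingHom.id ℂ) N := rfl

theorem isRep_eq : IsRep N = @IsRepK ℂ _ _ N _ := rfl

theorem valPt_eq : valPt N = valPtK (RingHom.id ℂ) N := rfl

theorem valCusp_eq : valCusp N = valCuspK (RingHom.id ℂ) N := rfl

/-- The analytic dictionary over `ℂ` with the identity embedding. -/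
theorem isDict_id : IsDict (RingHom.id ℂ) N := DictInst.isDict N

/-! ### Over `ℂ` every point is a point place -/

theorem isAlgPt (τ : ℍ) : PlaceDict.IsAlgPt τ := ⟨Jfun τ, rfl⟩

/-- The place of `F` at the point `τ ∈ ℍ`. -/
def placePt (τ : ℍ) : Place ℂ (FN N) := PlaceDict.placePt N τ (isAlgPt τ)

/-- The multiplier at `τ`: `valPt N τ = mulPt N τ * (placePt N τ).ord`. -/
def mulPt (τ : ℍ) : ℕ := PlaceDict.mulPt N τ (isAlgPt τ)

theorem valPt_eq_mul_ord (τ : ℍ) {f : FN N} (hf : f ≠ 0) :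
    valPt N τ f = mulPt N τ * (placePt N τ).ord f :=
  PlaceDict.valPt_eq_mul_ord N τ (isAlgPt τ) hf

theorem mulPt_cases (τ : ℍ) :
    mulPt N τ = 1 ∨
      (mulPt N τ = 2 ∧ ∃ δ ∈ Gamma0 N, δ ^ 2 = -1 ∧ δ • τ = τ) ∨
        mulPt N τ = 3 ∧ ∃ δ ∈ Gamma0 N, δ ^ 3 = -1 ∧ δ ≠ -1 ∧ δ • τ = τ :=
  PlaceDict.mulPt_cases N τ (isAlgPt τ)

theorem placePt_eq_iff (τ τ' : ℍ) :
    placePt N τ = placePt N τ' ↔ ∃ γ ∈ Gamma0 N, γ • τ = τ' :=
  PlaceDict.placePt_eq_iff N τ τ' (isAlgPt τ) (isAlgPt τ')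

/-- Every place of `F` is a point place or a cusp place. -/
theorem exists_placePt_or_placeCusp (v : Place ℂ (FN N)) :
    (∃ τ : ℍ, v = placePt N τ) ∨ ∃ g : SL(2, ℤ), v = PlaceDict.placeCusp N g := by
  rcases PlaceDict.exists_placePt_or_placeCusp N v with ⟨τ, h, hv⟩ | ⟨g, hv⟩
  · exact Or.inl ⟨τ, hv⟩
  · exact Or.inr ⟨g, hv⟩

/-- The place at `τ` with its exact ramification type. -/
theorem exists_place_valPt (τ : ℍ) :
    ∃ (v : Place ℂ (FN N)) (e : ℕ), Ramif.EllType N τ e ∧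
      0 < v.ord (jBar N - algebraMap ℂ (FN N) (Jfun τ)) ∧
      ∀ f : FN N, f ≠ 0 → valPt N τ f = e * v.ord f :=
  Ramif.exists_place_valPt N τ (Jfun τ) rfl

end Fermat.Agent.S24C.Cx
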