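import Mathlib
import Fermat.Agent.S24.ModDefs
import Fermat.Agent.S24C.ModDefs
import Fermat.Agent.Lib.UHP.Multiplier
import Fermat.Agent.ESJ.Jac.Defs
import Fermat.Agent.S24.KumDefs

/-
S24C (port of S24 to the base field `ℂ`).  This file repeats, for `K = ℂ`,
`F = ℂ(j(q^d) : d ∣ N)` and the embedding `ι = id`, the declarations of
`Fermat/Agent/S24/KumDefs.lean` whose statement mentions the base field — same names, same proofs,
with `Fermat.Agent.S24` replaced by `Fermat.Agent.S24C`.  The declarations of that file which do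
not mention the base field are not repeated: they are used from `Fermat.Agent.S24` directly.
-/

/-!
# JAC-TORS / Kummer theory on `ℍ`: the Kummer relation in PAIR FORM (definitions only)

Written in S24 vocabulary only (`KQ`, `iotaK`, `FN`, `IsRep`, `ev`), so that the S24 → S24C port
script produces the same definition over `ℂ` (`Fermat.Agent.S24C.Kum.KumRel`).

`KumRel N n f χ`: `f = fm P / fm Q ≠ 0` and there is a holomorphic `a ≠ 0` on `ℍ` with
`(a / ev Q) ^ n = ev P / ev Q`  (written `ev P * ev Q ^ n = ev Q * a ^ n`) and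
`(a / ev Q) ∘ γ = χ γ • (a / ev Q)` for all `γ ∈ Γ₀(N)`  (`Lib.UHP.HasMult`).
I.e. `χ` is the multiplier of an `n`-th root on `ℍ` of the modular function of `f`.

The K-independent predicate "parabolic-elliptic character of exponent `n`" is
`Fermat.Agent.ESJ.Jac.IsPEChar (Gamma0 N) n χ` (Jac/Defs).
-/

set_option autoImplicit false

open UpperHalfPlane CongruenceSubgroup
open scoped MatrixGroups Manifold

noncomputable section

namespace Fermat.Agent.S24C.Kum
open Fermat.Agent.S24 Fermat.Agent.S24.Kum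

open Fermat.Agent.S24 Fermat.Agent.Lib.UHP

/-- `χ` is the Kummer character of exponent `n` of `f ∈ F_N` (pair form). -/
def KumRel (N n : ℕ) [NeZero N] (f : FN N) (χ : Gamma0 N →* ℂˣ) : Prop :=
  ∃ (P Q : MvPolynomial (Dv N) KQ) (a : ℍ → ℂ), IsRep N f P Q ∧ f ≠ 0 ∧ MDiff a ∧ a ≠ 0 ∧
    (∀ z : ℍ, ev N P z * ev N Q z ^ n = ev N Q z * a z ^ n) ∧
    ∀ γ : Gamma0 N, HasMult a (ev N Q) (γ : SL(2, ℤ)) ((χ γ : ℂˣ) : ℂ)

end Fermat.Agent.S24C.Kum
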