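import Mathlib
import Fermat.Agent.S24.KumDefs
import Fermat.Agent.S24C.KumDefs
import Fermat.Agent.S24.CuspTop
import Fermat.Agent.S24C.CuspTop
import Fermat.Agent.Lib.UHP.Multiplier
import Fermat.Agent.Lib.Analysis.CuspMultiplier
import Fermat.Agent.S24.KumCusp

/-
S24C (port of S24 to the base field `ℂ`).  This file repeats, for `K = ℂ`,
`F = ℂ(j(q^d) : d ∣ N)` and the embedding `ι = id`, the declarations of
`Fermat/Agent/S24/KumCusp.lean` whose statement mentions the base field — same names, same proofs,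
with `Fermat.Agent.S24` replaced by `Fermat.Agent.S24C`.  The declarations of that file which do
not mention the base field are not repeated: they are used from `Fermat.Agent.S24` directly.
-/

/-!
# JAC-TORS / Kummer theory on `ℍ`: the Kummer character at the cusps

Written in S24 vocabulary only, so that the S24 → S24C port script produces the same statements
over `ℂ`.

For `KumRel N n f χ` (the `n`-th root `a / ev Q` of the modular function of `f` has multiplier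
`χ`), a cusp `g⁻¹∞` and a period `w ∣ N` of that cusp (`g⁻¹ T^w g ∈ Γ₀(N)`):

  `χ (g⁻¹ T^w g) = 1  ↔  n * (N / w) ∣ valCusp N g f`.

Proof: `A := a ∘ g⁻¹` is an honest `n`-th root on `ℍ` of the holomorphic function
`F := (ev P ∘ g⁻¹) * (ev Q ∘ g⁻¹) ^ (n - 1)` and `A (z + w) = χ(g⁻¹ T^w g) * A z`; now apply
`Lib.Analysis.CuspMultiplier.cusp_multiplier_atImInfty` and compare the orders at `i∞`.
-/

set_option autoImplicit false

open UpperHalfPlane CongruenceSubgroup Filter Topology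
open scoped MatrixGroups Manifold

noncomputable section

namespace Fermat.Agent.S24C.Kum
open Fermat.Agent.S24 Fermat.Agent.S24.Kum

open Fermat.Agent.S24 Fermat.Agent.Lib.UHP Fermat.Agent.S24.OrdH
open Fermat.Agent.Lib.Analysis.NthRoot


variable {N : ℕ} [NeZero N]

/-- **The Kummer character at a cusp.**  For a period `w ∣ N` of the cusp `g⁻¹∞`, the Kummer
character is trivial on `g⁻¹ T^w g` iff `n * (N / w)` divides the cusp valuation. -/
theorem KumRel.eq_one_iff_dvd_valCusp {n : ℕ} (hn : 0 < n) {f : FN N} {χ : Gamma0 N →* ℂˣ}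
    (h : KumRel N n f χ) (g : SL(2, ℤ)) (w : ℕ) (hw : 0 < w) (hwN : w ∣ N)
    (hmem : g⁻¹ * ModularGroup.T ^ w * g ∈ Gamma0 N) :
    χ ⟨g⁻¹ * ModularGroup.T ^ w * g, hmem⟩ = 1 ↔
      ((n * (N / w) : ℕ) : ℤ) ∣ valCusp N g f := by
  have hN : 0 < N := Nat.pos_of_ne_zero (NeZero.ne N)
  obtain ⟨P, Q, a, hrep, hf, ha, ha0, hroot, hmult⟩ := h
  have hQ : fm N Q ≠ 0 := hrep.1
  have hP : fm N P ≠ 0 := by
    intro h0
    apply hf
    rw [hrep.2, h0, zero_div]
  obtain ⟨m, rfl⟩ : ∃ m, n = m + 1 := ⟨n - 1, by omega⟩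
  obtain ⟨e, hNe⟩ := hwN
  have he : 0 < e := by
    rcases Nat.eq_zero_or_pos e with h0 | h0
    · rw [h0, mul_zero] at hNe
      omega
    · exact h0
  have hdiv : N / w = e := Nat.div_eq_of_eq_mul_right hw hNe
  set ζ : ℂ := ((χ ⟨g⁻¹ * ModularGroup.T ^ w * g, hmem⟩ : ℂˣ) : ℂ) with hζdef
  -- the translated functions
  have hA : MDiff (trans g a) := mdifferentiable_comp_smul ha g⁻¹
  have hA0 : trans g a ≠ 0 := comp_smul_ne_zero ha0 g⁻¹
  have hB : MDiff (trans g (ev N Q)) := (CuspTop.merInf_trans_ev N g Q).1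
  have hC : MDiff (trans g (ev N P)) := (CuspTop.merInf_trans_ev N g P).1
  have hB0 : trans g (ev N Q) ≠ 0 := by
    rw [Ne, CuspTop.trans_eq_zero_iff, QExp.ev_eq_zero_iff]
    exact hQ
  obtain ⟨mP, hmP⟩ := CuspTop.exists_hasOrdInf_trans_ev N g P hP
  obtain ⟨mQ, hmQ⟩ := CuspTop.exists_hasOrdInf_trans_ev N g Q hQ
  have hv : valCusp N g f = mP - mQ := by
    rw [CuspTop.valCusp_eq N hrep hf g, hmP.ordInf_eq hN, hmQ.ordInf_eq hN]
  have hF : MDiff (trans g (ev N P) * trans g (ev N Q) ^ m) := hC.mul (hB.pow m)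
  have hFord : OrdInf.HasOrdInf N (trans g (ev N P) * trans g (ev N Q) ^ m)
      (mP + (m : ℤ) * mQ) := hmP.mul (hmQ.pow m)
  -- cancellation of the denominator
  have hcancel : ∀ G : ℍ → ℂ, MDiff G → (∀ τ, G τ * trans g (ev N Q) τ = 0) → ∀ τ, G τ = 0 := by
    intro G hG hGB τ
    have h1 : G * trans g (ev N Q) = 0 := funext hGB
    rcases eq_zero_or_eq_zero_of_mul_eq_zero hG hB h1 with h2 | h2
    · rw [h2]
      rfl
    · exact absurd h2 hB0
  -- the root identity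
  have hrootF : ∀ τ : ℍ, trans g a τ ^ (m + 1) =
      (trans g (ev N P) * trans g (ev N Q) ^ m) τ := by
    intro τ
    have h1 := hcancel (fun τ => trans g a τ ^ (m + 1) -
      (trans g (ev N P) * trans g (ev N Q) ^ m) τ) ((hA.pow (m + 1)).sub hF) (fun τ => by
        have h2 := hroot (g⁻¹ • τ)
        simp only [trans, Pi.mul_apply, Pi.pow_apply]
        linear_combination -h2) τ
    exact sub_eq_zero.mp h1
  -- periodicity
  have hBper : ∀ τ : ℍ, trans g (ev N Q) ((w : ℝ) +ᵥ τ) = trans g (ev N Q) τ :=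
    CuspTop.trans_ev_periodic N g w hmem Q
  have hCper : ∀ τ : ℍ, trans g (ev N P) ((w : ℝ) +ᵥ τ) = trans g (ev N P) τ :=
    CuspTop.trans_ev_periodic N g w hmem P
  have hFper : ∀ τ : ℍ, (trans g (ev N P) * trans g (ev N Q) ^ m) ((w : ℝ) +ᵥ τ) =
      (trans g (ev N P) * trans g (ev N Q) ^ m) τ := by
    intro τ
    simp only [Pi.mul_apply, Pi.pow_apply, hBper, hCper]
  -- the multiplier
  have hζA : ∀ τ : ℍ, trans g a ((w : ℝ) +ᵥ τ) = ζ * trans g a τ := by
    intro τ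
    have hAT : MDiff (fun τ : ℍ => trans g a ((w : ℝ) +ᵥ τ)) := by
      have h1 : (fun τ : ℍ => trans g a ((w : ℝ) +ᵥ τ)) =
          fun τ : ℍ => trans g a (ModularGroup.T ^ w • τ) := by
        funext τ
        rw [natCast_vadd_eq_T_pow_smul]
      rw [h1]
      exact mdifferentiable_comp_smul hA (ModularGroup.T ^ w)
    have h1 := hcancel (fun τ => trans g a ((w : ℝ) +ᵥ τ) - ζ * trans g a τ)
      (hAT.sub (hA.const_smul ζ)) (fun τ => by
        have h2 := hmult ⟨g⁻¹ * ModularGroup.T ^ w * g, hmem⟩ (g⁻¹ • τ)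
        have h3 : (g⁻¹ * ModularGroup.T ^ w * g) • g⁻¹ • τ = g⁻¹ • ((w : ℝ) +ᵥ τ) := by
          rw [natCast_vadd_eq_T_pow_smul]
          simp only [mul_smul, smul_inv_smul]
        have h4 := hBper τ
        simp only [trans] at h4 ⊢
        change a ((g⁻¹ * ModularGroup.T ^ w * g) • g⁻¹ • τ) * ev N Q (g⁻¹ • τ) =
          ζ * (a (g⁻¹ • τ) * ev N Q ((g⁻¹ * ModularGroup.T ^ w * g) • g⁻¹ • τ)) at h2
        rw [h3, h4] at h2
        linear_combination h2) τ
    exact sub_eq_zero.mp h1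
  -- the arithmetic of the orders
  have hMdvd : (N : ℤ) ∣ (mP + (m : ℤ) * mQ) * w := by
    have := CuspTop.dvd_ordInf_mul_of_periodic N hN _ w hFper
    rwa [hFord.ordInf_eq hN] at this
  have hQdvd : (N : ℤ) ∣ mQ * w := by
    have := CuspTop.dvd_ordInf_mul_of_periodic N hN _ w hBper
    rwa [hmQ.ordInf_eq hN] at this
  have hwZ : (w : ℤ) ≠ 0 := by exact_mod_cast hw.ne'
  have heZ : (e : ℤ) ≠ 0 := by exact_mod_cast he.ne'
  have hNeZ : (N : ℤ) = (w : ℤ) * e := by exact_mod_cast hNe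
  obtain ⟨k, hk⟩ : ∃ k : ℤ, mP + (m : ℤ) * mQ = e * k := by
    obtain ⟨k, hk⟩ := hMdvd
    refine ⟨k, mul_right_cancel₀ hwZ ?_⟩
    rw [hk, hNeZ]
    ring
  obtain ⟨q, hq⟩ : ∃ q : ℤ, mQ = e * q := by
    obtain ⟨q, hq⟩ := hQdvd
    refine ⟨q, mul_right_cancel₀ hwZ ?_⟩
    rw [hq, hNeZ]
    ring
  have hFord' : OrdInf.HasOrdInf w (trans g (ev N P) * trans g (ev N Q) ^ m) k := by
    have h1 : OrdInf.HasOrdInf (w * e) (trans g (ev N P) * trans g (ev N Q) ^ m)
        ((e : ℤ) * k) := by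
      rw [← hk, ← hNe]
      exact hFord
    exact (OrdInf.hasOrdInf_mul_iff he).mp h1
  have hmain : ζ = 1 ↔ ((m + 1 : ℕ) : ℤ) ∣ k :=
    cusp_root_iff (Nat.succ_pos m) hw hA hA0 hF hrootF hFper hζA hFord'
  have hval : valCusp N g f = (e : ℤ) * (k - ((m + 1 : ℕ) : ℤ) * q) := by
    rw [hv]
    push_cast
    have : mP = e * k - m * mQ := by linarith
    rw [this, hq]
    ring
  rw [← Units.val_eq_one, ← hζdef, hmain, hdiv, hval]
  have hcast : (((m + 1) * e : ℕ) : ℤ) = (e : ℤ) * ((m + 1 : ℕ) : ℤ) := by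
    push_cast
    ring
  rw [hcast, mul_dvd_mul_iff_left heZ]
  constructor
  · intro h1
    exact dvd_sub h1 (dvd_mul_right _ _)
  · intro h1
    have := dvd_add h1 (dvd_mul_right ((m + 1 : ℕ) : ℤ) q)
    simpa using this

theorem KumRel.eq_one_of_dvd_valCusp {n : ℕ} (hn : 0 < n) {f : FN N} {χ : Gamma0 N →* ℂˣ}
    (h : KumRel N n f χ) (g : SL(2, ℤ)) (w : ℕ) (hw : 0 < w) (hwN : w ∣ N)
    (hmem : g⁻¹ * ModularGroup.T ^ w * g ∈ Gamma0 N)
    (hdiv : ((n * (N / w) : ℕ) : ℤ) ∣ valCusp N g f) :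
    χ ⟨g⁻¹ * ModularGroup.T ^ w * g, hmem⟩ = 1 :=
  (h.eq_one_iff_dvd_valCusp hn g w hw hwN hmem).mpr hdiv

theorem KumRel.dvd_valCusp {n : ℕ} (hn : 0 < n) {f : FN N} {χ : Gamma0 N →* ℂˣ}
    (h : KumRel N n f χ) (g : SL(2, ℤ)) (w : ℕ) (hw : 0 < w) (hwN : w ∣ N)
    (hmem : g⁻¹ * ModularGroup.T ^ w * g ∈ Gamma0 N)
    (hχ : χ ⟨g⁻¹ * ModularGroup.T ^ w * g, hmem⟩ = 1) :
    ((n * (N / w) : ℕ) : ℤ) ∣ valCusp N g f :=
  (h.eq_one_iff_dvd_valCusp hn g w hw hwN hmem).mp hχ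

end Fermat.Agent.S24C.Kum

end
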