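import Mathlib
import Fermat.Agent.S24.KumDefs
import Fermat.Agent.S24C.KumDefs
import Fermat.Agent.S24.Ramif
import Fermat.Agent.S24C.Ramif
import Fermat.Agent.Lib.UHP.Multiplier
import Fermat.Agent.S24.KumPt

/-
S24C (port of S24 to the base field `ℂ`).  This file repeats, for `K = ℂ`,
`F = ℂ(j(q^d) : d ∣ N)` and the embedding `ι = id`, the declarations of
`Fermat/Agent/S24/KumPt.lean` whose statement mentions the base field — same names, same proofs,
with `Fermat.Agent.S24` replaced by `Fermat.Agent.S24C`.  The declarations of that file which do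
not mention the base field are not repeated: they are used from `Fermat.Agent.S24` directly.
-/

/-!
# JAC-KUM-PT: the Kummer relation and the orders at the points of `ℍ`

S24 vocabulary only (`KQ`, `iotaK`, `FN`, `IsRep`, `ev`, `valPt`, `Ramif.EllType`).

* `Pt.fixed_cases` : an element of `SL(2, ℤ)` with a fixed point in `ℍ` is `±1`, or of order `4`
  (`γ² = -1`), or of order `6` (`γ³ = -1`, `γ ≠ -1`), or of order `3` (`γ³ = 1`, `γ ≠ 1`).
* `exists_kumRel_of_dvd_valPt` : if `n * e` divides the order of `f` at every point of elliptic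
  type `e`, then `f` has a Kummer character of exponent `n`, trivial on every element of
  `Γ₀(N)` with a fixed point.
* `KumRel.dvd_valPt` : conversely.
-/

set_option autoImplicit false

open UpperHalfPlane CongruenceSubgroup
open scoped MatrixGroups Manifold

noncomputable section

namespace Fermat.Agent.S24C.Kum
open Fermat.Agent.S24 Fermat.Agent.S24.Kum

open Fermat.Agent.S24 Fermat.Agent.Lib.UHP Fermat.Agent.S24.OrdH
open Fermat.Agent.S24.Ramif hiding dvd_valCusp_of_forall_dvd_ord dvd_valPt_of_forall_dvd_ord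
  exact_cusp_all exact_ell exact_generic exact_prime exact_pt_all exists_place_valCusp
  exists_place_valPt exists_pt_or_cusp forall_dvd_ord_iff valPt_eq_ordFrac
open Fermat.Agent.S24C.Ramif

/-! ### Elements of `SL(2, ℤ)` with a fixed point -/

namespace Pt
open Fermat.Agent.S24.Kum.Pt


end Pt

/-! ### The Kummer relation at the points of `ℍ` -/

open Pt

variable {N : ℕ} [NeZero N]

/-- If `n * e` divides the order of `f` at every point of elliptic type `e`, then `f` has a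
Kummer character of exponent `n` which is trivial on the elements with a fixed point. -/
theorem exists_kumRel_of_dvd_valPt {n : ℕ} (hn : 0 < n) {f : FN N} (hf : f ≠ 0)
    (hpt : ∀ (τ : ℍ) (e : ℕ), EllType N τ e → ((n * e : ℕ) : ℤ) ∣ valPt N τ f) :
    ∃ χ : Gamma0 N →* ℂˣ, KumRel N n f χ ∧ (∀ γ, χ γ ^ n = 1) ∧
      ∀ γ : Gamma0 N, (∃ τ : ℍ, (γ : SL(2, ℤ)) • τ = τ) → χ γ = 1 := by
  obtain ⟨P, Q, hrep⟩ := QExp.exists_isRep N f
  have hQ : fm N Q ≠ 0 := hrep.1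
  have hP : fm N P ≠ 0 := by
    intro h0
    apply hf
    rw [hrep.2, h0, zero_div]
  have hval : ∀ τ, valPt N τ f = ordFrac (ev N P) (ev N Q) τ :=
    fun τ => Ramif.valPt_eq_ordFrac N τ hrep hf
  have hdvd : ∀ (τ : ℍ) (e : ℕ), EllType N τ e →
      ((n : ℤ) * (e : ℤ)) ∣ ordFrac (ev N P) (ev N Q) τ := by
    intro τ e he
    rw [← hval, ← Nat.cast_mul]
    exact hpt τ e he
  have hdiv : ∀ τ : ℍ, (n : ℤ) ∣ ordFrac (ev N P) (ev N Q) τ := by
    intro τ
    have := hdvd τ 1 (Or.inl rfl)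
    simpa using this
  obtain ⟨a, χ, ha, ha0, hroot, -, hχn, hmult, hell⟩ :=
    exists_kummer_character (PtInv.mdiff_ev N P) (PtInv.mdiff_ev N Q) (PtInv.ev_ne_zero N hP)
      (PtInv.ev_ne_zero N hQ) hn hdiv (Gamma0 N)
      (fun γ hγ z => by
        rw [PtInv.ev_smul_Gamma0 N P γ hγ, PtInv.ev_smul_Gamma0 N Q γ hγ])
  refine ⟨χ, ⟨P, Q, a, hrep, hf, ha, ha0, hroot, hmult⟩, hχn, ?_⟩
  rintro γ ⟨τ, hτ⟩
  rcases fixed_cases (γ : SL(2, ℤ)) τ hτ with h1 | h1 | h1 | ⟨h3, hne⟩ | ⟨h3, hne⟩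
  · have : γ = 1 := Subtype.ext h1
    rw [this, map_one]
  · exact hell γ τ 1 hτ (Or.inr (by rw [pow_one, h1])) (hdvd τ 1 (Or.inl rfl))
  · exact hell γ τ 2 hτ (Or.inr h1)
      (hdvd τ 2 (Or.inr (Or.inl ⟨rfl, γ, γ.2, h1, hτ⟩)))
  · exact hell γ τ 3 hτ (Or.inr h3)
      (hdvd τ 3 (Or.inr (Or.inr ⟨rfl, γ, γ.2, h3, hne, hτ⟩)))
  · have hδ3 : (-(γ : SL(2, ℤ))) ^ 3 = -1 := by
      rw [Odd.neg_pow (by decide), h3]
    have hδne : -(γ : SL(2, ℤ)) ≠ -1 := fun h => hne (neg_injective h)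
    have hδfix : (-(γ : SL(2, ℤ))) • τ = τ := by
      rw [ModularGroup.SL_neg_smul, hτ]
    exact hell γ τ 3 hτ (Or.inl h3)
      (hdvd τ 3 (Or.inr (Or.inr ⟨rfl, -γ, neg_mem_Gamma0 γ.2, hδ3, hδne, hδfix⟩)))

/-- Conversely: if the Kummer character of `f` is trivial on the elements with a fixed point,
then `n * e` divides the order of `f` at every point of elliptic type `e`. -/
theorem KumRel.dvd_valPt {n : ℕ} (hn : 0 < n) {f : FN N} {χ : Gamma0 N →* ℂˣ}
    (h : KumRel N n f χ)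
    (hχ : ∀ γ : Gamma0 N, (∃ τ : ℍ, (γ : SL(2, ℤ)) • τ = τ) → χ γ = 1) (τ : ℍ) (e : ℕ)
    (he : EllType N τ e) : ((n * e : ℕ) : ℤ) ∣ valPt N τ f := by
  obtain ⟨P, Q, a, hrep, hf, ha, ha0, hroot, hmult⟩ := h
  have hQ : fm N Q ≠ 0 := hrep.1
  have hP : fm N P ≠ 0 := by
    intro h0
    apply hf
    rw [hrep.2, h0, zero_div]
  have hPd := PtInv.mdiff_ev N P
  have hQd := PtInv.mdiff_ev N Q
  have hP0 := PtInv.ev_ne_zero N hP
  have hQ0 := PtInv.ev_ne_zero N hQ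
  rw [Ramif.valPt_eq_ordFrac N τ hrep hf]
  have hrel : ordFrac (ev N P) (ev N Q) τ = (n : ℤ) * ordFrac a (ev N Q) τ := by
    have h1 : ev N P * ev N Q ^ n = ev N Q * a ^ n := funext hroot
    have h2 : OrdH.ordAt (ev N P * ev N Q ^ n) τ = OrdH.ordAt (ev N Q * a ^ n) τ := by rw [h1]
    rw [ordAt_mul hPd (hQd.pow n) hP0 (pow_ne_zero' hQd hQ0 n) τ, ordAt_pow hQd hQ0 n τ,
      ordAt_mul hQd (ha.pow n) hQ0 (pow_ne_zero' ha ha0 n) τ, ordAt_pow ha ha0 n τ] at h2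
    have h3 : ((OrdH.ordAt (ev N P) τ : ℕ) : ℤ) + (n : ℤ) * (OrdH.ordAt (ev N Q) τ : ℕ)
        = (OrdH.ordAt (ev N Q) τ : ℕ) + (n : ℤ) * (OrdH.ordAt a τ : ℕ) := by
      exact_mod_cast h2
    unfold ordFrac
    linear_combination h3
  have hinv : ∀ δ : SL(2, ℤ), δ ∈ Gamma0 N → δ • τ = τ →
      ∀ z : ℍ, a (δ • z) * ev N Q z = a z * ev N Q (δ • z) := by
    intro δ hδ hfix z
    have h1 := hmult ⟨δ, hδ⟩ z
    rw [hχ ⟨δ, hδ⟩ ⟨τ, hfix⟩] at h1
    simpa using h1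
  have hdiv : (e : ℤ) ∣ ordFrac a (ev N Q) τ := by
    rcases he with rfl | ⟨rfl, δ, hδ, hδ2, hfix⟩ | ⟨rfl, δ, hδ, hδ3, hδne, hfix⟩
    · simp
    · exact_mod_cast two_dvd_ordFrac_of_fixed ha hQd ha0 hQ0 δ τ hfix hδ2 (hinv δ hδ hfix)
    · exact_mod_cast three_dvd_ordFrac_of_fixed ha hQd ha0 hQ0 δ τ hfix hδ3 hδne (hinv δ hδ hfix)
  rw [hrel, Nat.cast_mul]
  exact mul_dvd_mul_left _ hdiv

end Fermat.Agent.S24C.Kum
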